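import Fermat.Agent.LevelM.Forms
import Fermat.Agent.Igusa.Base

/-!
# Expansions in `exp (2πiτ/h)`: power series, inverses, change of level

Extends the calculus of `Igusa.HasExp`: a convergent power series is an expansion
(`hasExp_of_hasSum`), expansions of nowhere vanishing functions can be inverted (`hasExp_inv`),
and an expansion of level `d` gives one of every multiple level (`hasExp_expand`).
-/

set_option autoImplicit false

noncomputable section

open Complex Filter Topology UpperHalfPlane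
open scoped Manifold MatrixGroups ModularForm

namespace Fermat.Agent.LevelM

open Fermat.Agent.Igusa (HasExp)

local notation "qP" => Function.Periodic.qParam

/-- Mathlib's `qParam` agrees with `qM`. -/
theorem qP_eq_qM (h : ℕ) (τ : ℍ) : qP (h : ℝ) (τ : ℂ) = qM h τ := by
  simp only [qM, ex, Function.Periodic.qParam, Complex.ofReal_natCast]
  congr 1
  ring

variable {h : ℕ} [NeZero h]

omit [NeZero h] in
theorem qP_ne_zero (τ : ℍ) : qP (h : ℝ) (τ : ℂ) ≠ 0 := Function.Periodic.qParam_ne_zero _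

theorem exists_norm_qM {r : ℝ} (h0 : 0 < r) (h1 : r < 1) : ∃ τ : ℍ, ‖qM h τ‖ = r := by
  have hh : (0 : ℝ) < h := by exact_mod_cast NeZero.pos h
  have hlog : Real.log r < 0 := Real.log_neg h0 h1
  refine ⟨⟨(-(h : ℝ) * Real.log r / (2 * Real.pi) : ℝ) * Complex.I, ?_⟩, ?_⟩
  · simp only [mul_im, ofReal_re, Complex.I_im, mul_one, ofReal_im, Complex.I_re, mul_zero,
      add_zero]
    exact div_pos (by nlinarith) (by positivity)
  · rw [qM, norm_ex]
    simp only [div_natCast_im, mul_im, ofReal_re, Complex.I_im, mul_one,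
      ofReal_im, Complex.I_re, mul_zero, add_zero]
    rw [show -2 * Real.pi * (-(h : ℝ) * Real.log r / (2 * Real.pi) / h) = Real.log r by
      field_simp, Real.exp_log h0]

theorem summable_norm_of_hasSum {f : ℍ → ℂ} {a : ℕ → ℂ}
    (hf : ∀ τ, HasSum (fun n => a n * qM h τ ^ n) (f τ)) {r : ℝ} (h0 : 0 ≤ r) (h1 : r < 1) :
    Summable fun n => ‖a n‖ * r ^ n := by
  rcases h0.eq_or_lt with rfl | h0'
  · exact summable_of_ne_finset_zero (s := {0}) fun n hn => by
      simp [zero_pow (show n ≠ 0 by simpa using hn)]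
  · obtain ⟨τ, hτ⟩ := exists_norm_qM (h := h) h0' h1
    exact (hf τ).summable.norm.congr fun n => by rw [norm_mul, norm_pow, hτ]

/-- A function given by a power series in `qM` has that expansion. -/
theorem hasExp_of_hasSum {f : ℍ → ℂ} {a : ℕ → ℂ}
    (hf : ∀ τ, HasSum (fun n => a n * qM h τ ^ n) (f τ)) :
    HasExp h f (HahnSeries.ofPowerSeries ℤ ℂ (PowerSeries.mk a)) := by
  refine Igusa.hasExp_ofPowerSeries
    (mdifferentiable_of_hasSum (fun r => summable_norm_of_hasSum hf) hf).1 fun τ => ?_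
  simpa [qP_eq_qM] using hf τ

omit [NeZero h] in
theorem hasExp_qP_zpow (m : ℤ) :
    HasExp h (fun τ => qP (h : ℝ) τ ^ m) (HahnSeries.single m 1) := by
  refine ⟨?_, fun τ => ?_⟩
  · rw [UpperHalfPlane.mdifferentiable_iff]
    refine (((Function.Periodic.differentiable_qParam (h := (h : ℝ))).differentiableOn).zpow
      (m := m) (Or.inl fun z _ => Function.Periodic.qParam_ne_zero z)).congr fun z hz => ?_
    simp [UpperHalfPlane.ofComplex_apply_of_im_pos hz]
  · have := hasSum_single (f := fun n : ℤ =>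
      (HahnSeries.single m (1 : ℂ)).coeff n * qP (h : ℝ) τ ^ n) m fun n hn => by
      rw [HahnSeries.coeff_single_of_ne hn, zero_mul]
    simpa using this

omit [NeZero h] in
theorem hasExp_periodic {f : ℍ → ℂ} {s : LaurentSeries ℂ} (hf : HasExp h f s) :
    Function.Periodic (f ∘ ofComplex) ((h : ℝ) : ℂ) := by
  intro z
  rcases le_or_gt z.im 0 with hz | hz
  · simp only [Function.comp_apply]
    rw [ofComplex_apply_of_im_nonpos (by simpa using hz), ofComplex_apply_of_im_nonpos hz]
  · have hz' : 0 < (z + ((h : ℝ) : ℂ)).im := by simpa using hz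
    simp only [Function.comp_apply, ofComplex_apply_of_im_pos hz, ofComplex_apply_of_im_pos hz']
    refine ((hf.2 ⟨z + ((h : ℝ) : ℂ), hz'⟩).congr_fun fun n => ?_).unique (hf.2 ⟨z, hz⟩)
    congr 2
    simp only [Function.Periodic.qParam]
    rcases eq_or_ne h 0 with rfl | hh
    · simp
    · have hh' : (h : ℂ) ≠ 0 := Nat.cast_ne_zero.2 hh
      push_cast
      rw [show 2 * (Real.pi : ℂ) * Complex.I * (z + h) / h
        = 2 * Real.pi * Complex.I * z / h + 2 * Real.pi * Complex.I by field_simp,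
        Complex.exp_add, Complex.exp_two_pi_mul_I, mul_one]

/-- Shifting a series to start at exponent zero. -/
theorem tendsto_shift {f : ℍ → ℂ} {s : LaurentSeries ℂ} (hf : HasExp h f s) {m : ℤ}
    (hm : ∀ n < m, s.coeff n = 0) :
    Tendsto (fun τ : ℍ => f τ * qP (h : ℝ) τ ^ (-m)) atImInfty (𝓝 (s.coeff m)) := by
  have hs : ∀ τ : ℍ, HasSum (fun k : ℕ => s.coeff (m + k) * qM h τ ^ k)
      (f τ * qP (h : ℝ) τ ^ (-m)) := fun τ => by
    have hinj : Function.Injective fun k : ℕ => m + (k : ℤ) := fun a b hab => by simpa using hab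
    have h1 := ((hinj.hasSum_iff fun n hn => ?_).mpr (hf.2 τ)).mul_right (qP (h : ℝ) τ ^ (-m))
    · refine h1.congr_fun fun k => ?_
      rw [Function.comp_apply, mul_assoc, ← zpow_add₀ (qP_ne_zero τ), qP_eq_qM]
      rw [show m + (k : ℤ) + -m = (k : ℤ) by ring, zpow_natCast]
    · rw [hm n (by by_contra hn'; exact hn ⟨(n - m).toNat, by simp only; omega⟩), zero_mul]
  have := (mdifferentiable_of_hasSum (fun r => summable_norm_of_hasSum hs) hs).2
  simpa using this

/-- The inverse of a nowhere zero function with an expansion. -/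
theorem hasExp_inv {f : ℍ → ℂ} {s : LaurentSeries ℂ} (hf : HasExp h f s) (h0 : ∀ τ, f τ ≠ 0) :
    HasExp h (fun τ => (f τ)⁻¹) s⁻¹ := by
  have hs0 : s ≠ 0 := by
    rintro rfl
    refine h0 UpperHalfPlane.I ((hf.2 _).unique ?_)
    simp
  set m := s.order
  have hc : s.coeff m ≠ 0 := mt HahnSeries.coeff_order_eq_zero.mp hs0
  set g : ℍ → ℂ := fun τ => f τ * qP (h : ℝ) τ ^ (-m) with hg
  have hgExp : HasExp h g (s * HahnSeries.single (-m) 1) := hf.mul (hasExp_qP_zpow (-m))
  have hg0 : ∀ τ, g τ ≠ 0 := fun τ => mul_ne_zero (h0 τ) (zpow_ne_zero _ (qP_ne_zero τ))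
  set G : ℍ → ℂ := fun τ => (g τ)⁻¹ with hG
  have hGd : MDiff G := by
    have := hgExp.1
    rw [UpperHalfPlane.mdifferentiable_iff] at this ⊢
    exact this.inv fun z _ => hg0 _
  have hlim := tendsto_shift hf (m := m) fun n hn => HahnSeries.coeff_eq_zero_of_lt_order hn
  have hGb : IsBoundedAtImInfty G := (hlim.inv₀ hc).isBigO_one ℝ
  have hGp : Function.Periodic (G ∘ ofComplex) ((h : ℝ) : ℂ) := fun z =>
    congrArg (·⁻¹) (hasExp_periodic hgExp z)
  have hh : (0 : ℝ) < h := by exact_mod_cast NeZero.pos h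
  have hGExp := Igusa.hasExp_ofPowerSeries (h := h) (p := qExpansion (h : ℝ) G) hGd fun τ => by
    simpa using UpperHalfPlane.hasSum_qExpansion hh hGp hGd hGb τ
  set t := HahnSeries.ofPowerSeries ℤ ℂ (qExpansion (h : ℝ) G) with ht
  have hfin : HasExp h (fun τ => (f τ)⁻¹) (t * HahnSeries.single (-m) 1) := by
    convert hGExp.mul (hasExp_qP_zpow (-m)) using 1
    funext τ
    simp only [Pi.mul_apply, hG, hg, mul_inv, zpow_neg, inv_inv, mul_assoc,
      mul_inv_cancel₀ (zpow_ne_zero m (qP_ne_zero τ)), mul_one]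
  have hone : HasExp h (fun _ => (1 : ℂ)) (s * (t * HahnSeries.single (-m) 1)) := by
    convert hf.mul hfin using 1
    funext τ
    simp [mul_inv_cancel₀ (h0 τ)]
  have e : s * (t * HahnSeries.single (-m) 1) = 1 := by
    simpa using hone.unique (Igusa.hasExp_const h 1)
  rwa [← eq_inv_of_mul_eq_one_right e]

/-- Change of level. -/
theorem hasExp_expand {d : ℕ} {f : ℍ → ℂ} {s : LaurentSeries ℂ} (hf : HasExp d f s) (k : ℕ)
    [NeZero k] (hd : d * k = h) :
    HasExp h f (ModularCurve.qExpand ℂ k s) := by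
  have hd0 : d ≠ 0 := fun h0 => NeZero.ne h (by rw [← hd, h0, zero_mul])
  have := hf.comp_affine (H := h) 1 0 1 k 1 fun τ => by
    simp only [Igusa.coe_affine, Nat.cast_one, one_mul, Int.cast_zero, add_zero, div_one,
      Units.val_one, Function.Periodic.qParam, ← Complex.exp_nat_mul, ← hd, Nat.cast_mul]
    congr 1
    have : (k : ℂ) ≠ 0 := Nat.cast_ne_zero.2 (NeZero.ne k)
    have : (d : ℂ) ≠ 0 := Nat.cast_ne_zero.2 hd0
    push_cast
    field_simp
  simp only [Igusa.twist_one_apply] at this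
  convert this using 1
  funext τ
  simp only [Function.comp_apply]
  congr 1
  ext
  simp

end Fermat.Agent.LevelM
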