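import Fermat.Agent.LevelM.Forms

/-!
# The Weierstrass function as `-ell'/(2πi)` and the weight two forms `pdiff v w`

`pe z τ = x/(1-x)² + ∑_{n ≥ 1} (qⁿx/(1-qⁿx)² + qⁿx⁻¹/(1-qⁿx⁻¹)²)`, expansion at rational points,
and `pdiff v w τ = pe (v₀τ+v₁) τ - pe (w₀τ+w₁) τ` of weight two, equivariant for `SL(2, ℤ)`.
-/

set_option autoImplicit false

noncomputable section

open Complex Filter Topology Set
open UpperHalfPlane hiding I
open scoped MatrixGroups ModularForm Manifold

namespace Fermat.Agent.LevelM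

theorem hasDerivAt_ex (z : ℂ) : HasDerivAt ex (2 * Real.pi * I * ex z) z := by
  have h := ((hasDerivAt_id z).const_mul (2 * Real.pi * I)).cexp
  exact h.congr_deriv (by simp [ex]; ring)

/-- `y/(1-y)²`. -/
def rat2 (y : ℂ) : ℂ := y / (1 - y) ^ 2

theorem hasDerivAt_rat1_ex (c : ℂ) {z : ℂ} (h : ex (c + z) ≠ 1) :
    HasDerivAt (fun w => rat1 (ex (c + w))) (2 * Real.pi * I * rat2 (ex (c + z))) z := by
  have h0 : (1 : ℂ) - ex (c + z) ≠ 0 := sub_ne_zero.2 (Ne.symm h)
  have h1 : HasDerivAt (fun w => ex (c + w)) (2 * Real.pi * I * ex (c + z)) z :=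
    (((hasDerivAt_ex (c + z)).comp z ((hasDerivAt_id z).const_add c)).congr_of_eventuallyEq
      (Eventually.of_forall fun w => rfl)).congr_deriv (by simp)
  have h2 := h1.div ((hasDerivAt_const z (1 : ℂ)).sub h1) h0
  refine h2.congr_deriv ?_
  simp only [rat2, Pi.sub_apply]
  field_simp
  ring

variable {τ : ℂ}

/-- The derived tail term. -/
def dterm (τ z : ℂ) (n : ℕ) : ℂ := rat2 (ex ((n + 1) * τ + z))

/-- The derived tail sum. -/
def dsum (τ z : ℂ) : ℂ := ∑' n, dterm τ z n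

variable (hτ : 0 < τ.im)

include hτ in
theorem hasSum_dterm {z₀ : ℂ} (h : ∀ n : ℕ, ex ((n + 1) * τ + z₀) ≠ 1) :
    HasSum (fun n => 2 * Real.pi * I * dterm τ z₀ n) (deriv (psum τ) z₀) := by
  obtain ⟨n₀, u, hu, hb⟩ := exists_bound hτ τ z₀ rfl
  have hd : ∀ (n : ℕ) (z : ℂ), ex ((n + 1) * τ + z) ≠ 1 →
      HasDerivAt (fun z => term τ z n) (2 * Real.pi * I * dterm τ z n) z :=
    fun n z hz => hasDerivAt_rat1_ex _ hz
  have hne : ∀ n, ∀ z ∈ Metric.ball z₀ 1,
      ex (((n + n₀ : ℕ) + 1) * τ + z) ≠ 1 := fun n z hz h1 => by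
    have := (hb n z hz).1
    rw [h1, norm_one] at this
    norm_num at this
  have hF : ∀ n, DifferentiableOn ℂ (fun z => term τ z (n + n₀)) (Metric.ball z₀ 1) :=
    fun n z hz => (hd _ z (hne n z hz)).differentiableAt.differentiableWithinAt
  have htail := hasSum_deriv_of_summable_norm hu hF Metric.isOpen_ball
    (fun n z hz => (hb n z hz).2) (Metric.mem_ball_self one_pos)
  have htd : DifferentiableAt ℂ (fun z => ∑' n, term τ z (n + n₀)) z₀ :=
    (differentiableOn_tsum_of_summable_norm hu hF Metric.isOpen_ball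
      fun n z hz => (hb n z hz).2).differentiableAt (Metric.ball_mem_nhds z₀ one_pos)
  have htail' : HasSum (fun n => 2 * Real.pi * I * dterm τ z₀ (n + n₀))
      (deriv (fun z => ∑' n, term τ z (n + n₀)) z₀) :=
    htail.congr_fun fun n => ((hd _ z₀ (h _)).deriv).symm
  have hhead : HasDerivAt (fun z => ∑ n ∈ Finset.range n₀, term τ z n)
      (∑ n ∈ Finset.range n₀, 2 * Real.pi * I * dterm τ z₀ n) z₀ :=
    HasDerivAt.fun_sum fun n _ => hd n z₀ (h n)
  have hsplit : psum τ = fun z => (∑ n ∈ Finset.range n₀, term τ z n) +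
      ∑' n, term τ z (n + n₀) :=
    funext fun z => ((summable_term hτ z).sum_add_tsum_nat_add n₀).symm
  have hd' : deriv (fun z => (∑ n ∈ Finset.range n₀, term τ z n) +
      ∑' n, term τ z (n + n₀)) z₀ = _ :=
    (hhead.add htd.hasDerivAt).deriv
  rw [hsplit, hd', ← hasSum_nat_add_iff' n₀, add_sub_cancel_left]
  exact htail'

include hτ in
theorem summable_dterm {z : ℂ} (h : ∀ n : ℕ, ex ((n + 1) * τ + z) ≠ 1) :
    Summable (dterm τ z) :=
  (summable_mul_left_iff two_pi_I_ne_zero).1 (hasSum_dterm hτ h).summable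

include hτ in
theorem hasDerivAt_psum {z : ℂ} (h : ∀ n : ℕ, ex ((n + 1) * τ + z) ≠ 1) :
    HasDerivAt (psum τ) (2 * Real.pi * I * dsum τ z) z := by
  have h1 := (hasSum_dterm hτ h).tsum_eq
  rw [tsum_mul_left] at h1
  rw [dsum, h1]
  exact (differentiableAt_psum hτ h).hasDerivAt

/-- The normalised Weierstrass function. -/
def pe (z τ : ℂ) : ℂ := -deriv (fun w => ell w τ) z / (2 * Real.pi * I)

include hτ in
theorem hasDerivAt_ell {z : ℂ} (hz : z ∉ lat τ) :
    HasDerivAt (fun w => ell w τ) (-(2 * Real.pi * I) * pe z τ) z := by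
  refine (differentiableAt_ell hτ hz).hasDerivAt.congr_deriv ?_
  rw [pe, neg_div, neg_mul_neg, mul_div_cancel₀ _ two_pi_I_ne_zero]

include hτ in
/-- The series of `pe`. -/
theorem pe_eq {z : ℂ} (hz : z ∉ lat τ) :
    pe z τ = rat2 (ex z) + dsum τ z + dsum τ (-z) := by
  have h1 : (1 : ℂ) - ex z ≠ 0 := sub_ne_zero.2 (Ne.symm (ex_ne_one_of_notMem hz))
  have d1 : HasDerivAt (fun w => 1 / (1 - ex w)) (2 * Real.pi * I * rat2 (ex z)) z := by
    refine ((hasDerivAt_const z (1 : ℂ)).div ((hasDerivAt_const z (1 : ℂ)).sub (hasDerivAt_ex z))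
      h1).congr_deriv ?_
    simp only [rat2, Pi.sub_apply]
    field_simp
    ring
  have d2 := hasDerivAt_psum hτ (ex_term_ne_one hz)
  have d3 : HasDerivAt (fun w => psum τ (-w)) (-(2 * Real.pi * I * dsum τ (-z))) z := by
    simpa [Function.comp_def] using
      (hasDerivAt_psum hτ (ex_term_ne_one (neg_notMem hz))).comp z (hasDerivAt_neg z)
  have d : HasDerivAt (fun w => ell w τ)
      (0 - 2 * Real.pi * I * rat2 (ex z) -
        (2 * Real.pi * I * dsum τ z - -(2 * Real.pi * I * dsum τ (-z)))) z :=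
    ((hasDerivAt_const z ((1 : ℂ) / 2)).sub d1).sub (d2.sub d3)
  rw [pe, d.deriv, div_eq_iff two_pi_I_ne_zero]
  ring

theorem pe_add_intCast (z : ℂ) (n : ℤ) : pe (z + n) τ = pe z τ := by
  rw [pe, pe, ← deriv_comp_add_const (f := fun w => ell w τ)]
  simp only [ell_add_intCast]

theorem pe_tau_add_one (z : ℂ) : pe z (τ + 1) = pe z τ := by
  rw [pe, pe]
  simp only [ell_tau_add_one]

include hτ in
theorem pe_add_intCast_mul_tau {z : ℂ} (hz : z ∉ lat τ) (a : ℤ) :
    pe (z + a * τ) τ = pe z τ := by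
  rw [pe, pe, ← deriv_comp_add_const (f := fun w => ell w τ)]
  have e : (fun w => ell (w + (a : ℂ) * τ) τ) =ᶠ[𝓝 z] fun w => ell w τ - a := by
    filter_upwards [eventually_notMem hτ hz] with w hw
    exact ell_add_intCast_mul_tau hτ hw a
  rw [e.deriv_eq, deriv_sub_const]

include hτ in
/-- `pe` is periodic for the lattice. -/
theorem pe_add_lat {z : ℂ} (hz : z ∉ lat τ) (a b : ℤ) : pe (z + (a * τ + b)) τ = pe z τ := by
  rw [← add_assoc, pe_add_intCast, pe_add_intCast_mul_tau hτ hz]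

include hτ in
theorem pe_neg {z : ℂ} (hz : z ∉ lat τ) : pe (-z) τ = pe z τ := by
  rw [pe, pe]
  have e : (fun w => ell (-w) τ) =ᶠ[𝓝 z] fun w => -ell w τ := by
    filter_upwards [eventually_notMem hτ hz] with w hw
    exact ell_neg (ex_ne_one_of_notMem hw)
  have h := e.deriv_eq
  rw [deriv_comp_neg (f := fun w => ell w τ),
    (hasDerivAt_ell hτ hz).fun_neg.deriv] at h
  rw [neg_inj.1 h, (hasDerivAt_ell hτ hz).deriv]

include hτ in
/-- Transformation under `τ ↦ -1/τ`. -/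
theorem pe_div_tau {z : ℂ} (hz : z ∉ lat τ) :
    pe (z / τ) (-1 / τ) = τ ^ 2 * pe z τ - τ / (2 * Real.pi * I) := by
  have h0 := tau_ne_zero hτ
  have hz' : z / τ ∉ lat (-1 / τ) := fun h => hz ((div_tau_mem_lat_iff hτ).1 h)
  have e : (fun w => ell (w / τ) (-1 / τ)) =ᶠ[𝓝 z] fun w => τ * ell w τ + w := by
    filter_upwards [eventually_notMem hτ hz] with w hw
    exact ell_div_tau hτ hw
  have d1 : HasDerivAt (fun w => ell (w / τ) (-1 / τ))
      (-(2 * Real.pi * I) * pe (z / τ) (-1 / τ) * (1 / τ)) z :=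
    HasDerivAt.comp (h₂ := fun w => ell w (-1 / τ)) (h := fun w : ℂ => w / τ) z
      (hasDerivAt_ell (im_neg_inv_pos hτ) hz') ((hasDerivAt_id z).div_const τ)
  have d2 : HasDerivAt (fun w => τ * ell w τ + w)
      (τ * (-(2 * Real.pi * I) * pe z τ) + 1) z :=
    ((hasDerivAt_ell hτ hz).const_mul τ).add (hasDerivAt_id z)
  have h := (d1.congr_of_eventuallyEq e.symm).unique d2
  field_simp at h ⊢
  linear_combination -h

/-- The weighted divisor sum. -/
def tail2 (M : ℕ) {R : Type*} [CommRing R] (k₀ : ℕ) (u : R) (N : ℕ) : R :=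
  ∑ p ∈ N.divisorsAntidiagonal, if (p.1 : ZMod M) = k₀ then (p.2 : R) * u ^ p.2 else 0

variable {M : ℕ} [NeZero M]

include hτ in
/-- The derived tail sum as a power series in `exp (2πiτ/M)`. -/
theorem hasSum_dtail {k₀ : ℕ} (hk₀ : 0 < k₀) (hk₀M : k₀ ≤ M) {d : ℂ} (hd : ‖ex d‖ = 1) :
    HasSum (fun N : ℕ => tail2 M k₀ (ex d) N * ex (τ / M) ^ N)
      (dsum τ ((((k₀ : ℂ) - M) / M) * τ + d)) :=
  hasSum_tail_series hτ hk₀ hk₀M hd (fun k => (k : ℂ)) rat2 fun y hy => by
    have h := (hasSum_nat_add_iff' (f := fun m : ℕ => (m : ℂ) * y ^ m) 1).2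
      (hasSum_coe_mul_geometric_of_norm_lt_one hy)
    simpa [rat2] using h

/-- The constant term of `pe` at `(i/M, j/M)`, `z = ex (j/M)`. -/
def pConst {R : Type*} [Field R] (i : ℕ) (z : R) : R :=
  if i = 0 then z / (1 - z) ^ 2 else 0

/-- The positive coefficients of `pe` at `(i/M, j/M)`. -/
def pCoeffPos {R : Type*} [CommRing R] (M i : ℕ) (z zinv : R) (N : ℕ) : R :=
  tail2 M (if i = 0 then M else i) z N + tail2 M (M - i) zinv N

/-- The coefficients of `pe` at `(i/M, j/M)` in `exp (2πiτ/M)`. -/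
def pCoeff {R : Type*} [Field R] (M i : ℕ) (z : R) (N : ℕ) : R :=
  if N = 0 then pConst i z else pCoeffPos M i z z⁻¹ N

include hτ in
/-- **`q`-expansion** of `pe` at a point of the parallelogram. -/
theorem hasSum_pe {i : ℕ} (hi : i < M) {d : ℂ} (hd : ‖ex d‖ = 1)
    (hmem : (i : ℂ) / M * τ + d ∉ lat τ) :
    HasSum (fun N : ℕ => pCoeff M i (ex d) N * ex (τ / M) ^ N)
      (pe ((i : ℂ) / M * τ + d) τ) := by
  have hM0 : (M : ℂ) ≠ 0 := cast_M_ne_zero
  have hdinv : ‖ex (-d)‖ = 1 := by rw [ex_neg, norm_inv, hd, inv_one]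
  set z := (i : ℂ) / M * τ + d with hz
  have hminus := hasSum_dtail hτ (M := M) (k₀ := M - i) (by omega) (Nat.sub_le M i) hdinv
  rw [show ((((M - i : ℕ) : ℂ) - M) / M) * τ + -d = -z by
    rw [hz, Nat.cast_sub hi.le]; field_simp; ring, ex_neg] at hminus
  have key : ∀ (k : ℕ) (P : ℂ), HasSum (fun N => tail2 M k (ex d) N * ex (τ / M) ^ N) P →
      k = (if i = 0 then M else i) →
      pe z τ = pConst i (ex d) + P + dsum τ (-z) →
      HasSum (fun N : ℕ => pCoeff M i (ex d) N * ex (τ / M) ^ N) (pe z τ) := by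
    intro k P hP hk heq
    rw [heq, add_assoc]
    have hc : HasSum (fun N : ℕ => if N = 0 then pConst i (ex d) else 0)
        (pConst i (ex d)) := hasSum_ite_eq 0 _
    refine (hc.add (hP.add hminus)).congr_fun fun N => ?_
    rcases eq_or_ne N 0 with rfl | hN
    · simp [pCoeff, tail2]
    · rw [pCoeff, if_neg hN, if_neg hN, pCoeffPos, hk, zero_add, add_mul]
  rcases eq_or_ne i 0 with rfl | hi0
  · have hplus := hasSum_dtail hτ (M := M) (k₀ := M) (NeZero.pos M) le_rfl hd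
    rw [sub_self, zero_div, zero_mul, zero_add] at hplus
    have hzd : z = d := by rw [hz]; simp
    refine key M _ hplus (by simp) ?_
    rw [pe_eq hτ hmem, pConst, if_pos rfl, hzd, rat2]
  · have hplus := hasSum_dtail hτ (M := M) (k₀ := i) (Nat.pos_of_ne_zero hi0) hi.le hd
    rw [show (((i : ℂ) - M) / M) * τ + d = z - τ by rw [hz]; field_simp; ring] at hplus
    refine key i _ hplus (by simp [hi0]) ?_
    have hne : ∀ n : ℕ, ex ((n + 1) * τ + (z - τ)) ≠ 1 := fun n h => by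
      rw [show ((n : ℂ) + 1) * τ + (z - τ) = z + (((n : ℤ) : ℂ) * τ + ((0 : ℤ) : ℂ)) by
        push_cast; ring] at h
      exact ex_ne_one_of_notMem (add_notMem hmem n 0) h
    have h1 : dsum τ (z - τ) = rat2 (ex z) + dsum τ z := by
      rw [dsum, (summable_dterm hτ hne).tsum_eq_zero_add, dsum]
      congr 1
      · simp [dterm]
      · refine tsum_congr fun n => ?_
        simp only [dterm]
        congr 2
        push_cast
        ring
    rw [pe_eq hτ hmem, pConst, if_neg hi0, h1]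
    ring

/-- The point attached to a vector. -/
def pt (v : Fin 2 → ℚ) (τ : ℍ) : ℂ := (v 0 : ℂ) * τ + v 1

/-- The weight two form attached to two vectors. -/
def pdiff (v w : Fin 2 → ℚ) : ℍ → ℂ := fun τ => pe (pt v τ) τ - pe (pt w τ) τ

theorem pdiff_slash_T (v w : Fin 2 → ℚ) :
    pdiff v w ∣[(2 : ℤ)] ModularGroup.T =
      pdiff (vmul v ModularGroup.T) (vmul w ModularGroup.T) := by
  funext τ
  rw [ModularForm.SL_slash_apply]
  have hT : ((ModularGroup.T • τ : ℍ) : ℂ) = (τ : ℂ) + 1 := by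
    rw [modular_T_smul, coe_vadd]
    push_cast
    ring
  have hd : UpperHalfPlane.denom ((ModularGroup.T : SL(2, ℤ)) : GL (Fin 2) ℝ) τ = 1 := by
    simp [ModularGroup.denom_apply, ModularGroup.T]
  have e : ∀ u : Fin 2 → ℚ,
      pe (pt u (ModularGroup.T • τ)) ((ModularGroup.T • τ : ℍ) : ℂ) =
        pe (pt (vmul u ModularGroup.T) τ) τ := fun u => by
    rw [pt, pt, hT, pe_tau_add_one, vmul_apply, vmul_apply]
    congr 1
    simp [ModularGroup.T]
    ring
  simp only [pdiff, hd, one_zpow, mul_one, e]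

theorem pdiff_slash_S {v w : Fin 2 → ℚ} (hv : Adm v) (hw : Adm w) :
    pdiff v w ∣[(2 : ℤ)] ModularGroup.S =
      pdiff (vmul v ModularGroup.S) (vmul w ModularGroup.S) := by
  funext τ
  rw [ModularForm.SL_slash_apply]
  have hS : ((ModularGroup.S • τ : ℍ) : ℂ) = -1 / (τ : ℂ) := by
    rw [modular_S_smul]
    simp [neg_div, inv_neg]
  have hd : UpperHalfPlane.denom ((ModularGroup.S : SL(2, ℤ)) : GL (Fin 2) ℝ) τ = (τ : ℂ) := by
    simp [ModularGroup.denom_S]
  have h0 : (τ : ℂ) ≠ 0 := τ.ne_zero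
  have e : ∀ u : Fin 2 → ℚ, Adm u →
      pe (pt u (ModularGroup.S • τ)) ((ModularGroup.S • τ : ℍ) : ℂ) =
        (τ : ℂ) ^ 2 * pe (pt (vmul u ModularGroup.S) τ) τ - (τ : ℂ) / (2 * Real.pi * I) := by
    intro u hu
    have hn : pt (vmul u ModularGroup.S) τ ∉ lat (τ : ℂ) := (hu.vmul _).notMem_lat τ
    rw [← pe_div_tau τ.im_pos hn, hS]
    congr 1
    rw [pt, pt, hS, vmul_apply, vmul_apply]
    simp [ModularGroup.S]
    field_simp
    ring
  simp only [pdiff, hd, e v hv, e w hw]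
  rw [zpow_neg, zpow_ofNat]
  field_simp
  ring

/-- **Equivariance** in weight two. -/
theorem pdiff_slash {v w : Fin 2 → ℚ} (hv : Adm v) (hw : Adm w) (γ : SL(2, ℤ)) :
    pdiff v w ∣[(2 : ℤ)] γ = pdiff (vmul v γ) (vmul w γ) := by
  have hγ : γ ∈ Subgroup.closure {ModularGroup.S, ModularGroup.T} := by
    simp [SpecialLinearGroup.SL2Z_generators]
  induction hγ using Subgroup.closure_induction generalizing v w with
  | mem x hx =>
    rcases hx with rfl | rfl
    · exact pdiff_slash_S hv hw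
    · exact pdiff_slash_T v w
  | one => rw [SlashAction.slash_one, vmul_one, vmul_one]
  | mul x y _ _ hx hy =>
    rw [SlashAction.slash_mul, hx hv hw, hy (hv.vmul x) (hw.vmul x), vmul_mul, vmul_mul]
  | inv x _ hx =>
    have h := hx (hv.vmul x⁻¹) (hw.vmul x⁻¹)
    rw [← vmul_mul, ← vmul_mul, inv_mul_cancel, vmul_one, vmul_one] at h
    rw [← h, ← SlashAction.slash_mul, mul_inv_cancel, SlashAction.slash_one]

theorem pe_pt_neg {v : Fin 2 → ℚ} (hv : Adm v) (τ : ℍ) : pe (pt (-v) τ) τ = pe (pt v τ) τ := by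
  rw [show pt (-v) τ = -pt v τ by simp only [pt, Pi.neg_apply]; push_cast; ring]
  exact pe_neg τ.im_pos (hv.notMem_lat τ)

/-- The coefficients of `pe` at a vector `(a/M, b/M)`. -/
def pSeries (M : ℕ) (a b : ℤ) (N : ℕ) : ℂ := pCoeff M (a % M).toNat (ex ((b : ℂ) / M)) N

/-- **Expansion** of `pe` at a vector `(a/M, b/M)`. -/
theorem hasSum_pe_pt {v : Fin 2 → ℚ} (hv : Adm v) {a b : ℤ}
    (ha : v 0 = (a : ℚ) / M) (hb : v 1 = (b : ℚ) / M) (τ : ℍ) :
    HasSum (fun N => pSeries M a b N * qM M τ ^ N) (pe (pt v τ) τ) := by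
  have hM : (0 : ℤ) < M := by exact_mod_cast NeZero.pos M
  have h0 : 0 ≤ a % M := Int.emod_nonneg _ hM.ne'
  have h1 : a % M < M := Int.emod_lt_of_pos _ hM
  have hM0 : (M : ℂ) ≠ 0 := cast_M_ne_zero
  set i := (a % M).toNat with hi
  have e : ((i : ℕ) : ℂ) / M * τ + (b : ℂ) / M
      = pt v τ + (((-(a / (M : ℤ)) : ℤ) : ℂ) * τ + ((0 : ℤ) : ℂ)) := by
    rw [pt, ha, hb, show ((i : ℕ) : ℂ) = ((a % M : ℤ) : ℂ) by
      rw [hi, ← Int.cast_natCast, Int.toNat_of_nonneg h0],
      show (a % (M : ℤ)) = a - M * (a / M) by have := Int.emod_add_mul_ediv a M; omega]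
    push_cast
    field_simp
    ring
  have hnot : ((i : ℕ) : ℂ) / M * τ + (b : ℂ) / M ∉ lat (τ : ℂ) := by
    rw [e]; exact add_notMem (hv.notMem_lat τ) _ _
  have hd : ‖ex ((b : ℂ) / M)‖ = 1 := by
    have := norm_ex_ofRat ((b : ℚ) / M)
    push_cast at this
    exact this
  have h := hasSum_pe (M := M) τ.im_pos (show i < M by omega) hd hnot
  rw [e, pe_add_lat τ.im_pos (show pt v τ ∉ lat (τ : ℂ) from hv.notMem_lat τ)] at h
  exact h

omit [NeZero M] in
theorem norm_tail2_le {k₀ : ℕ} {u : ℂ} (hu : ‖u‖ = 1) (N : ℕ) :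
    ‖tail2 M k₀ u N‖ ≤ (N : ℝ) ^ 2 := by
  refine (norm_sum_le _ _).trans ?_
  calc ∑ p ∈ N.divisorsAntidiagonal, ‖if (p.1 : ZMod M) = k₀ then (p.2 : ℂ) * u ^ p.2 else 0‖
      ≤ ∑ _p ∈ N.divisorsAntidiagonal, (N : ℝ) :=
        Finset.sum_le_sum fun p hp => by
          have hle : p.2 ≤ N := Nat.divisor_le (Nat.snd_mem_divisors_of_mem_antidiagonal hp)
          split_ifs
          · simp only [norm_mul, norm_pow, hu, one_pow, mul_one, Complex.norm_natCast]
            exact_mod_cast hle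
          · simp
    _ ≤ (N : ℝ) ^ 2 := by
        rw [Finset.sum_const, ← Nat.map_div_right_divisors, Finset.card_map, nsmul_eq_mul, sq]
        exact mul_le_mul_of_nonneg_right (by exact_mod_cast Nat.card_divisors_le_self N)
          (Nat.cast_nonneg N)

omit [NeZero M] in
theorem summable_pSeries (a b : ℤ) {r : ℝ} (h0 : 0 ≤ r) (h1 : r < 1) :
    Summable fun n => ‖pSeries M a b n‖ * r ^ n := by
  set i := (a % M).toNat
  set u := ex ((b : ℂ) / M) with hu'
  have hu : ‖u‖ = 1 := by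
    have := norm_ex_ofRat ((b : ℚ) / M)
    push_cast at this
    exact this
  have hb : ∀ n, ‖pCoeff M i u n‖ ≤ ‖pConst i u‖ + 2 * (n : ℝ) ^ 2 := fun n => by
    rw [pCoeff]
    split_ifs with h
    · subst h; simp
    · refine (norm_add_le _ _).trans ?_
      have := norm_tail2_le (M := M) (k₀ := M - i) (u := u⁻¹) (by rw [norm_inv, hu, inv_one]) n
      have := norm_tail2_le (M := M) (k₀ := if i = 0 then M else i) hu n
      have := norm_nonneg (pConst i u)
      linarith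
  refine Summable.of_nonneg_of_le (fun n => by positivity)
    (fun n => mul_le_mul_of_nonneg_right (hb n) (pow_nonneg h0 n)) ?_
  simp only [add_mul, mul_assoc]
  refine ((summable_geometric_of_lt_one h0 h1).mul_left _).add (Summable.mul_left 2 ?_)
  exact summable_pow_mul_geometric_of_norm_lt_one 2
    (show ‖r‖ < 1 by rwa [Real.norm_of_nonneg h0])

omit [NeZero M] in
/-- A common denominator for two vectors. -/
theorem exists_den₂ (v w : Fin 2 → ℚ) : ∃ (M : ℕ) (_ : NeZero M) (a b c d : ℤ),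
    v 0 = (a : ℚ) / M ∧ v 1 = (b : ℚ) / M ∧ w 0 = (c : ℚ) / M ∧ w 1 = (d : ℚ) / M := by
  obtain ⟨M, hM, a, b, ha, hb⟩ := exists_den v
  obtain ⟨M', hM', c, d, hc, hd⟩ := exists_den w
  refine ⟨M * M', ⟨mul_ne_zero (NeZero.ne M) (NeZero.ne M')⟩, a * M', b * M', c * M, d * M,
    ?_, ?_, ?_, ?_⟩
  · rw [ha]; push_cast; rw [mul_div_mul_right _ _ (Nat.cast_ne_zero.2 (NeZero.ne M'))]
  · rw [hb]; push_cast; rw [mul_div_mul_right _ _ (Nat.cast_ne_zero.2 (NeZero.ne M'))]
  · rw [hc]; push_cast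
    rw [mul_comm (M : ℚ), mul_div_mul_right _ _ (Nat.cast_ne_zero.2 (NeZero.ne M))]
  · rw [hd]; push_cast
    rw [mul_comm (M : ℚ), mul_div_mul_right _ _ (Nat.cast_ne_zero.2 (NeZero.ne M))]

omit [NeZero M] in
/-- `pdiff v w` is holomorphic and bounded at infinity. -/
theorem mdifferentiable_pdiff {v w : Fin 2 → ℚ} (hv : Adm v) (hw : Adm w) :
    MDiff (pdiff v w) ∧ IsBoundedAtImInfty (pdiff v w) := by
  obtain ⟨M, hM, a, b, c, d, ha, hb, hc, hd⟩ := exists_den₂ v w
  have h := mdifferentiable_of_hasSum (M := M)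
    (f := pdiff v w) (a := fun n => pSeries M a b n - pSeries M c d n)
    (fun r h0 h1 => Summable.of_nonneg_of_le (fun n => by positivity)
      (fun n => by
        rw [← add_mul]
        exact mul_le_mul_of_nonneg_right (norm_sub_le _ _) (pow_nonneg h0 n))
      ((summable_pSeries a b h0 h1).add (summable_pSeries c d h0 h1)))
    (fun τ => by
      simp only [sub_mul]
      exact (hasSum_pe_pt hv ha hb τ).sub (hasSum_pe_pt hw hc hd τ))
  exact ⟨h.1, Filter.Tendsto.isBigO_one ℝ h.2⟩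

end Fermat.Agent.LevelM
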