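import Fermat.Agent.LevelM.SeriesTools
import Fermat.Agent.LevelM.Pfun

/-!
# Integral expansions of `zv v - zv w` and of `pe` at torsion vectors

Over a domain `O` with `ι : O →+* ℂ`, containing a primitive `h`-th root of unity and in which `h`
is a unit, the expansions in `exp (2πiτ/h)` of these functions have coefficients in `O`.
-/

set_option autoImplicit false

noncomputable section

open Complex Filter Topology UpperHalfPlane ModularCurve
open scoped Manifold MatrixGroups ModularForm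

namespace Fermat.Agent.LevelM

open Fermat.Agent.Igusa (HasExp QSR mem_QSR)

section Alg

variable {O : Type*} [CommRing O]

/-- In a domain in which `h` is a unit, `1 - z` is a unit for `h`-th roots of unity `z ≠ 1`. -/
theorem isUnit_one_sub [IsDomain O] {h : ℕ} (hh : IsUnit (h : O)) {z : O} (hz : z ^ h = 1)
    (hz1 : z ≠ 1) : IsUnit (1 - z) := by
  have hgeom : ∑ i ∈ Finset.range h, z ^ i = 0 := by
    have := geom_sum_mul z h
    rw [hz, sub_self, mul_eq_zero] at this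
    exact this.resolve_right (sub_ne_zero.2 hz1)
  have key : ∀ n : ℕ, (z - 1) * ∑ i ∈ Finset.range n, (i : O) * z ^ i
      = (n : O) * z ^ n - z * ∑ i ∈ Finset.range n, z ^ i := by
    intro n
    induction n with
    | zero => simp
    | succ n ih =>
      rw [Finset.sum_range_succ, Finset.sum_range_succ, mul_add, ih]
      push_cast
      ring
  have h1 := key h
  rw [hz, hgeom, mul_zero, sub_zero, mul_one] at h1
  rw [← IsUnit.neg_iff, neg_sub]
  exact isUnit_of_mul_isUnit_left (y := ∑ i ∈ Finset.range h, (i : O) * z ^ i) (by rwa [h1])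

variable (h : ℕ) (ζ : Oˣ)

/-- The index in `[0, h)` of an integer. -/
def idx (a : ℤ) : ℕ := (a % h).toNat

theorem idx_lt [NeZero h] (a : ℤ) : idx h a < h := by
  have hM : (0 : ℤ) < h := by exact_mod_cast NeZero.pos h
  have h1 := Int.emod_lt_of_pos a hM
  rw [idx]
  omega

theorem idx_eq_zero_iff [NeZero h] (a : ℤ) : idx h a = 0 ↔ (h : ℤ) ∣ a := by
  have hM : (0 : ℤ) < h := by exact_mod_cast NeZero.pos h
  have h0 := Int.emod_nonneg a hM.ne'
  rw [idx, Int.toNat_eq_zero, Int.dvd_iff_emod_eq_zero]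
  omega

/-- The constant term of `zv (a/h, b/h)` plus `1/2`. -/
def cconst (a b : ℤ) : O :=
  if idx h a = 0 then -(((ζ ^ b : Oˣ) : O) * Ring.inverse (1 - ((ζ ^ b : Oˣ) : O)))
  else (idx h a : O) * Ring.inverse (h : O)

/-- The expansion of `zv (a/h, b/h)` plus `1/2`. -/
def zO (a b : ℤ) : PowerSeries O :=
  PowerSeries.mk fun N => if N = 0 then cconst h ζ a b
    else zCoeffPos h (idx h a) ((ζ ^ b : Oˣ) : O) (((ζ ^ b)⁻¹ : Oˣ) : O) N

/-- The constant term of `pe` at `(a/h, b/h)`. -/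
def pconst (a b : ℤ) : O :=
  if idx h a = 0 then ((ζ ^ b : Oˣ) : O) * Ring.inverse ((1 - ((ζ ^ b : Oˣ) : O)) ^ 2) else 0

/-- The expansion of `pe` at `(a/h, b/h)`. -/
def pO (a b : ℤ) : PowerSeries O :=
  PowerSeries.mk fun N => if N = 0 then pconst h ζ a b
    else pCoeffPos h (idx h a) ((ζ ^ b : Oˣ) : O) (((ζ ^ b)⁻¹ : Oˣ) : O) N

end Alg

theorem map_tailCoeff {R S : Type*} [CommRing R] [CommRing S] (φ : R →+* S) (M k₀ : ℕ) (u : R)
    (N : ℕ) : φ (tailCoeff M k₀ u N) = tailCoeff M k₀ (φ u) N := by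
  simp only [tailCoeff, map_sum]
  exact Finset.sum_congr rfl fun p _ => by split_ifs <;> simp

theorem map_tail2 {R S : Type*} [CommRing R] [CommRing S] (φ : R →+* S) (M k₀ : ℕ) (u : R)
    (N : ℕ) : φ (tail2 M k₀ u N) = tail2 M k₀ (φ u) N := by
  simp only [tail2, map_sum]
  exact Finset.sum_congr rfl fun p _ => by split_ifs <;> simp

theorem map_ringInverse {R S : Type*} [CommRing R] [Field S] (φ : R →+* S) {x : R}
    (hx : IsUnit x) : φ (Ring.inverse x) = (φ x)⁻¹ := by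
  refine eq_inv_of_mul_eq_one_left ?_
  rw [← map_mul, Ring.inverse_mul_cancel _ hx, map_one]

variable {O : Type*} [CommRing O] [IsDomain O] {h : ℕ} [NeZero h] {ι : O →+* ℂ} {ζ : Oˣ}
  (hι : Function.Injective ι) (hζ : ι ζ = Complex.exp (2 * Real.pi * Complex.I / h))
  (hh : IsUnit (h : O))

omit [IsDomain O] [NeZero h] in
include hζ in
theorem map_zeta_zpow (b : ℤ) : ι ((ζ ^ b : Oˣ) : O) = ex ((b : ℂ) / h) := by
  have h1 : ι ((ζ ^ b : Oˣ) : O) = (ι (ζ : O)) ^ b := by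
    show ((Units.map (ι : O →* ℂ) (ζ ^ b) : ℂˣ) : ℂ) = _
    rw [map_zpow, Units.val_zpow_eq_zpow_val]
    rfl
  rw [h1, hζ, ex, ← Complex.exp_int_mul]
  congr 1
  ring

omit [IsDomain O] [NeZero h] in
include hζ in
theorem map_zeta_zpow_inv (b : ℤ) : ι (((ζ ^ b)⁻¹ : Oˣ) : O) = (ex ((b : ℂ) / h))⁻¹ := by
  rw [← zpow_neg, map_zeta_zpow hζ, ← ex_neg]
  push_cast
  ring_nf

omit [IsDomain O] in
include hζ in
theorem zeta_zpow_pow (b : ℤ) (hι : Function.Injective ι) : ((ζ ^ b : Oˣ) : O) ^ h = 1 := by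
  apply hι
  rw [map_pow, map_zeta_zpow hζ, map_one, ← ex_natCast_mul,
    mul_div_cancel₀ _ (Nat.cast_ne_zero.2 (NeZero.ne h)), ex_intCast]

omit [IsDomain O] in
include hζ in
theorem zeta_zpow_ne_one {b : ℤ} (hb : ¬ (h : ℤ) ∣ b) : ((ζ ^ b : Oˣ) : O) ≠ 1 := fun hc => by
  have := congrArg ι hc
  rw [map_zeta_zpow hζ, map_one] at this
  obtain ⟨n, hn⟩ := ex_eq_one_iff.1 this
  rw [div_eq_iff (Nat.cast_ne_zero.2 (NeZero.ne h))] at hn
  exact hb ⟨n, by rw [mul_comm]; exact_mod_cast hn⟩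

omit [NeZero h] in
theorem adm_of_div {v : Fin 2 → ℚ} {a b : ℤ} (hh0 : h ≠ 0) (ha : v 0 = (a : ℚ) / h)
    (hb : v 1 = (b : ℚ) / h) : Adm v ↔ ¬ ((h : ℤ) ∣ a ∧ (h : ℤ) ∣ b) := by
  have hq : (h : ℚ) ≠ 0 := Nat.cast_ne_zero.2 hh0
  refine not_congr ⟨fun H => ?_, fun H k => ?_⟩
  · obtain ⟨⟨x, hx⟩, ⟨y, hy⟩⟩ := H 0, H 1
    rw [ha, div_eq_iff hq] at hx
    rw [hb, div_eq_iff hq] at hy
    exact ⟨⟨x, by rw [mul_comm]; exact_mod_cast hx⟩, ⟨y, by rw [mul_comm]; exact_mod_cast hy⟩⟩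
  · obtain ⟨⟨x, hx⟩, ⟨y, hy⟩⟩ := H
    fin_cases k
    · exact ⟨x, show v 0 = _ by rw [ha, hx]; push_cast; field_simp⟩
    · exact ⟨y, show v 1 = _ by rw [hb, hy]; push_cast; field_simp⟩

include hι hζ hh in
theorem isUnit_one_sub_zeta {b : ℤ} (hb : ¬ (h : ℤ) ∣ b) :
    IsUnit (1 - ((ζ ^ b : Oˣ) : O)) :=
  isUnit_one_sub hh (zeta_zpow_pow hζ b hι) (zeta_zpow_ne_one hζ hb)

include hι hζ hh in
theorem map_cconst {v : Fin 2 → ℚ} (hv : Adm v) {a b : ℤ} (ha : v 0 = (a : ℚ) / h)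
    (hb : v 1 = (b : ℚ) / h) :
    ι (cconst h ζ a b) = constTerm h (idx h a) (ex ((b : ℂ) / h)) + 1 / 2 := by
  rw [cconst, constTerm]
  split_ifs with h0
  · have hnd : ¬ (h : ℤ) ∣ b := fun hd =>
      (adm_of_div (NeZero.ne h) ha hb).1 hv ⟨(idx_eq_zero_iff h a).1 h0, hd⟩
    have hu := isUnit_one_sub_zeta hι hζ hh hnd
    rw [map_neg, map_mul, map_ringInverse ι hu, map_sub, map_one, map_zeta_zpow hζ]
    have : (1 : ℂ) - ex ((b : ℂ) / h) ≠ 0 := by
      have := (map_ne_zero_iff ι hι).2 hu.ne_zero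
      rwa [map_sub, map_one, map_zeta_zpow hζ] at this
    field_simp
    ring
  · rw [map_mul, map_natCast, map_ringInverse ι hh, map_natCast]
    ring

include hι hζ hh in
/-- `zv v + 1/2` has integral expansion. -/
theorem hasSum_zv_int {v : Fin 2 → ℚ} (hv : Adm v) {a b : ℤ} (ha : v 0 = (a : ℚ) / h)
    (hb : v 1 = (b : ℚ) / h) (τ : ℍ) :
    HasSum (fun N => ι ((zO h ζ a b).coeff N) * qM h τ ^ N) (zv v τ + 1 / 2) := by
  obtain ⟨⟨hi, hne⟩, he⟩ := exists_normalForm hv ha hb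
  rw [he]
  have h1 := hasSum_zv hi hne τ
  have h2 : HasSum (fun N : ℕ => if N = 0 then (1 / 2 : ℂ) else 0) (1 / 2) := hasSum_ite_eq 0 _
  refine (h1.add h2).congr_fun fun N => ?_
  rw [zO, PowerSeries.coeff_mk, zCoeff]
  rcases eq_or_ne N 0 with rfl | hN
  · rw [if_pos rfl, if_pos rfl, if_pos rfl, map_cconst hι hζ hh hv ha hb, pow_zero, mul_one,
      mul_one]
    rfl
  · rw [if_neg hN, if_neg hN, if_neg hN, add_zero]
    congr 1
    simp only [zCoeffPos, map_sub, map_tailCoeff, map_zeta_zpow hζ, map_zeta_zpow_inv hζ]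
    rfl

omit [IsDomain O] in
theorem qsr_of_hasSum {f : ℍ → ℂ} {P : PowerSeries O}
    (hf : ∀ τ, HasSum (fun N => ι (P.coeff N) * qM h τ ^ N) (f τ)) :
    (f, HahnSeries.ofPowerSeries ℤ O P) ∈ QSR h ι := by
  rw [mem_QSR, coeffMap_ofPowerSeries]
  have := hasExp_of_hasSum hf
  rwa [show P.map ι = PowerSeries.mk fun N => ι (P.coeff N) by ext; simp]

include hι hζ hh in
/-- The difference of two `zv`. -/
theorem qsr_zv_sub {v w : Fin 2 → ℚ} (hv : Adm v) (hw : Adm w) {a b c d : ℤ}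
    (ha : v 0 = (a : ℚ) / h) (hb : v 1 = (b : ℚ) / h) (hc : w 0 = (c : ℚ) / h)
    (hd : w 1 = (d : ℚ) / h) :
    (zv v - zv w, HahnSeries.ofPowerSeries ℤ O (zO h ζ a b - zO h ζ c d)) ∈ QSR h ι := by
  refine qsr_of_hasSum fun τ => ?_
  have := (hasSum_zv_int hι hζ hh hv ha hb τ).sub (hasSum_zv_int hι hζ hh hw hc hd τ)
  rw [add_sub_add_right_eq_sub] at this
  refine this.congr_fun fun N => ?_
  rw [map_sub, map_sub, sub_mul]

include hι hζ hh in
/-- One `zv`, with `2` invertible. -/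
theorem qsr_zv (h2 : IsUnit (2 : O)) {v : Fin 2 → ℚ} (hv : Adm v) {a b : ℤ}
    (ha : v 0 = (a : ℚ) / h) (hb : v 1 = (b : ℚ) / h) :
    (zv v, HahnSeries.ofPowerSeries ℤ O (zO h ζ a b - PowerSeries.C (Ring.inverse 2))) ∈
      QSR h ι := by
  refine qsr_of_hasSum fun τ => ?_
  have hs : HasSum (fun N : ℕ => if N = 0 then (1 / 2 : ℂ) else 0) (1 / 2) := hasSum_ite_eq 0 _
  have := (hasSum_zv_int hι hζ hh hv ha hb τ).sub hs
  rw [add_sub_cancel_right] at this
  refine this.congr_fun fun N => ?_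
  rw [map_sub, map_sub, PowerSeries.coeff_C]
  rcases eq_or_ne N 0 with rfl | hN
  · simp [map_ringInverse ι h2, map_ofNat]
  · simp [hN]

include hι hζ hh in
/-- `pe` at a vector has integral expansion. -/
theorem qsr_pe {v : Fin 2 → ℚ} (hv : Adm v) {a b : ℤ} (ha : v 0 = (a : ℚ) / h)
    (hb : v 1 = (b : ℚ) / h) :
    ((fun τ => pe (pt v τ) τ), HahnSeries.ofPowerSeries ℤ O (pO h ζ a b)) ∈ QSR h ι := by
  refine qsr_of_hasSum fun τ => ?_
  refine (hasSum_pe_pt hv ha hb τ).congr_fun fun N => ?_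
  congr 1
  rw [pO, PowerSeries.coeff_mk, pSeries, pCoeff]
  split_ifs with hN
  · rw [pconst, pConst]
    split_ifs with h0 h0' h0'
    · have hnd : ¬ (h : ℤ) ∣ b := fun hd =>
        (adm_of_div (NeZero.ne h) ha hb).1 hv ⟨(idx_eq_zero_iff h a).1 h0, hd⟩
      have hu := isUnit_one_sub_zeta hι hζ hh hnd
      rw [map_mul, map_ringInverse ι (hu.pow 2), map_pow, map_sub, map_one, map_zeta_zpow hζ,
        ← div_eq_mul_inv]
    · exact absurd h0 h0'
    · exact absurd h0' h0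
    · exact map_zero ι
  · simp only [pCoeffPos, map_add, map_tail2, map_zeta_zpow hζ, map_zeta_zpow_inv hζ]
    rfl

include hι hζ hh in
/-- `pdiff` has integral expansion. -/
theorem qsr_pdiff {v w : Fin 2 → ℚ} (hv : Adm v) (hw : Adm w) {a b c d : ℤ}
    (ha : v 0 = (a : ℚ) / h) (hb : v 1 = (b : ℚ) / h) (hc : w 0 = (c : ℚ) / h)
    (hd : w 1 = (d : ℚ) / h) :
    (pdiff v w, HahnSeries.ofPowerSeries ℤ O (pO h ζ a b - pO h ζ c d)) ∈ QSR h ι := by
  rw [map_sub]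
  exact sub_mem (qsr_pe hι hζ hh hv ha hb) (qsr_pe hι hζ hh hw hc hd)

end Fermat.Agent.LevelM
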