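import Fermat.Agent.LevelM.BaseForms
import Fermat.Agent.LevelM.IntSeries

/-!
# The Hauptmoduln of level `3` and `4`

For `h = 3 e` the forms `zv(1/3,1/3) - zv(1/3,2/3)`, `zv(0,1/3) - zv(1/3,1/3)`, and for `h = 4 e`
the forms `zv(2/4,1/4)`, `zv(1/4,0) - zv(1/4,1/4)` satisfy `BaseForms`.
-/

set_option autoImplicit false

noncomputable section

open Complex Filter Topology UpperHalfPlane ModularCurve
open scoped Manifold MatrixGroups ModularForm

namespace Fermat.Agent.LevelM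

open Fermat.Agent.Igusa (HasExp QSR mem_QSR)

/-- The vector `(a/N, b/N)`. -/
def vv (N : ℕ) (a b : ℤ) : Fin 2 → ℚ := ![(a : ℚ) / N, (b : ℚ) / N]

theorem vmul_vv (N : ℕ) (a b : ℤ) (γ : SL(2, ℤ)) :
    vmul (vv N a b) γ = vv N (a * γ 0 0 + b * γ 1 0) (a * γ 0 1 + b * γ 1 1) := by
  funext k
  rw [vmul_apply]
  fin_cases k <;> simp [vv] <;> ring

theorem adm_vv {N : ℕ} (hN : N ≠ 0) {a b : ℤ} (hab : ¬((N : ℤ) ∣ a ∧ (N : ℤ) ∣ b)) :
    Adm (vv N a b) := (adm_of_div hN rfl rfl).2 hab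

theorem zv_vv_congr {N : ℕ} [NeZero N] {a b a' b' : ℤ} (hv : Adm (vv N a b))
    (ha : (N : ℤ) ∣ a' - a) (hb : (N : ℤ) ∣ b' - b) : zv (vv N a' b') = zv (vv N a b) := by
  obtain ⟨x, hx⟩ := ha
  obtain ⟨y, hy⟩ := hb
  rw [← zv_add_int hv ![x, y]]
  congr 1
  have hq : (N : ℚ) ≠ 0 := Nat.cast_ne_zero.2 (NeZero.ne N)
  funext k
  fin_cases k
  · simp only [vv, Fin.zero_eta, Fin.isValue, Matrix.cons_val_zero]
    rw [eq_add_of_sub_eq hx]
    push_cast
    field_simp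
    ring
  · simp only [vv, Fin.mk_one, Fin.isValue, Matrix.cons_val_one, Matrix.cons_val_zero]
    rw [eq_add_of_sub_eq hy]
    push_cast
    field_simp
    ring

/-- Membership of `Γ(N)` as divisibilities. -/
theorem gamma_congr {N : ℕ} {γ : SL(2, ℤ)} (hγ : γ ∈ CongruenceSubgroup.Gamma N) :
    (N : ℤ) ∣ γ 0 0 - 1 ∧ (N : ℤ) ∣ γ 0 1 ∧ (N : ℤ) ∣ γ 1 0 ∧ (N : ℤ) ∣ γ 1 1 - 1 := by
  obtain ⟨h1, h2, h3, h4⟩ := CongruenceSubgroup.Gamma_mem.1 hγ
  simp only [← ZMod.intCast_zmod_eq_zero_iff_dvd, Int.cast_sub, Int.cast_one, sub_eq_zero]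
  exact ⟨h1, h2, h3, h4⟩

theorem zv_slash_Gamma {N : ℕ} [NeZero N] {a b : ℤ} (hv : Adm (vv N a b)) {γ : SL(2, ℤ)}
    (hγ : γ ∈ CongruenceSubgroup.Gamma N) :
    zv (vv N a b) ∣[(1 : ℤ)] γ = zv (vv N a b) := by
  rw [zv_slash hv, vmul_vv]
  obtain ⟨h1, h2, h3, h4⟩ := gamma_congr hγ
  refine zv_vv_congr hv ?_ ?_
  · rw [show a * γ 0 0 + b * γ 1 0 - a = a * (γ 0 0 - 1) + b * γ 1 0 by ring]
    exact dvd_add (dvd_mul_of_dvd_right h1 _) (dvd_mul_of_dvd_right h3 _)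
  · rw [show a * γ 0 1 + b * γ 1 1 - b = a * γ 0 1 + b * (γ 1 1 - 1) by ring]
    exact dvd_add (dvd_mul_of_dvd_right h2 _) (dvd_mul_of_dvd_right h4 _)

theorem not_dvd_diag {N : ℕ} (hN : 1 < N) {γ : SL(2, ℤ)} (hc : (N : ℤ) ∣ γ 1 0) :
    ¬(N : ℤ) ∣ γ 0 0 ∧ ¬(N : ℤ) ∣ γ 1 1 := by
  have hd := γ.2
  rw [Matrix.det_fin_two] at hd
  have key : ∀ x, (N : ℤ) ∣ x → x = 1 → False := fun x hx h1 => by
    rw [h1] at hx
    have := Int.le_of_dvd one_pos hx
    omega
  constructor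
  · exact fun h1 => key _ (dvd_sub (dvd_mul_of_dvd_left h1 _) (dvd_mul_of_dvd_right hc _)) hd
  · exact fun h1 => key _ (dvd_sub (dvd_mul_of_dvd_right h1 _) (dvd_mul_of_dvd_right hc _)) hd

/-- Below `k₀ ≤ M`, the only factorisation with first factor `≡ k₀ (mod M)` is `k₀ * 1`. -/
theorem sum_divisorsAntidiagonal_of_le {M : ℕ} {R : Type*} [AddCommMonoid R] {k₀ : ℕ} (hk : k₀ ≤ M)
    (c : ℕ → R) {n : ℕ} (hn0 : 0 < n) (hn : n ≤ k₀) :
    (∑ p ∈ n.divisorsAntidiagonal, if (p.1 : ZMod M) = k₀ then c p.2 else 0) =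
      if n = k₀ then c 1 else 0 := by
  have key : ∀ p ∈ n.divisorsAntidiagonal, ((p.1 : ℕ) : ZMod M) = k₀ → p = (k₀, 1) ∧ n = k₀ := by
    intro p hp hpk
    obtain ⟨hmul, -⟩ := Nat.mem_divisorsAntidiagonal.1 hp
    have h1 : 0 < p.1 := Nat.pos_of_ne_zero fun h0 => by rw [h0, zero_mul] at hmul; omega
    have h2 : 0 < p.2 := Nat.pos_of_ne_zero fun h0 => by rw [h0, mul_zero] at hmul; omega
    have h3 : p.1 ≤ n := hmul ▸ Nat.le_mul_of_pos_right _ h2
    rw [ZMod.natCast_eq_natCast_iff] at hpk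
    have h4 : p.1 = k₀ := by
      rcases (h3.trans hn).eq_or_lt with h | h
      · exact h
      · have hd := (Nat.modEq_iff_dvd' h.le).1 hpk
        have := Nat.le_of_dvd (by omega) hd
        omega
    have h5 : n = k₀ := by omega
    refine ⟨Prod.ext h4 ?_, h5⟩
    rw [h4, h5] at hmul
    exact (Nat.mul_eq_left (by omega)).1 hmul
  split_ifs with hnk
  · rw [Finset.sum_eq_single (k₀, 1)]
    · exact if_pos rfl
    · intro p hp hne
      exact if_neg fun h => hne (key p hp h).1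
    · intro h
      exact absurd (Nat.mem_divisorsAntidiagonal.2 ⟨by omega, by omega⟩) h
  · exact Finset.sum_eq_zero fun p hp => if_neg fun h => hnk (key p hp h).2

theorem tailCoeff_of_le {M : ℕ} {R : Type*} [CommRing R] {k₀ : ℕ} (hk : k₀ ≤ M) (u : R) {n : ℕ}
    (hn0 : 0 < n) (hn : n ≤ k₀) : tailCoeff M k₀ u n = if n = k₀ then u else 0 :=
  (sum_divisorsAntidiagonal_of_le hk (u ^ ·) hn0 hn).trans (by simp)

/-- `[SL(2, ℤ) : ±Γ(N)] ≤ |SL(2, ℤ/N)| / 2`. -/
theorem card_sgnGamma_le {N n : ℕ} [NeZero N] (h2 : (-1 : ZMod N) ≠ 1)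
    (hn : Fintype.card (Matrix.SpecialLinearGroup (Fin 2) (ZMod N)) ≤ 2 * n) :
    Nat.card (SL(2, ℤ) ⧸ sgnGamma N) ≤ n := by
  classical
  set f : SL(2, ℤ) →* Matrix.SpecialLinearGroup (Fin 2) (ZMod N) :=
    Matrix.SpecialLinearGroup.map (Int.castRingHom (ZMod N)) with hf
  let Z : Subgroup (Matrix.SpecialLinearGroup (Fin 2) (ZMod N)) := Subgroup.zpowers (-1)
  have : Z.Normal := ⟨fun x hx g => by
    obtain ⟨k, rfl⟩ := Subgroup.mem_zpowers_iff.1 hx
    rw [show g * (-1 : Matrix.SpecialLinearGroup (Fin 2) (ZMod N)) ^ k * g⁻¹ = (-1) ^ k by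
      rw [((Commute.neg_one_right g).zpow_right k).eq, mul_inv_cancel_right]]
    exact hx⟩
  have hle : Z.comap f ≤ sgnGamma N := fun γ hγ => by
    obtain ⟨k, hk⟩ := Subgroup.mem_zpowers_iff.1 (Subgroup.mem_comap.1 hγ)
    rcases Int.even_or_odd k with ⟨r, rfl⟩ | ⟨r, rfl⟩
    · refine Or.inl (CongruenceSubgroup.Gamma_mem'.2 (hk.symm.trans ?_))
      rw [← two_mul, zpow_mul]
      simp
    · refine Or.inr (CongruenceSubgroup.Gamma_mem'.2 ?_)
      have h3 : f γ = -1 := by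
        rw [← hk, zpow_add, zpow_mul, zpow_one]
        simp
      ext i j
      have := congrArg (fun x : Matrix.SpecialLinearGroup (Fin 2) (ZMod N) => x i j) h3
      simp only [hf, Matrix.SpecialLinearGroup.map_apply_coe, RingHom.mapMatrix_apply,
        Matrix.map_apply, Matrix.SpecialLinearGroup.coe_neg, Matrix.neg_apply] at this ⊢
      simp only [map_neg, this, neg_neg]
  have h0 : (Z.comap f).index ≤ Z.index := by
    rw [Subgroup.index_comap]
    exact Nat.le_of_dvd (Nat.pos_of_ne_zero Subgroup.FiniteIndex.index_ne_zero)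
      (Subgroup.relIndex_dvd_index_of_normal Z f.range)
  have hne : (Z.comap f).index ≠ 0 := by
    rw [Subgroup.index_comap]
    exact ne_zero_of_dvd_ne_zero Subgroup.FiniteIndex.index_ne_zero
      (Subgroup.relIndex_dvd_index_of_normal Z f.range)
  have h1 : Nat.card (SL(2, ℤ) ⧸ sgnGamma N) ≤ (Z.comap f).index :=
    Nat.le_of_dvd (Nat.pos_of_ne_zero hne) (Subgroup.index_dvd_of_le hle)
  have h4 : 2 ≤ Nat.card Z := by
    rw [Nat.card_zpowers]
    by_contra hlt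
    have hpos := orderOf_pos (-1 : Matrix.SpecialLinearGroup (Fin 2) (ZMod N))
    have h5 : orderOf (-1 : Matrix.SpecialLinearGroup (Fin 2) (ZMod N)) = 1 := by omega
    rw [orderOf_eq_one_iff] at h5
    refine h2 ?_
    have := congrArg (fun x : Matrix.SpecialLinearGroup (Fin 2) (ZMod N) => x 0 0) h5
    simpa using this
  have h5 := Subgroup.card_mul_index Z
  rw [Nat.card_eq_fintype_card (α := Matrix.SpecialLinearGroup (Fin 2) (ZMod N))] at h5
  have h6 : 2 * Z.index ≤ 2 * n :=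
    (Nat.mul_le_mul_right _ h4).trans (h5.le.trans hn)
  omega

theorem not_two_dvd_diag {γ : SL(2, ℤ)} (hc : (2 : ℤ) ∣ γ 1 0) :
    ¬(2 : ℤ) ∣ γ 0 0 ∧ ¬(2 : ℤ) ∣ γ 1 1 :=
  not_dvd_diag (N := 2) one_lt_two hc

theorem card_sgnGamma_le_three : Nat.card (SL(2, ℤ) ⧸ sgnGamma 3) ≤ 12 * 1 :=
  card_sgnGamma_le (by decide) (by decide +kernel)

theorem card_sgnGamma_le_four : Nat.card (SL(2, ℤ) ⧸ sgnGamma 4) ≤ 12 * 2 :=
  card_sgnGamma_le (by decide) (by decide +kernel)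

section Series

variable {O : Type*} [CommRing O] {h N e : ℕ} {ζ : Oˣ}

theorem idx_mul (he : e * N = h) (he0 : 0 < e) [NeZero N] (a : ℤ) :
    idx h ((e : ℤ) * a) = e * idx N a := by
  have h0 : 0 ≤ a % (N : ℤ) := Int.emod_nonneg _ (by exact_mod_cast NeZero.ne N)
  rw [idx, idx, ← he, Nat.cast_mul, Int.mul_emod_mul_of_pos _ _ (by exact_mod_cast he0),
    Int.toNat_mul (by positivity) h0, Int.toNat_natCast]

theorem coeff_zO_low (he : e * N = h) (he0 : 0 < e) [NeZero N] {a b : ℤ} {j n : ℕ}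
    (hi : idx N a ≠ 0) (hj : j ≤ idx N a) (hj' : j ≤ N - idx N a) (hn0 : 0 < n) (hn : n ≤ e * j) :
    (zO h ζ ((e : ℤ) * a) b).coeff n
      = (if n = e * (N - idx N a) then (((ζ ^ b)⁻¹ : Oˣ) : O) else 0)
        - (if n = e * idx N a then ((ζ ^ b : Oˣ) : O) else 0) := by
  have hlt := idx_lt N a
  rw [zO, PowerSeries.coeff_mk, if_neg (by omega), zCoeffPos, idx_mul he he0,
    if_neg (Nat.mul_ne_zero he0.ne' hi), ← he, ← Nat.mul_sub,
    tailCoeff_of_le (Nat.mul_le_mul_left e (Nat.sub_le N _)) _ hn0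
      (hn.trans (Nat.mul_le_mul_left e hj')),
    tailCoeff_of_le (Nat.mul_le_mul_left e hlt.le) _ hn0 (hn.trans (Nat.mul_le_mul_left e hj))]

theorem coeff_zero_zO (a b : ℤ) : (zO h ζ a b).coeff 0 = cconst h ζ a b := by
  rw [zO, PowerSeries.coeff_mk, if_pos rfl]

variable {ι : O →+* ℂ} (hι : Function.Injective ι)
  (hζ : ι ζ = Complex.exp (2 * Real.pi * Complex.I / h)) (hh : IsUnit (h : O))

include hh in
theorem isUnit_cast_level (he : e * N = h) : IsUnit (N : O) := by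
  rw [← he, Nat.cast_mul] at hh
  exact isUnit_of_mul_isUnit_right hh

include hh in
theorem cconst_ne (he : e * N = h) (he0 : 0 < e) [NeZero N] {a : ℤ} (b : ℤ)
    (hi : idx N a ≠ 0) :
    cconst h ζ ((e : ℤ) * a) b = (idx N a : O) * Ring.inverse (N : O) := by
  rw [cconst, idx_mul he he0, if_neg (Nat.mul_ne_zero he0.ne' hi)]
  refine hh.mul_left_cancel ?_
  have hN := isUnit_cast_level hh he
  rw [mul_left_comm, Ring.mul_inverse_cancel _ hh, mul_one]
  conv_rhs => rw [← he, Nat.cast_mul, mul_assoc, mul_comm (idx N a : O), ← mul_assoc (N : O),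
    Ring.mul_inverse_cancel _ hN, one_mul]
  rw [Nat.cast_mul]

theorem cconst_eq (he : e * N = h) (he0 : 0 < e) [NeZero N] {a : ℤ} (b : ℤ)
    (hi : idx N a = 0) :
    cconst h ζ ((e : ℤ) * a) b
      = -(((ζ ^ b : Oˣ) : O) * Ring.inverse (1 - ((ζ ^ b : Oˣ) : O))) := by
  rw [cconst, idx_mul he he0, hi, mul_zero, if_pos rfl]

theorem not_dvd_mul (he : e * N = h) (he0 : 0 < e) {x : ℤ} (hx : ¬(N : ℤ) ∣ x) :
    ¬(h : ℤ) ∣ (e : ℤ) * x := fun hd => by
  rw [← he, Nat.cast_mul] at hd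
  exact hx (Int.dvd_of_mul_dvd_mul_left (by exact_mod_cast he0.ne') hd)

variable [NeZero h]

theorem pos_of_mul_eq (he : e * N = h) : 0 < e :=
  Nat.pos_of_ne_zero fun h0 => NeZero.ne h (by rw [← he, h0, zero_mul])

include hι hζ in
theorem zeta_pow_level (he : e * N = h) (x : ℤ) :
    ((ζ ^ ((e : ℤ) * x) : Oˣ) : O) ^ N = 1 := by
  rw [← Units.val_pow_eq_pow_val, ← zpow_natCast, ← zpow_mul,
    show (e : ℤ) * x * (N : ℤ) = x * (h : ℤ) by rw [← he]; push_cast; ring, zpow_mul, zpow_natCast,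
    Units.val_pow_eq_pow_val]
  exact zeta_zpow_pow hζ x hι

variable [IsDomain O]

include hι hζ hh in
theorem isUnit_zpow_sub {x y : ℤ} (hxy : ¬(h : ℤ) ∣ y - x) :
    IsUnit (((ζ ^ x : Oˣ) : O) - ((ζ ^ y : Oˣ) : O)) := by
  have e1 : ((ζ ^ x : Oˣ) : O) - ((ζ ^ y : Oˣ) : O)
      = ((ζ ^ x : Oˣ) : O) * (1 - ((ζ ^ (y - x) : Oˣ) : O)) := by
    rw [mul_sub, mul_one, ← Units.val_mul, ← zpow_add, add_sub_cancel]
  rw [e1]
  exact (Units.isUnit _).mul (isUnit_one_sub_zeta hι hζ hh hxy)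

include hι hζ hh in
theorem qsr_zv_vv {a b : ℤ} (he : e * N = h) (he0 : 0 < e) (hN : N ≠ 0)
    (hab : ¬((N : ℤ) ∣ a ∧ (N : ℤ) ∣ b)) (h2 : IsUnit (2 : O)) (γ : SL(2, ℤ)) :
    (zv (vv N a b) ∣[(1 : ℤ)] γ, HahnSeries.ofPowerSeries ℤ O
      (zO h ζ ((e : ℤ) * (a * γ 0 0 + b * γ 1 0)) ((e : ℤ) * (a * γ 0 1 + b * γ 1 1))
        - PowerSeries.C (Ring.inverse 2))) ∈ QSR h ι := by
  have hv : Adm (vv N a b) := adm_vv hN hab
  rw [zv_slash hv, vmul_vv]
  refine qsr_zv hι hζ hh h2 (by rw [← vmul_vv]; exact hv.vmul _) ?_ ?_ <;>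
  · simp only [vv, Matrix.cons_val_zero, Matrix.cons_val_one]
    rw [← he]
    push_cast
    field_simp

include hι hζ hh in
theorem qsr_zv_sub_vv {a b c d : ℤ} (he : e * N = h) (he0 : 0 < e) (hN : N ≠ 0)
    (hab : ¬((N : ℤ) ∣ a ∧ (N : ℤ) ∣ b)) (hcd : ¬((N : ℤ) ∣ c ∧ (N : ℤ) ∣ d)) (γ : SL(2, ℤ)) :
    ((zv (vv N a b) - zv (vv N c d)) ∣[(1 : ℤ)] γ, HahnSeries.ofPowerSeries ℤ O
      (zO h ζ ((e : ℤ) * (a * γ 0 0 + b * γ 1 0)) ((e : ℤ) * (a * γ 0 1 + b * γ 1 1))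
        - zO h ζ ((e : ℤ) * (c * γ 0 0 + d * γ 1 0)) ((e : ℤ) * (c * γ 0 1 + d * γ 1 1)))) ∈
      QSR h ι := by
  have hv : Adm (vv N a b) := adm_vv hN hab
  have hw : Adm (vv N c d) := adm_vv hN hcd
  rw [sub_eq_add_neg (zv _), SlashAction.add_slash, SlashAction.neg_slash, ← sub_eq_add_neg,
    zv_slash hv, zv_slash hw, vmul_vv, vmul_vv]
  refine qsr_zv_sub hι hζ hh (by rw [← vmul_vv]; exact hv.vmul _)
    (by rw [← vmul_vv]; exact hw.vmul _)
    ?_ ?_ ?_ ?_ <;>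
  · simp only [vv, Matrix.cons_val_zero, Matrix.cons_val_one]
    rw [← he]
    push_cast
    field_simp

end Series

section Three

variable {O : Type*} [CommRing O] [IsDomain O] {h e : ℕ} [NeZero h] {ι : O →+* ℂ} {ζ : Oˣ}
  (hι : Function.Injective ι) (hζ : ι ζ = Complex.exp (2 * Real.pi * Complex.I / h))
  (hh : IsUnit (h : O)) (he : e * 3 = h)

include hι hζ hh he in
/-- Differences of constants at level `3` with different first coordinates are units. -/
theorem isUnit_cconst_three (he0 : 0 < e) {a b a' b' : ℤ} (hne : idx 3 a ≠ idx 3 a')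
    (hb : idx 3 a = 0 → ¬(3 : ℤ) ∣ b) (hb' : idx 3 a' = 0 → ¬(3 : ℤ) ∣ b') :
    IsUnit (cconst h ζ ((e : ℤ) * a) ((e : ℤ) * b) - cconst h ζ ((e : ℤ) * a') ((e : ℤ) * b')) := by
  have h3 : IsUnit (3 : O) := by exact_mod_cast isUnit_cast_level hh he
  have key : ∀ (a b a' b' : ℤ), idx 3 a = 0 → idx 3 a' ≠ 0 → ¬(3 : ℤ) ∣ b →
      IsUnit (cconst h ζ ((e : ℤ) * a) ((e : ℤ) * b) -
        cconst h ζ ((e : ℤ) * a') ((e : ℤ) * b')) := by
    intro a b a' b' hia hia' hb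
    rw [cconst_eq he he0 _ hia, cconst_ne hh he he0 _ hia']
    have hnd := not_dvd_mul (h := h) he he0 (show ¬((3 : ℕ) : ℤ) ∣ b by exact_mod_cast hb)
    have h1z := isUnit_one_sub_zeta hι hζ hh hnd
    have hz3 := zeta_pow_level hι hζ he b
    have hz1 := zeta_zpow_ne_one hζ hnd
    generalize ((ζ ^ ((e : ℤ) * b) : Oˣ) : O) = z at *
    have hrel : z ^ 2 + z + 1 = 0 := by
      have : (z - 1) * (z ^ 2 + z + 1) = 0 := by linear_combination hz3
      exact (mul_eq_zero.1 this).resolve_left (sub_ne_zero.2 hz1)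
    have hr := Ring.mul_inverse_cancel _ h1z
    have hs := Ring.mul_inverse_cancel _ h3
    have hlt := idx_lt 3 a'
    have : idx 3 a' = 1 ∨ idx 3 a' = 2 := by omega
    push_cast
    rcases this with hi | hi <;> rw [hi]
    · refine isUnit_of_mul_isUnit_left (y := 3 * (1 - z) * (1 + 2 * z)) ?_
      push_cast
      rw [show (-(z * Ring.inverse (1 - z)) - 1 * Ring.inverse 3) * (3 * (1 - z) * (1 + 2 * z))
        = 3 by linear_combination (-3 * z * (1 + 2 * z)) * hr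
          - ((1 - z) * (1 + 2 * z)) * hs - 4 * hrel]
      exact h3
    · refine isUnit_of_mul_isUnit_left (y := 3 * (1 - z) * (1 - z)) ?_
      push_cast
      rw [show (-(z * Ring.inverse (1 - z)) - 2 * Ring.inverse 3) * (3 * (1 - z) * (1 - z))
        = -3 by linear_combination (-3 * z * (1 - z)) * hr
          - (2 * (1 - z) * (1 - z)) * hs + hrel]
      exact h3.neg
  by_cases ha : idx 3 a = 0
  · exact key a b a' b' ha (by omega) (hb ha)
  by_cases ha' : idx 3 a' = 0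
  · rw [← IsUnit.neg_iff, neg_sub]
    exact key a' b' a b ha' ha (hb' ha')
  rw [cconst_ne hh he he0 _ ha, cconst_ne hh he he0 _ ha', ← sub_mul]
  refine IsUnit.mul ?_ (isUnit_ringInverse.2 (by exact_mod_cast h3))
  have := idx_lt 3 a
  have := idx_lt 3 a'
  have : idx 3 a = 1 ∧ idx 3 a' = 2 ∨ idx 3 a = 2 ∧ idx 3 a' = 1 := by omega
  rcases this with ⟨h1, h2⟩ | ⟨h1, h2⟩ <;> rw [h1, h2] <;> norm_num

include hι hζ hh he in
/-- The level three data. -/
def baseThree : BaseForms O h ι where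
  ι_injective := hι
  zeta := ζ
  zeta_spec := hζ
  N := 3
  hN := Or.inl rfl
  e := e
  e_mul := he
  d := 1
  d_pos := one_pos
  card_le := card_sgnGamma_le_three
  C := zv (vv 3 1 1) - zv (vv 3 1 2)
  A := zv (vv 3 0 1) - zv (vv 3 1 1)
  C_slash := fun γ hγ => by
    rw [sub_eq_add_neg (zv _), SlashAction.add_slash, SlashAction.neg_slash,
      zv_slash_Gamma (adm_vv (by norm_num) (by norm_num)) hγ,
      zv_slash_Gamma (adm_vv (by norm_num) (by norm_num)) hγ]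
  A_slash := fun γ hγ => by
    rw [sub_eq_add_neg (zv _), SlashAction.add_slash, SlashAction.neg_slash,
      zv_slash_Gamma (adm_vv (by norm_num) (by norm_num)) hγ,
      zv_slash_Gamma (adm_vv (by norm_num) (by norm_num)) hγ]
  cS := fun γ => zO h ζ ((e : ℤ) * (1 * γ 0 0 + 1 * γ 1 0)) ((e : ℤ) * (1 * γ 0 1 + 1 * γ 1 1))
    - zO h ζ ((e : ℤ) * (1 * γ 0 0 + 2 * γ 1 0)) ((e : ℤ) * (1 * γ 0 1 + 2 * γ 1 1))
  aS := fun γ => zO h ζ ((e : ℤ) * (0 * γ 0 0 + 1 * γ 1 0)) ((e : ℤ) * (0 * γ 0 1 + 1 * γ 1 1))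
    - zO h ζ ((e : ℤ) * (1 * γ 0 0 + 1 * γ 1 0)) ((e : ℤ) * (1 * γ 0 1 + 1 * γ 1 1))
  cS_spec := qsr_zv_sub_vv hι hζ hh he
    (pos_of_mul_eq he)
    (by norm_num) (by norm_num) (by norm_num)
  aS_spec := qsr_zv_sub_vv hι hζ hh he
    (pos_of_mul_eq he)
    (by norm_num) (by norm_num) (by norm_num)
  cS_low := fun γ hc n hn => by
    have he0 : 0 < e := pos_of_mul_eq he
    obtain ⟨ha, hd⟩ := not_dvd_diag (by norm_num) hc
    have e1 : idx 3 (1 * γ 0 0 + 2 * γ 1 0) = idx 3 (1 * γ 0 0 + 1 * γ 1 0) := by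
      simp only [idx]; push_cast at hc ⊢; omega
    have hne : idx 3 (1 * γ 0 0 + 1 * γ 1 0) ≠ 0 := by
      simp only [idx]; push_cast at hc ha ⊢; omega
    have hlt := idx_lt 3 (1 * γ 0 0 + 1 * γ 1 0)
    rw [one_mul] at hn
    rcases Nat.eq_zero_or_pos n with rfl | hn0
    · rw [map_sub, coeff_zero_zO, coeff_zero_zO, cconst_ne hh he he0 _ hne,
        cconst_ne hh he he0 _ (e1 ▸ hne), e1, sub_self]
    · rw [map_sub, coeff_zO_low he he0 (j := 1) hne (by omega) (by omega) hn0 (by omega),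
        coeff_zO_low he he0 (j := 1) (e1 ▸ hne) (by omega) (by omega) hn0 (by omega), e1]
      have h1 : n ≠ e * idx 3 (1 * γ 0 0 + 1 * γ 1 0) := by
        have := Nat.le_mul_of_pos_right e (Nat.pos_of_ne_zero hne); omega
      have h2 : n ≠ e * (3 - idx 3 (1 * γ 0 0 + 1 * γ 1 0)) := by
        have := Nat.le_mul_of_pos_right e
          (show 0 < 3 - idx 3 (1 * γ 0 0 + 1 * γ 1 0) by omega)
        omega
      rw [if_neg h1, if_neg h2, if_neg h1, if_neg h2, sub_self]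
  cS_lead := fun γ hc => by
    have he0 : 0 < e := pos_of_mul_eq he
    obtain ⟨ha, hd⟩ := not_dvd_diag (by norm_num) hc
    have e1 : idx 3 (1 * γ 0 0 + 2 * γ 1 0) = idx 3 (1 * γ 0 0 + 1 * γ 1 0) := by
      simp only [idx]; push_cast at hc ⊢; omega
    have hne : idx 3 (1 * γ 0 0 + 1 * γ 1 0) ≠ 0 := by
      simp only [idx]; push_cast at hc ha ⊢; omega
    have hlt := idx_lt 3 (1 * γ 0 0 + 1 * γ 1 0)
    rw [one_mul, map_sub, coeff_zO_low he he0 (j := 1) hne (by omega) (by omega) he0 (by omega),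
      coeff_zO_low he he0 (j := 1) (e1 ▸ hne) (by omega) (by omega) he0 (by omega), e1]
    have hnd := not_dvd_mul (h := h) he he0 (x := γ 1 1) hd
    have h21 : e ≠ e * 2 := by omega
    have : idx 3 (1 * γ 0 0 + 1 * γ 1 0) = 1 ∨ idx 3 (1 * γ 0 0 + 1 * γ 1 0) = 2 := by omega
    rcases this with hi | hi <;> rw [hi]
    · simp only [Nat.reduceSub, mul_one, if_neg h21, if_true, zero_sub, neg_sub_neg]
      refine isUnit_zpow_sub hι hζ hh fun hd' => hnd ?_
      exact dvd_neg.1 (hd'.trans (dvd_of_eq (by ring)))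
    · simp only [Nat.reduceSub, mul_one, if_neg h21, if_true, sub_zero]
      rw [← zpow_neg, ← zpow_neg]
      refine isUnit_zpow_sub hι hζ hh fun hd' => hnd ?_
      exact dvd_neg.1 (hd'.trans (dvd_of_eq (by ring)))
  cS_const := fun γ hc => by
    have he0 : 0 < e := pos_of_mul_eq he
    rw [map_sub, coeff_zero_zO, coeff_zero_zO]
    have hadm : ∀ b : ℤ,
        ¬((3 : ℤ) ∣ 1 * γ 0 0 + b * γ 1 0 ∧ (3 : ℤ) ∣ 1 * γ 0 1 + b * γ 1 1) := by
      intro b
      have := (adm_of_div (by norm_num : (3 : ℕ) ≠ 0) rfl rfl).1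
        (by rw [← vmul_vv]; exact (adm_vv (by norm_num : (3 : ℕ) ≠ 0) (by norm_num)).vmul γ :
          Adm (vv 3 (1 * γ 0 0 + b * γ 1 0) (1 * γ 0 1 + b * γ 1 1)))
      exact_mod_cast this
    refine isUnit_cconst_three hι hζ hh he he0 ?_ (fun h0 hb => hadm 1 ⟨?_, hb⟩)
      (fun h0 hb => hadm 2 ⟨?_, hb⟩)
    · simp only [idx]; push_cast at hc ⊢; omega
    · exact_mod_cast (idx_eq_zero_iff 3 _).1 h0
    · exact_mod_cast (idx_eq_zero_iff 3 _).1 h0
  aS_low := fun γ hc n hn => by omega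
  aS_lead := fun γ hc => by
    have he0 : 0 < e := pos_of_mul_eq he
    obtain ⟨ha, hd⟩ := not_dvd_diag (by norm_num) hc
    rw [Nat.sub_self, zero_mul, map_sub, coeff_zero_zO, coeff_zero_zO]
    refine isUnit_cconst_three hι hζ hh he he0 ?_ (fun _ hb => hd ?_) (fun h0 _ => ha ?_)
    · simp only [idx]; push_cast at hc ha ⊢; omega
    · simpa using hb
    · have h1 := (idx_eq_zero_iff 3 _).1 h0
      push_cast at hc h1 ⊢
      omega

end Three

section Four

variable {O : Type*} [CommRing O] [IsDomain O] {h e : ℕ} [NeZero h] {ι : O →+* ℂ} {ζ : Oˣ}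
  (hι : Function.Injective ι) (hζ : ι ζ = Complex.exp (2 * Real.pi * Complex.I / h))
  (hh : IsUnit (h : O)) (he : e * 4 = h)

omit [IsDomain O] [NeZero h] in
include hh he in
theorem isUnit_two : IsUnit (2 : O) := by
  have h4 : IsUnit (4 : O) := by exact_mod_cast isUnit_cast_level hh he
  exact isUnit_of_mul_isUnit_left (y := 2) (by norm_num; exact h4)

include hι hζ he in
/-- Primitive fourth roots of unity square to `-1`. -/
theorem sq_eq_neg_one (he0 : 0 < e) {x : ℤ} (hx : ¬(2 : ℤ) ∣ x) :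
    ((ζ ^ ((e : ℤ) * x) : Oˣ) : O) ^ 2 = -1 := by
  set z := ((ζ ^ ((e : ℤ) * x) : Oˣ) : O) with hz
  have h4 : z ^ 4 = 1 := zeta_pow_level hι hζ he x
  have h2 : z ^ 2 ≠ 1 := by
    rw [hz, ← Units.val_pow_eq_pow_val, ← zpow_natCast, ← zpow_mul]
    refine zeta_zpow_ne_one hζ ?_
    rw [mul_assoc]
    refine not_dvd_mul he he0 ?_
    push_cast
    omega
  have : (z ^ 2 - 1) * (z ^ 2 + 1) = 0 := by linear_combination h4
  exact eq_neg_of_add_eq_zero_left ((mul_eq_zero.1 this).resolve_left (sub_ne_zero.2 h2))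

include hι hζ hh he in
/-- The level four data. -/
def baseFour : BaseForms O h ι where
  ι_injective := hι
  zeta := ζ
  zeta_spec := hζ
  N := 4
  hN := Or.inr rfl
  e := e
  e_mul := he
  d := 2
  d_pos := two_pos
  card_le := card_sgnGamma_le_four
  C := zv (vv 4 2 1)
  A := zv (vv 4 1 0) - zv (vv 4 1 1)
  C_slash := fun γ hγ => zv_slash_Gamma (adm_vv (by norm_num) (by norm_num)) hγ
  A_slash := fun γ hγ => by
    rw [sub_eq_add_neg (zv _), SlashAction.add_slash, SlashAction.neg_slash,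
      zv_slash_Gamma (adm_vv (by norm_num) (by norm_num)) hγ,
      zv_slash_Gamma (adm_vv (by norm_num) (by norm_num)) hγ]
  cS := fun γ => zO h ζ ((e : ℤ) * (2 * γ 0 0 + 1 * γ 1 0)) ((e : ℤ) * (2 * γ 0 1 + 1 * γ 1 1))
    - PowerSeries.C (Ring.inverse 2)
  aS := fun γ => zO h ζ ((e : ℤ) * (1 * γ 0 0 + 0 * γ 1 0)) ((e : ℤ) * (1 * γ 0 1 + 0 * γ 1 1))
    - zO h ζ ((e : ℤ) * (1 * γ 0 0 + 1 * γ 1 0)) ((e : ℤ) * (1 * γ 0 1 + 1 * γ 1 1))
  cS_spec := qsr_zv_vv hι hζ hh he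
    (pos_of_mul_eq he)
    (by norm_num) (by norm_num) (isUnit_two hh he)
  aS_spec := qsr_zv_sub_vv hι hζ hh he
    (pos_of_mul_eq he)
    (by norm_num) (by norm_num) (by norm_num)
  cS_low := fun γ hc n hn => by
    have he0 : 0 < e := pos_of_mul_eq he
    have h4 : IsUnit (4 : O) := by exact_mod_cast isUnit_cast_level hh he
    have h2 : IsUnit (2 : O) := isUnit_two hh he
    have hodd := (not_two_dvd_diag ((show (2 : ℤ) ∣ ((4 : ℕ) : ℤ) by norm_num).trans hc)).1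
    have hi : idx 4 (2 * γ 0 0 + 1 * γ 1 0) = 2 := by
      simp only [idx]; push_cast at hc ⊢; omega
    rcases Nat.eq_zero_or_pos n with rfl | hn0
    · rw [map_sub, coeff_zero_zO, cconst_ne hh he he0 _ (by omega), hi, PowerSeries.coeff_C,
        if_pos rfl]
      have hs := Ring.mul_inverse_cancel _ h4
      have ht := Ring.mul_inverse_cancel _ h2
      push_cast
      refine h2.mul_left_cancel ?_
      linear_combination hs - ht
    · rw [map_sub, coeff_zO_low he he0 (j := 2) (by omega) (by omega) (by omega) hn0 (by omega), hi,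
        if_neg (by omega), if_neg (by omega), sub_zero, PowerSeries.coeff_C, if_neg (by omega),
        sub_zero]
  cS_lead := fun γ hc => by
    have he0 : 0 < e := pos_of_mul_eq he
    have h4 : IsUnit (4 : O) := by exact_mod_cast isUnit_cast_level hh he
    have h2 : IsUnit (2 : O) := isUnit_two hh he
    have hodd := not_two_dvd_diag ((show (2 : ℤ) ∣ ((4 : ℕ) : ℤ) by norm_num).trans hc)
    have hi : idx 4 (2 * γ 0 0 + 1 * γ 1 0) = 2 := by
      simp only [idx]; push_cast at hc ⊢; omega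
    rw [map_sub, coeff_zO_low he he0 (j := 2) (by omega) (by omega) (by omega) (by omega)
      (by rw [mul_comm]), hi, PowerSeries.coeff_C]
    have h2e : e * 2 ≠ 0 := by omega
    simp only [Nat.reduceSub, mul_comm 2 e, if_true, if_neg h2e, sub_zero]
    have hz := sq_eq_neg_one hι hζ he he0 (x := 2 * γ 0 1 + 1 * γ 1 1) (by omega)
    set u := ζ ^ ((e : ℤ) * (2 * γ 0 1 + 1 * γ 1 1)) with hu
    refine isUnit_of_mul_isUnit_right (x := (u : O)) ?_
    rw [mul_sub, ← Units.val_mul, mul_inv_cancel, Units.val_one, ← sq, hz,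
      show (1 : O) - -1 = 2 by norm_num]
    exact h2
  cS_const := fun γ hc => by
    have he0 : 0 < e := pos_of_mul_eq he
    have h4 : IsUnit (4 : O) := by exact_mod_cast isUnit_cast_level hh he
    have h2 : IsUnit (2 : O) := isUnit_two hh he
    have hs := Ring.mul_inverse_cancel _ h4
    have ht := Ring.mul_inverse_cancel _ h2
    rw [map_sub, coeff_zero_zO, PowerSeries.coeff_C, if_pos rfl]
    have hlt := idx_lt 4 (2 * γ 0 0 + 1 * γ 1 0)
    have hidx := idx_eq_zero_iff 4 (2 * γ 0 0 + 1 * γ 1 0)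
    by_cases hi : idx 4 (2 * γ 0 0 + 1 * γ 1 0) = 0
    · rw [cconst_eq he he0 _ hi]
      have h0 := hidx.1 hi
      have hd := (not_two_dvd_diag (γ := γ) (by push_cast at h0 ⊢; omega)).2
      have hz := sq_eq_neg_one hι hζ he he0 (x := 2 * γ 0 1 + 1 * γ 1 1) (by omega)
      have h1z := isUnit_one_sub_zeta hι hζ hh (b := (e : ℤ) * (2 * γ 0 1 + 1 * γ 1 1))
        (not_dvd_mul he he0 (by push_cast; omega))
      generalize ((ζ ^ ((e : ℤ) * (2 * γ 0 1 + 1 * γ 1 1)) : Oˣ) : O) = z at *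
      have hr := Ring.mul_inverse_cancel _ h1z
      refine isUnit_of_mul_isUnit_left (y := 2 * (1 - z) * (1 - z)) ?_
      rw [show (-(z * Ring.inverse (1 - z)) - Ring.inverse 2) * (2 * (1 - z) * (1 - z)) = -2 by
        linear_combination (-2 * z * (1 - z)) * hr - ((1 - z) * (1 - z)) * ht + hz]
      exact h2.neg
    · rw [cconst_ne hh he he0 _ hi]
      have : idx 4 (2 * γ 0 0 + 1 * γ 1 0) = 1 ∨ idx 4 (2 * γ 0 0 + 1 * γ 1 0) = 3 := by
        have h2i : idx 4 (2 * γ 0 0 + 1 * γ 1 0) ≠ 2 := by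
          intro h2i
          have hc2 : (2 : ℤ) ∣ γ 1 0 := by simp only [idx] at h2i; push_cast at h2i; omega
          have hodd := (not_two_dvd_diag hc2).1
          refine hc ?_
          simp only [idx] at h2i
          push_cast at h2i ⊢
          omega
        omega
      refine isUnit_of_mul_isUnit_left (y := (4 : O)) ?_
      rcases this with hi' | hi' <;> rw [hi'] <;> push_cast
      · rw [show (1 * Ring.inverse (4 : O) - Ring.inverse 2) * 4 = -1 by
          linear_combination hs - 2 * ht]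
        exact isUnit_one.neg
      · rw [show (3 * Ring.inverse (4 : O) - Ring.inverse 2) * 4 = 1 by
          linear_combination 3 * hs - 2 * ht]
        exact isUnit_one
  aS_low := fun γ hc n hn => by
    have he0 : 0 < e := pos_of_mul_eq he
    obtain ⟨ha, hd⟩ := not_dvd_diag (by norm_num) hc
    have e1 : idx 4 (1 * γ 0 0 + 1 * γ 1 0) = idx 4 (1 * γ 0 0 + 0 * γ 1 0) := by
      simp only [idx]; push_cast at hc ⊢; omega
    have hne : idx 4 (1 * γ 0 0 + 0 * γ 1 0) ≠ 0 := by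
      simp only [idx]; push_cast at hc ha ⊢; omega
    have hlt := idx_lt 4 (1 * γ 0 0 + 0 * γ 1 0)
    rw [show (2 : ℕ) - 1 = 1 from rfl, one_mul] at hn
    rcases Nat.eq_zero_or_pos n with rfl | hn0
    · rw [map_sub, coeff_zero_zO, coeff_zero_zO, cconst_ne hh he he0 _ hne,
        cconst_ne hh he he0 _ (e1 ▸ hne), e1, sub_self]
    · rw [map_sub, coeff_zO_low he he0 (j := 1) hne (by omega) (by omega) hn0 (by omega),
        coeff_zO_low he he0 (j := 1) (e1 ▸ hne) (by omega) (by omega) hn0 (by omega), e1]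
      have h1 : n ≠ e * idx 4 (1 * γ 0 0 + 0 * γ 1 0) := by
        have := Nat.le_mul_of_pos_right e (Nat.pos_of_ne_zero hne); omega
      have h2 : n ≠ e * (4 - idx 4 (1 * γ 0 0 + 0 * γ 1 0)) := by
        have := Nat.le_mul_of_pos_right e
          (show 0 < 4 - idx 4 (1 * γ 0 0 + 0 * γ 1 0) by omega)
        omega
      rw [if_neg h1, if_neg h2, if_neg h1, if_neg h2, sub_self]
  aS_lead := fun γ hc => by
    have he0 : 0 < e := pos_of_mul_eq he
    obtain ⟨ha, hd⟩ := not_dvd_diag (by norm_num) hc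
    have hodd := (not_two_dvd_diag ((show (2 : ℤ) ∣ ((4 : ℕ) : ℤ) by norm_num).trans hc)).1
    have e1 : idx 4 (1 * γ 0 0 + 1 * γ 1 0) = idx 4 (1 * γ 0 0 + 0 * γ 1 0) := by
      simp only [idx]; push_cast at hc ⊢; omega
    have : idx 4 (1 * γ 0 0 + 0 * γ 1 0) = 1 ∨ idx 4 (1 * γ 0 0 + 0 * γ 1 0) = 3 := by
      simp only [idx]; push_cast at hc ⊢; omega
    rw [show (2 : ℕ) - 1 = 1 from rfl, one_mul, map_sub,
      coeff_zO_low he he0 (j := 1) (by omega) (by omega) (by omega) he0 (by omega),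
      coeff_zO_low he he0 (j := 1) (by omega) (by omega) (by omega) he0 (by omega), e1]
    have hnd := not_dvd_mul (h := h) he he0 (x := γ 1 1) hd
    have h31 : e ≠ e * 3 := by omega
    rcases this with hi | hi <;> rw [hi]
    · simp only [Nat.reduceSub, mul_one, if_neg h31, if_true, zero_sub, neg_sub_neg]
      refine isUnit_zpow_sub hι hζ hh fun hd' => hnd ?_
      exact dvd_neg.1 (hd'.trans (dvd_of_eq (by ring)))
    · simp only [Nat.reduceSub, mul_one, if_neg h31, if_true, sub_zero]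
      rw [← zpow_neg, ← zpow_neg]
      refine isUnit_zpow_sub hι hζ hh fun hd' => hnd ?_
      exact dvd_neg.1 (hd'.trans (dvd_of_eq (by ring)))

end Four

end Fermat.Agent.LevelM
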