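import Fermat.Agent.LevelM.Pfun
import Mathlib.Analysis.Complex.Liouville

/-!
# `pe` separates points up to sign

The main result is `pe_injective`: if `pe z τ = pe w τ` with `z`, `2w` off the lattice, then
`z ≡ ± w`. Otherwise an auxiliary doubly periodic function would have only removable
singularities, hence be constant, and `pe` would be constant as well.
-/

set_option autoImplicit false

noncomputable section

open Complex Filter Topology Set
open UpperHalfPlane hiding I

namespace Fermat.Agent.LevelM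

/-- Translations preserve punctured neighbourhoods. -/
theorem tendsto_sub_const_punctured {x y c : ℂ} (h : x - c = y) :
    Tendsto (fun z : ℂ => z - c) (𝓝[≠] x) (𝓝[≠] y) := by
  subst h
  refine tendsto_nhdsWithin_iff.2
    ⟨((continuous_sub_right c).tendsto x).mono_left nhdsWithin_le_nhds, ?_⟩
  filter_upwards [self_mem_nhdsWithin] with z hz hz'
  exact hz (sub_left_injective hz')

/-- Liouville for doubly periodic functions with removable singularities only. -/
theorem exists_eq_const_of_periodic {τ : ℂ} (hτ : 0 < τ.im) {h : ℂ → ℂ}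
    (hper : ∀ x (a b : ℤ), h (x + (a * τ + b)) = h x)
    (hreg : ∀ x, ∃ g : ℂ → ℂ, AnalyticAt ℂ g x ∧ h =ᶠ[𝓝[≠] x] g) :
    ∃ C : ℂ, ∀ x, ContinuousAt h x → h x = C := by
  choose g hg hge using hreg
  set H : ℂ → ℂ := fun x => g x x with hH
  have hlim : ∀ x, Tendsto h (𝓝[≠] x) (𝓝 (H x)) := fun x =>
    (((hg x).continuousAt.tendsto).mono_left nhdsWithin_le_nhds).congr' (hge x).symm
  have huniq : ∀ x (c : ℂ), Tendsto h (𝓝[≠] x) (𝓝 c) → H x = c := fun x c hc =>
    tendsto_nhds_unique (hlim x) hc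
  have hloc : ∀ x, H =ᶠ[𝓝 x] g x := by
    intro x
    have h1 := hge x
    rw [EventuallyEq, eventually_nhdsWithin_iff, eventually_nhds_iff] at h1
    obtain ⟨U, hU, hUo, hxU⟩ := h1
    filter_upwards [(hUo.mem_nhds hxU), (hg x).eventually_continuousAt] with y hy hyc
    rcases eq_or_ne y x with rfl | hne
    · rfl
    refine huniq y _ ?_
    refine (hyc.tendsto.mono_left nhdsWithin_le_nhds).congr' ?_
    filter_upwards [mem_nhdsWithin_of_mem_nhds (hUo.mem_nhds hy),
      mem_nhdsWithin_of_mem_nhds (isOpen_compl_singleton.mem_nhds hne)] with z hz hz'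
    exact (hU z hz hz').symm
  have hdiff : Differentiable ℂ H := fun x =>
    (hg x).differentiableAt.congr_of_eventuallyEq (hloc x)
  have hHper : ∀ x (a b : ℤ), H (x + (a * τ + b)) = H x := by
    intro x a b
    set w : ℂ := (a : ℂ) * τ + b
    refine huniq _ _ ?_
    have ht := tendsto_sub_const_punctured (add_sub_cancel_right x w)
    refine ((hlim x).comp ht).congr fun y => ?_
    simp only [Function.comp_apply]
    rw [← hper (y - w) a b, sub_add_cancel]
  refine ⟨H 0, fun x hx => ?_⟩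
  rw [← huniq x _ (hx.tendsto.mono_left nhdsWithin_le_nhds)]
  exact apply_eq_apply_of_periodic hτ hdiff hHper x 0

variable {τ : ℂ} (hτ : 0 < τ.im)

include hτ in
theorem analyticAt_ell {z : ℂ} (hz : z ∉ lat τ) : AnalyticAt ℂ (fun w => ell w τ) z := by
  rw [analyticAt_iff_eventually_differentiableAt]
  filter_upwards [eventually_notMem hτ hz] with w hw
  exact differentiableAt_ell hτ hw

include hτ in
theorem analyticAt_ell_add {x : ℂ} (d : ℂ) (h : x + d ∉ lat τ) :
    AnalyticAt ℂ (fun w => ell (w + d) τ) x :=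
  AnalyticAt.comp_of_eq (g := fun w => ell w τ) (f := fun w : ℂ => w + d) (analyticAt_ell hτ h)
    (analyticAt_id.add analyticAt_const) rfl

include hτ in
theorem analyticAt_ell_sub {x : ℂ} (d : ℂ) (h : x - d ∉ lat τ) :
    AnalyticAt ℂ (fun w => ell (w - d) τ) x :=
  AnalyticAt.comp_of_eq (g := fun w => ell w τ) (f := fun w : ℂ => w - d) (analyticAt_ell hτ h)
    (analyticAt_id.sub analyticAt_const) rfl

include hτ in
theorem analyticAt_pe {z : ℂ} (hz : z ∉ lat τ) : AnalyticAt ℂ (fun w => pe w τ) z := by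
  simp only [pe]
  exact ((analyticAt_ell hτ hz).deriv.neg).div_const

include hτ in
/-- The double pole of `pe` at `0`. -/
theorem exists_pe_singular_part : ∃ R : ℂ → ℂ, AnalyticAt ℂ R 0 ∧
    ∀ᶠ z in 𝓝[≠] (0 : ℂ), pe z τ = (1 / (2 * Real.pi * I)) ^ 2 / z ^ 2 + R z := by
  obtain ⟨R, hR, hRe⟩ := exists_singular_part hτ
  refine ⟨fun z => -deriv R z / (2 * Real.pi * I), hR.deriv.neg.div_const, ?_⟩
  rw [eventually_nhdsWithin_iff, eventually_nhds_iff] at hRe
  obtain ⟨U, hU, hUo, hxU⟩ := hRe
  filter_upwards [mem_nhdsWithin_of_mem_nhds (hUo.mem_nhds hxU),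
    nhdsWithin_le_nhds hR.eventually_analyticAt, self_mem_nhdsWithin] with z hz hza hz0
  have hz0' : z ≠ 0 := hz0
  have e : (fun w => ell w τ) =ᶠ[𝓝 z] fun w => 1 / (2 * Real.pi * I * w) + R w := by
    filter_upwards [hUo.mem_nhds hz, isOpen_compl_singleton.mem_nhds hz0'] with w hw hw0
    exact hU w hw hw0
  have hpi := two_pi_I_ne_zero
  have d : HasDerivAt (fun w => 1 / (2 * Real.pi * I * w) + R w)
      (-(1 / (2 * Real.pi * I)) / z ^ 2 + deriv R z) z := by
    have d1 := (hasDerivAt_const z (1 : ℂ)).div ((hasDerivAt_id z).const_mul (2 * Real.pi * I))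
      (mul_ne_zero hpi hz0')
    refine (d1.add hza.differentiableAt.hasDerivAt).congr_deriv ?_
    simp only [id_eq]
    field_simp
    ring
  rw [pe, e.deriv_eq, d.deriv]
  field_simp
  ring

theorem two_mul_notMem_ne {w : ℂ} (hw : 2 * w ∉ lat τ) : w ∉ lat τ := by
  rintro ⟨a, b, h⟩
  exact hw ⟨2 * a, 2 * b, by push_cast; linear_combination 2 * h⟩

include hτ in
/-- **`pe` separates points up to sign.** -/
theorem pe_injective {z w : ℂ} (hz : z ∉ lat τ) (hw2 : 2 * w ∉ lat τ)
    (h : pe z τ = pe w τ) : z - w ∈ lat τ ∨ z + w ∈ lat τ := by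
  by_contra hcon
  push Not at hcon
  obtain ⟨h1, h2⟩ := hcon
  have hw := two_mul_notMem_ne hw2
  set c := pe w τ with hc
  set f₁ : ℂ → ℂ := fun x => ell (x - w) τ - ell (x + w) τ + 2 * ell w τ with hf₁
  set F : ℂ → ℂ := fun x => f₁ x * (pe x τ - c) with hF
  -- `F` extended by the same value at lattice translates
  have hf₁per : ∀ x, x - w ∉ lat τ → x + w ∉ lat τ → ∀ a b : ℤ,
      f₁ (x + (a * τ + b)) = f₁ x := by
    intro x hm hp a b
    simp only [hf₁]
    rw [show x + ((a : ℂ) * τ + b) - w = (x - w) + a * τ + b by ring,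
      show x + ((a : ℂ) * τ + b) + w = (x + w) + a * τ + b by ring,
      ell_add_intCast, ell_add_intCast, ell_add_intCast_mul_tau hτ hm,
      ell_add_intCast_mul_tau hτ hp]
    ring
  classical
  set G : ℂ → ℂ := fun x =>
    if x ∈ lat τ ∨ x - w ∈ lat τ ∨ x + w ∈ lat τ then 0 else F x with hG
  have hbad : ∀ x (a b : ℤ), (x + (a * τ + b) ∈ lat τ ∨ x + (a * τ + b) - w ∈ lat τ ∨
      x + (a * τ + b) + w ∈ lat τ) ↔ (x ∈ lat τ ∨ x - w ∈ lat τ ∨ x + w ∈ lat τ) := fun x a b => by
    rw [lat_add_iff, show x + ((a : ℂ) * τ + b) - w = (x - w) + (a * τ + b) by ring, lat_add_iff,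
      show x + ((a : ℂ) * τ + b) + w = (x + w) + (a * τ + b) by ring, lat_add_iff]
  have hGper : ∀ x (a b : ℤ), G (x + (a * τ + b)) = G x := by
    intro x a b
    by_cases hx : x ∈ lat τ ∨ x - w ∈ lat τ ∨ x + w ∈ lat τ
    · simp only [hG, if_pos hx, if_pos ((hbad x a b).2 hx)]
    · simp only [hG, if_neg hx, if_neg fun h => hx ((hbad x a b).1 h), hF]
      push Not at hx
      rw [hf₁per x hx.2.1 hx.2.2, pe_add_lat hτ hx.1]
  have hgood : ∀ x, ¬(x ∈ lat τ ∨ x - w ∈ lat τ ∨ x + w ∈ lat τ) → AnalyticAt ℂ F x := by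
    intro x hx
    push Not at hx
    simp only [hF, hf₁]
    exact (((analyticAt_ell_sub hτ w hx.2.1).sub (analyticAt_ell_add hτ w hx.2.2)).add
      analyticAt_const).mul ((analyticAt_pe hτ hx.1).sub analyticAt_const)
  have hpunct : ∀ x, ∀ᶠ y in 𝓝[≠] x, G y = F y := by
    intro x
    have e : ∀ c : ℂ, ∀ᶠ y in 𝓝[≠] x, y - c ∉ lat τ := fun c =>
      (tendsto_sub_const_punctured rfl).eventually (eventually_notMem_punctured hτ (x - c))
    filter_upwards [eventually_notMem_punctured hτ x, e w, e (-w)] with y h0 h1 h2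
    simp only [hG]
    rw [if_neg]
    rw [sub_neg_eq_add] at h2
    tauto
  -- the point `0`
  have hzero : ∃ g : ℂ → ℂ, AnalyticAt ℂ g 0 ∧ G =ᶠ[𝓝[≠] (0 : ℂ)] g := by
    obtain ⟨R, hR, hRe⟩ := exists_pe_singular_part hτ
    have hwn : -w ∉ lat τ := neg_notMem hw
    have hfa : AnalyticAt ℂ f₁ 0 := by
      simp only [hf₁]
      exact ((analyticAt_ell_sub hτ w (by simpa using hwn)).sub
        (analyticAt_ell_add hτ w (by simpa using hw))).add analyticAt_const
    have hf0 : f₁ 0 = 0 := by
      simp only [hf₁, zero_sub, zero_add]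
      rw [ell_neg (ex_ne_one_of_notMem hw)]
      ring
    have hd0 : deriv f₁ 0 = 0 := by
      have d1 : HasDerivAt (fun x => ell (x - w) τ) (-(2 * Real.pi * I) * pe (-w) τ) 0 := by
        have := (hasDerivAt_ell hτ hwn)
        rw [← zero_sub w] at this
        simpa using HasDerivAt.comp_sub_const (f := fun u => ell u τ) (0 : ℂ) w this
      have d2 : HasDerivAt (fun x => ell (x + w) τ) (-(2 * Real.pi * I) * pe w τ) 0 := by
        have := (hasDerivAt_ell hτ hw)
        rw [← zero_add w] at this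
        simpa using HasDerivAt.comp_add_const (f := fun u => ell u τ) (0 : ℂ) w this
      simp only [hf₁]
      rw [((d1.fun_sub d2).add_const _).deriv, pe_neg hτ hw, sub_self]
    have hu : AnalyticAt ℂ (dslope (dslope f₁ 0) 0) 0 := by
      have h1 : AnalyticAt ℂ (dslope f₁ 0) 0 :=
        (HasFPowerSeriesAt.has_fpower_series_dslope_fslope hfa.choose_spec).analyticAt
      exact (HasFPowerSeriesAt.has_fpower_series_dslope_fslope h1.choose_spec).analyticAt
    refine ⟨fun x => dslope (dslope f₁ 0) 0 x * ((1 / (2 * Real.pi * I)) ^ 2 + x ^ 2 * (R x - c)),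
      hu.mul (analyticAt_const.add ((analyticAt_id.pow 2).mul (hR.sub analyticAt_const))), ?_⟩
    filter_upwards [hpunct 0, hRe, self_mem_nhdsWithin] with x hx hxR hx0
    have hx0' : x ≠ 0 := hx0
    have e1 : dslope f₁ 0 x = f₁ x / x := by
      rw [dslope_of_ne _ hx0', slope_def_field, hf0, sub_zero, sub_zero]
    have e2 : dslope (dslope f₁ 0) 0 x = f₁ x / x / x := by
      rw [dslope_of_ne _ hx0', slope_def_field, dslope_same, hd0, sub_zero, sub_zero, e1]
    rw [hx, hF, e2]
    simp only [hxR]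
    field_simp
    ring
  -- the points `±w`
  have hone : ∀ (u : ℂ) (s : ℂ), (s = 1 ∧ u = w ∨ s = -1 ∧ u = -w) →
      ∃ g : ℂ → ℂ, AnalyticAt ℂ g u ∧ G =ᶠ[𝓝[≠] u] g := by
    intro u s hus
    obtain ⟨R, hR, hRe⟩ := exists_singular_part hτ
    have hu : u ∉ lat τ := by
      rcases hus with ⟨-, rfl⟩ | ⟨-, rfl⟩
      · exact hw
      · exact neg_notMem hw
    have hu2 : u + u ∉ lat τ := by
      rcases hus with ⟨-, rfl⟩ | ⟨-, rfl⟩
      · rwa [← two_mul]
      · rw [show -w + -w = -(2 * w) by ring]; exact neg_notMem hw2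
    have hpu : pe u τ = c := by
      rcases hus with ⟨-, rfl⟩ | ⟨-, rfl⟩
      · exact hc.symm
      · exact pe_neg hτ hw
    set D : ℂ → ℂ := dslope (fun x => pe x τ - c) u with hD
    have hDa : AnalyticAt ℂ D u :=
      (HasFPowerSeriesAt.has_fpower_series_dslope_fslope
        ((analyticAt_pe hτ hu).sub analyticAt_const).choose_spec).analyticAt
    have hR' : AnalyticAt ℂ (fun x => R (x - u)) u :=
      AnalyticAt.comp_of_eq hR (analyticAt_id.sub analyticAt_const) (by simp)
    have hE : AnalyticAt ℂ (fun x => ell (x + u) τ) u := analyticAt_ell_add hτ u hu2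
    refine ⟨fun x => s * (1 / (2 * Real.pi * I)) * D x +
      (s * (R (x - u) - ell (x + u) τ) + 2 * ell w τ) * (pe x τ - c),
      ((analyticAt_const.mul hDa).add (((analyticAt_const.mul (hR'.sub hE)).add
        analyticAt_const).mul ((analyticAt_pe hτ hu).sub analyticAt_const))), ?_⟩
    have ht := tendsto_sub_const_punctured (sub_self u)
    filter_upwards [hpunct u, ht.eventually hRe, self_mem_nhdsWithin] with x hx hxR hxu
    have hxu' : x ≠ u := hxu
    have e1 : pe x τ - c = (x - u) * D x := by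
      rw [hD, dslope_of_ne _ hxu', slope_def_field, hpu, sub_self, sub_zero,
        mul_div_cancel₀ _ (sub_ne_zero.2 hxu')]
    have e2 : f₁ x = s * (ell (x - u) τ - ell (x + u) τ) + 2 * ell w τ := by
      rcases hus with ⟨rfl, rfl⟩ | ⟨rfl, rfl⟩
      · simp only [hf₁, one_mul]
      · simp only [hf₁, sub_neg_eq_add, ← sub_eq_add_neg]; ring
    rw [hx, hF]
    simp only
    rw [e2, hxR, e1]
    have hne : x - u ≠ 0 := sub_ne_zero.2 hxu'
    field_simp
    ring
  have hshift : ∀ (u : ℂ) (a b : ℤ),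
      (∃ g : ℂ → ℂ, AnalyticAt ℂ g u ∧ G =ᶠ[𝓝[≠] u] g) →
      ∃ g : ℂ → ℂ, AnalyticAt ℂ g (u + (a * τ + b)) ∧ G =ᶠ[𝓝[≠] (u + (a * τ + b))] g := by
    rintro u a b ⟨g, hg, hge⟩
    refine ⟨fun x => g (x - ((a : ℂ) * τ + b)),
      AnalyticAt.comp_of_eq hg (analyticAt_id.sub analyticAt_const) (add_sub_cancel_right _ _), ?_⟩
    have ht := tendsto_sub_const_punctured (add_sub_cancel_right u ((a : ℂ) * τ + b))
    filter_upwards [ht.eventually hge] with x hx
    rw [← hx, ← hGper (x - ((a : ℂ) * τ + b)) a b, sub_add_cancel]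
  have hreg : ∀ x, ∃ g : ℂ → ℂ, AnalyticAt ℂ g x ∧ G =ᶠ[𝓝[≠] x] g := by
    intro x
    by_cases hx : x ∈ lat τ
    · obtain ⟨a, b, rfl⟩ := hx
      simpa using hshift 0 a b hzero
    by_cases hm : x - w ∈ lat τ
    · obtain ⟨a, b, e⟩ := hm
      rw [show x = w + ((a : ℂ) * τ + b) by rw [← e]; ring]
      exact hshift w a b (hone w 1 (Or.inl ⟨rfl, rfl⟩))
    by_cases hp : x + w ∈ lat τ
    · obtain ⟨a, b, e⟩ := hp
      rw [show x = -w + ((a : ℂ) * τ + b) by rw [← e]; ring]
      exact hshift (-w) a b (hone (-w) (-1) (Or.inr ⟨rfl, rfl⟩))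
    exact ⟨F, hgood x (by tauto), hpunct x⟩
  obtain ⟨C, hC⟩ := exists_eq_const_of_periodic hτ hGper hreg
  have hnear : ∀ x, ¬(x ∈ lat τ ∨ x - w ∈ lat τ ∨ x + w ∈ lat τ) → F x = C := by
    intro x hx
    have hev : ∀ᶠ y in 𝓝 x, G y = F y := by
      have h := hpunct x
      rw [eventually_nhdsWithin_iff] at h
      filter_upwards [h] with y hy
      rcases eq_or_ne y x with rfl | hne
      · simp only [hG, if_neg hx]
      · exact hy hne
    have hcont : ContinuousAt G x :=
      (hgood x hx).continuousAt.congr (hev.mono fun y hy => hy.symm)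
    rw [← hev.self_of_nhds]
    exact hC x hcont
  have hC0 : C = 0 := by
    rw [← hnear z (by tauto), hF]
    simp [h]
  -- `f₁ ≠ 0` near `w`, so `pe` is constant there
  obtain ⟨R, hR, hRe⟩ := exists_singular_part hτ
  have hblow : ∀ᶠ x in 𝓝[≠] w, f₁ x ≠ 0 := by
    have hR' : AnalyticAt ℂ (fun x => R (x - w)) w :=
      AnalyticAt.comp_of_eq hR (analyticAt_id.sub analyticAt_const) (by simp)
    have hE : AnalyticAt ℂ (fun x => ell (x + w) τ) w :=
      analyticAt_ell_add hτ w (by rwa [← two_mul])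
    have hcont : ContinuousAt
        (fun x => 1 / (2 * Real.pi * I) + (x - w) * (R (x - w) - ell (x + w) τ + 2 * ell w τ)) w :=
      continuousAt_const.add ((continuousAt_id.sub continuousAt_const).mul
        ((hR'.continuousAt.sub hE.continuousAt).add continuousAt_const))
    have hne := hcont.eventually_ne (by simp : _ ≠ (0 : ℂ))
    have ht := tendsto_sub_const_punctured (sub_self w)
    filter_upwards [hne.filter_mono nhdsWithin_le_nhds, ht.eventually hRe, self_mem_nhdsWithin]
      with x hx hxR hxw h0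
    refine hx ?_
    simp only [hf₁] at h0
    rw [hxR] at h0
    have hne' : x - w ≠ 0 := sub_ne_zero.2 hxw
    field_simp at h0 ⊢
    linear_combination h0
  have hconst : (fun x => pe x τ) =ᶠ[𝓝[≠] w] fun _ => c := by
    filter_upwards [hblow, eventually_notMem_punctured hτ w, hpunct w,
      (show ∀ᶠ x in 𝓝[≠] w, x - w ∉ lat τ ∧ x + w ∉ lat τ from by
        refine Filter.Eventually.and ?_ ?_
        · exact (tendsto_sub_const_punctured (sub_self w)).eventually
            (eventually_notMem_punctured hτ 0)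
        · have h2w : w + w ∉ lat τ := by rwa [← two_mul]
          have hcont : ContinuousAt (fun y : ℂ => y + w) w := by fun_prop
          exact (hcont.tendsto.eventually (eventually_notMem hτ h2w)).filter_mono
            nhdsWithin_le_nhds)] with x hx1 hx2 _ hx4
    have := hnear x (by tauto)
    rw [hC0, hF, mul_eq_zero] at this
    exact sub_eq_zero.1 (this.resolve_left hx1)
  -- identity theorem
  have hcount : (lat τ).Countable := by
    refine (countable_range (fun p : ℤ × ℤ => (p.1 : ℂ) * τ + p.2)).mono ?_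
    rintro _ ⟨a, b, rfl⟩
    exact ⟨(a, b), rfl⟩
  have hconn : IsPreconnected (lat τ)ᶜ :=
    (hcount.isConnected_compl_of_one_lt_rank (by rw [Complex.rank_real_complex]; norm_num)).2
  have heq : EqOn (fun x => pe x τ) (fun _ => c) (lat τ)ᶜ :=
    AnalyticOnNhd.eqOn_of_preconnected_of_frequently_eq (fun x hx => analyticAt_pe hτ hx)
      analyticOnNhd_const hconn hw hconst.frequently
  obtain ⟨R2, hR2, hR2e⟩ := exists_pe_singular_part hτ
  have hev : ∀ᶠ x in 𝓝[≠] (0 : ℂ), (1 / (2 * Real.pi * I)) ^ 2 = x ^ 2 * (c - R2 x) := by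
    filter_upwards [hR2e, eventually_notMem_punctured hτ 0, self_mem_nhdsWithin] with x hx hxl hx0
    have h0 : x ≠ 0 := hx0
    have h3 : pe x τ = c := heq hxl
    rw [hx] at h3
    rw [← h3]
    field_simp
    ring
  have hlim : Tendsto (fun x : ℂ => x ^ 2 * (c - R2 x)) (𝓝[≠] 0) (𝓝 0) := by
    have hcont : ContinuousAt (fun x : ℂ => x ^ 2 * (c - R2 x)) 0 :=
      (continuousAt_id.pow 2).mul (continuousAt_const.sub hR2.continuousAt)
    simpa using hcont.tendsto.mono_left nhdsWithin_le_nhds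
  have := tendsto_nhds_unique (tendsto_const_nhds.congr' hev) hlim
  simp at this

end Fermat.Agent.LevelM
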