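import Fermat.Agent.LevelM.FormsOn
import Fermat.Agent.LevelM.PfunInj
import Fermat.Agent.LevelM.BaseSmall
import Fermat.Agent.Connected.Instance

/-!
# Field automorphisms of `ℂ` act on forms of level `±Γ(L)`, compatibly with slashing

If `σ (exp (2πi/L)) = exp (2πic/L)` then `σ (f ∣ γ) = g ∣ γ'` for `γ' ≡ D⁻¹ γ D (mod L)`,
`D = diag (1, c)` (`exists_twist_formOn`). The proof writes a form as a quotient of combinations
of level one forms and powers of one form `genG` of weight two with injective conjugates.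
-/

set_option autoImplicit false

noncomputable section

open Complex Filter Topology Function
open UpperHalfPlane hiding I
open scoped Manifold MatrixGroups ModularForm

namespace Fermat.Agent.LevelM

open Fermat.Agent.MFCore (IsLevelOne IsQ Twist)

attribute [local instance] Classical.decEq

/-- `γ' ≡ D⁻¹ γ D` modulo `L`, with `D = diag (1, c)`. -/
def ConjRel (L : ℕ) (c : ℤ) (γ γ' : SL(2, ℤ)) : Prop :=
  (γ' 0 0 : ZMod L) = γ 0 0 ∧ (γ' 0 1 : ZMod L) = c * γ 0 1 ∧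
    (c : ZMod L) * γ' 1 0 = γ 1 0 ∧ (γ' 1 1 : ZMod L) = γ 1 1

theorem ConjRel.mul {L : ℕ} {c : ℤ} {γ γ' δ δ' : SL(2, ℤ)} (h : ConjRel L c γ γ')
    (h' : ConjRel L c δ δ') : ConjRel L c (γ * δ) (γ' * δ') := by
  obtain ⟨h00, h01, h10, h11⟩ := h
  obtain ⟨k00, k01, k10, k11⟩ := h'
  simp only [ConjRel, BaseForms.mul_apply']
  push_cast
  refine ⟨?_, ?_, ?_, ?_⟩
  · linear_combination (δ' 0 0 : ZMod L) * h00 + (γ 0 0 : ZMod L) * k00 +
      (δ' 1 0 : ZMod L) * h01 + (γ 0 1 : ZMod L) * k10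
  · linear_combination (δ' 0 1 : ZMod L) * h00 + (γ 0 0 : ZMod L) * k01 +
      (δ' 1 1 : ZMod L) * h01 + (c : ZMod L) * (γ 0 1 : ZMod L) * k11
  · linear_combination (δ' 0 0 : ZMod L) * h10 + (γ 1 0 : ZMod L) * k00 +
      (c : ZMod L) * (δ' 1 0 : ZMod L) * h11 + (γ 1 1 : ZMod L) * k10
  · linear_combination (γ' 1 0 : ZMod L) * k01 + (δ 0 1 : ZMod L) * h10 +
      (δ' 1 1 : ZMod L) * h11 + (γ 1 1 : ZMod L) * k11

theorem ConjRel.one (L : ℕ) (c : ℤ) : ConjRel L c 1 1 := by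
  simp [ConjRel]

theorem ConjRel.inv {L : ℕ} {c : ℤ} {γ γ' : SL(2, ℤ)} (h : ConjRel L c γ γ') :
    ConjRel L c γ⁻¹ γ'⁻¹ := by
  obtain ⟨h00, h01, h10, h11⟩ := h
  simp only [ConjRel, Matrix.SpecialLinearGroup.coe_inv, Matrix.adjugate_fin_two,
    Matrix.of_apply, Matrix.cons_val', Matrix.cons_val_zero, Matrix.cons_val_one,
    Matrix.empty_val', Matrix.cons_val_fin_one]
  push_cast
  exact ⟨h11, by linear_combination -h01, by linear_combination -h10, h00⟩

/-- Conjugation by `D` can be realised in `SL(2, ℤ)` modulo `L`. -/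
theorem exists_conjRel {L : ℕ} [NeZero L] {c : ℤ} (hc : IsCoprime c (L : ℤ)) (γ : SL(2, ℤ)) :
    ∃ γ', ConjRel L c γ γ' := by
  have hγ : γ ∈ Subgroup.closure {ModularGroup.S, ModularGroup.T} := by
    simp [SpecialLinearGroup.SL2Z_generators]
  induction hγ using Subgroup.closure_induction with
  | mem x hx =>
    rcases hx with rfl | rfl
    · obtain ⟨u, w, huw⟩ := hc.pow_right (n := 2)
      refine ⟨⟨!![(L : ℤ), -c; u, w * L], ?_⟩, ?_⟩
      · rw [Matrix.det_fin_two_of]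
        linear_combination huw
      · have h1 : (u : ZMod L) * c = 1 := by
          have := congrArg (fun x : ℤ => (x : ZMod L)) huw
          push_cast at this
          simpa using this
        simp [ConjRel, ModularGroup.S]
        linear_combination h1
    · refine ⟨ModularGroup.T ^ c, ?_⟩
      simp only [ConjRel, ModularGroup.coe_T_zpow]
      simp [ModularGroup.T]
  | one => exact ⟨1, ConjRel.one L c⟩
  | mul x y _ _ hx hy =>
    obtain ⟨x', hx'⟩ := hx
    obtain ⟨y', hy'⟩ := hy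
    exact ⟨x' * y', hx'.mul hy'⟩
  | inv x _ hx =>
    obtain ⟨x', hx'⟩ := hx
    exact ⟨x'⁻¹, hx'.inv⟩

/-- The condition on `σ` at `L`-th roots of unity. -/
def RootTwist (L : ℕ) (σ : ℂ →+* ℂ) (c : ℤ) : Prop :=
  ∀ b : ℤ, σ (ex ((b : ℂ) / L)) = ex (((c * b : ℤ) : ℂ) / L)

/-- Every automorphism of `ℂ` acts on `L`-th roots of unity as a power prime to `L`. -/
theorem exists_rootTwist (L : ℕ) [NeZero L] (σ : ℂ →+* ℂ) :
    ∃ c : ℤ, IsCoprime c (L : ℤ) ∧ RootTwist L σ c := by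
  have hz : IsPrimitiveRoot (ex (((1 : ℤ) : ℂ) / L)) L := by
    have := Complex.isPrimitiveRoot_exp L (NeZero.ne L)
    rwa [show ex (((1 : ℤ) : ℂ) / L) = Complex.exp (2 * Real.pi * I / L) by
      rw [ex]; congr 1; push_cast; ring]
  have hs : IsPrimitiveRoot (σ (ex (((1 : ℤ) : ℂ) / L))) L := hz.map_of_injective σ.injective
  obtain ⟨i, -, hcop, hi⟩ := hz.isPrimitiveRoot_iff.1 hs
  have hpow : ∀ b : ℤ, ex ((b : ℂ) / L) = ex (((1 : ℤ) : ℂ) / L) ^ b := fun b => by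
    rw [ex, ex, ← Complex.exp_int_mul]; congr 1; push_cast; ring
  refine ⟨i, Nat.Coprime.isCoprime hcop, fun b => ?_⟩
  rw [hpow b, map_zpow₀, ← hi, hpow ((i : ℤ) * b), zpow_mul, zpow_natCast]

variable {L : ℕ} [NeZero L] {σ : ℂ →+* ℂ} {c : ℤ}

section Pdiff

omit [NeZero L] in
theorem map_pSeries (hσ : RootTwist L σ c) (a b : ℤ) (n : ℕ) :
    σ (pSeries L a b n) = pSeries L a (c * b) n := by
  simp only [pSeries, pCoeff, pConst, pCoeffPos, tail2]
  rw [← hσ b]
  split_ifs <;>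
    simp [map_sum, apply_ite σ, map_div₀, map_inv₀]

theorem qM_diag (τ : ℍ) :
    qM L (ModularForm.heckeDiagMatrix L • τ) = Function.Periodic.qParam 1 (τ : ℂ) := by
  rw [qM, ex, ModularForm.coe_heckeDiagMatrix_smul (NeZero.ne L), Function.Periodic.qParam]
  congr 1
  have : (L : ℂ) ≠ 0 := Nat.cast_ne_zero.2 (NeZero.ne L)
  push_cast
  field_simp

theorem adm_of_int_div {v : Fin 2 → ℚ} {a b : ℤ} (ha : v 0 = (a : ℚ) / L)
    (hb : v 1 = (b : ℚ) / L) :
    Adm v ↔ ¬ ((L : ℤ) ∣ a ∧ (L : ℤ) ∣ b) := adm_of_div (NeZero.ne L) ha hb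

omit [NeZero L] in
theorem vv_zero (a b : ℤ) : vv L a b 0 = (a : ℚ) / L := rfl

omit [NeZero L] in
theorem vv_one (a b : ℤ) : vv L a b 1 = (b : ℚ) / L := rfl

theorem vv_mul_adm (hc : IsCoprime c (L : ℤ)) {a b : ℤ} (h : Adm (vv L a b)) :
    Adm (vv L a (c * b)) := by
  rw [adm_of_int_div (vv_zero a b) (vv_one a b)] at h
  rw [adm_of_int_div (vv_zero a _) (vv_one a _)]
  exact fun hd => h ⟨hd.1, (hc.symm).dvd_of_dvd_mul_left hd.2⟩

/-- `σ` sends `pdiff` at `(a/L, b/L)`, `(a'/L, b'/L)` to `pdiff` at the twisted vectors. -/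
theorem twistL_pdiff (hc : IsCoprime c (L : ℤ)) (hσ : RootTwist L σ c) {a b a' b' : ℤ}
    (hv : Adm (vv L a b)) (hw : Adm (vv L a' b')) :
    TwistL L σ (pdiff (vv L a b) (vv L a' b')) (pdiff (vv L a (c * b)) (vv L a' (c * b'))) := by
  have key : ∀ {a b a' b' : ℤ}, Adm (vv L a b) → Adm (vv L a' b') →
      IsQ (liftHom L (pdiff (vv L a b) (vv L a' b'))) ∧
      ∀ n, (MFCore.qExp (liftHom L (pdiff (vv L a b) (vv L a' b')))).coeff n =
        pSeries L a b n - pSeries L a' b' n := by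
    intro a b a' b' hv hw
    have hs : ∀ τ : ℍ, HasSum (fun n => (pSeries L a b n - pSeries L a' b' n) * qM L τ ^ n)
        (pdiff (vv L a b) (vv L a' b') τ) := fun τ => by
      simp only [sub_mul]
      exact (hasSum_pe_pt hv (vv_zero a b) (vv_one a b) τ).sub
        (hasSum_pe_pt hw (vv_zero a' b') (vv_one a' b') τ)
    have hQ : IsQ (liftHom L (pdiff (vv L a b) (vv L a' b'))) := by
      refine isQ_liftHom (mdifferentiable_pdiff hv hw).1 (mdifferentiable_pdiff hv hw).2 fun τ => ?_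
      refine ((hs _).congr_fun fun n => ?_).unique (hs τ)
      congr 2
      simp only [qM, UpperHalfPlane.coe_vadd]
      push_cast
      rw [add_div, div_self (Nat.cast_ne_zero.2 (NeZero.ne L)), ex_add]
      simp [ex]
    refine ⟨hQ, fun n => (MFCore.qExp_coeff_unique hQ
      (c := fun n => pSeries L a b n - pSeries L a' b' n) (fun τ => ?_) n).symm⟩
    have := hs (ModularForm.heckeDiagMatrix L • τ)
    simp only [qM_diag] at this
    exact this
  obtain ⟨h1, e1⟩ := key hv hw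
  obtain ⟨h2, e2⟩ := key (vv_mul_adm hc hv) (vv_mul_adm hc hw)
  refine ⟨h1, h2, PowerSeries.ext fun n => ?_⟩
  rw [PowerSeries.coeff_map, e1, e2, map_sub, map_pSeries hσ, map_pSeries hσ]

/-- The value of `pe` at a vector modulo `L`. -/
def pev (L : ℕ) (τ : ℍ) (p : Fin 2 → ZMod L) : ℂ := pe (pt (vv L (p 0).val (p 1).val) τ) τ

theorem vv_congr {a b a' b' : ℤ} (ha : (a : ZMod L) = a') (hb : (b : ZMod L) = b') :
    ∃ t : Fin 2 → ℤ, vv L a' b' = fun k => vv L a b k + t k := by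
  obtain ⟨x, hx⟩ := (ZMod.intCast_eq_intCast_iff_dvd_sub a a' L).1 ha
  obtain ⟨y, hy⟩ := (ZMod.intCast_eq_intCast_iff_dvd_sub b b' L).1 hb
  have hL : (L : ℚ) ≠ 0 := Nat.cast_ne_zero.2 (NeZero.ne L)
  refine ⟨![x, y], funext fun k => ?_⟩
  fin_cases k
  · show (a' : ℚ) / L = (a : ℚ) / L + (x : ℚ)
    rw [show a' = a + L * x by omega]; push_cast; field_simp
  · show (b' : ℚ) / L = (b : ℚ) / L + (y : ℚ)
    rw [show b' = b + L * y by omega]; push_cast; field_simp

theorem pe_pt_congr {a b a' b' : ℤ} (hv : Adm (vv L a b)) (ha : (a : ZMod L) = a')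
    (hb : (b : ZMod L) = b') (τ : ℍ) :
    pe (pt (vv L a' b') τ) τ = pe (pt (vv L a b) τ) τ := by
  obtain ⟨t, ht⟩ := vv_congr (L := L) ha hb
  rw [ht, show pt (fun k => vv L a b k + t k) τ
    = pt (vv L a b) τ + (((t 0 : ℤ) : ℂ) * τ + t 1) by simp only [pt]; push_cast; ring]
  exact pe_add_lat τ.im_pos (hv.notMem_lat τ) _ _

theorem adm_val {p : Fin 2 → ZMod L} (hp : p ≠ 0) : Adm (vv L (p 0).val (p 1).val) := by
  rw [adm_of_int_div (vv_zero _ _) (vv_one _ _), ← ZMod.intCast_zmod_eq_zero_iff_dvd,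
    ← ZMod.intCast_zmod_eq_zero_iff_dvd]
  simp only [Int.cast_natCast, ZMod.natCast_zmod_val]
  intro h
  exact hp (funext fun k => by fin_cases k <;> simp [h.1, h.2])

/-- Right action on vectors modulo `L`. -/
def mulZ (L : ℕ) (γ : SL(2, ℤ)) (p : Fin 2 → ZMod L) : Fin 2 → ZMod L :=
  fun k => p 0 * (γ 0 k : ZMod L) + p 1 * (γ 1 k : ZMod L)

omit [NeZero L] in
theorem mulZ_mul (γ δ : SL(2, ℤ)) (p : Fin 2 → ZMod L) :
    mulZ L (γ * δ) p = mulZ L δ (mulZ L γ p) := by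
  funext k
  simp only [mulZ, BaseForms.mul_apply']
  push_cast
  ring

omit [NeZero L] in
theorem mulZ_one (p : Fin 2 → ZMod L) : mulZ L 1 p = p := by
  funext k
  fin_cases k <;> simp [mulZ]

omit [NeZero L] in
theorem mulZ_ne_zero (γ : SL(2, ℤ)) {p : Fin 2 → ZMod L} (hp : p ≠ 0) : mulZ L γ p ≠ 0 := by
  intro h
  refine hp ?_
  rw [← mulZ_one p, ← mul_inv_cancel γ, mulZ_mul, h]
  funext k
  simp [mulZ]

/-- The permutation of nonzero vectors given by `γ`. -/
def mulZEquiv (L : ℕ) (γ : SL(2, ℤ)) :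
    {p : Fin 2 → ZMod L // p ≠ 0} ≃ {p : Fin 2 → ZMod L // p ≠ 0} where
  toFun p := ⟨mulZ L γ p.1, mulZ_ne_zero γ p.2⟩
  invFun p := ⟨mulZ L γ⁻¹ p.1, mulZ_ne_zero γ⁻¹ p.2⟩
  left_inv p := Subtype.ext (by simp [← mulZ_mul, mulZ_one])
  right_inv p := Subtype.ext (by simp [← mulZ_mul, mulZ_one])

theorem pe_pt_vmul {p : Fin 2 → ZMod L} (hp : p ≠ 0) (γ : SL(2, ℤ)) (τ : ℍ) :
    pe (pt (vmul (vv L (p 0).val (p 1).val) γ) τ) τ = pev L τ (mulZ L γ p) := by
  rw [vmul_vv, pev]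
  refine pe_pt_congr (adm_val (mulZ_ne_zero γ hp)) ?_ ?_ τ <;>
    simp [mulZ]

theorem pev_injective {τ : ℍ} {p r : Fin 2 → ZMod L} (hp : p ≠ 0) (hr : 2 • r ≠ 0)
    (h : pev L τ p = pev L τ r) : p = r ∨ p = -r := by
  set a : ℤ := ((p 0).val : ℤ) with ha
  set b : ℤ := ((p 1).val : ℤ) with hb
  set a' : ℤ := ((r 0).val : ℤ) with ha'
  set b' : ℤ := ((r 1).val : ℤ) with hb'
  have h2 : 2 * pt (vv L a' b') τ ∉ lat (τ : ℂ) := by
    have hadm : Adm (vv L (2 * a') (2 * b')) := by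
      rw [adm_of_int_div (vv_zero _ _) (vv_one _ _), ← ZMod.intCast_zmod_eq_zero_iff_dvd,
        ← ZMod.intCast_zmod_eq_zero_iff_dvd]
      intro hz
      refine hr (funext fun k => ?_)
      fin_cases k
      · simpa [ha', two_mul, two_nsmul] using hz.1
      · simpa [hb', two_mul, two_nsmul] using hz.2
    have := hadm.notMem_lat τ
    rwa [show 2 * pt (vv L a' b') τ
      = (vv L (2 * a') (2 * b') 0 : ℂ) * τ + vv L (2 * a') (2 * b') 1 by
        simp only [pt, vv_zero, vv_one]; push_cast; ring]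
  have key : ∀ x y : ℤ, pt (vv L x y) τ ∈ lat (τ : ℂ) →
      (x : ZMod L) = 0 ∧ (y : ZMod L) = 0 := by
    intro x y hxy
    have hn : ¬ Adm (vv L x y) := fun hA => hA.notMem_lat τ hxy
    rw [adm_of_int_div (vv_zero _ _) (vv_one _ _), not_not] at hn
    exact ⟨(ZMod.intCast_zmod_eq_zero_iff_dvd _ _).2 hn.1,
      (ZMod.intCast_zmod_eq_zero_iff_dvd _ _).2 hn.2⟩
  rcases pe_injective τ.im_pos ((adm_val hp).notMem_lat τ) h2 h with h' | h'
  · rw [show (vv L a b 0 : ℂ) * τ + vv L a b 1 - pt (vv L a' b') τ =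
        pt (vv L (a - a') (b - b')) τ by
      simp only [pt, vv_zero, vv_one]; push_cast; ring] at h'
    obtain ⟨e0, e1⟩ := key _ _ h'
    refine Or.inl (funext fun k => ?_)
    fin_cases k
    · simpa [ha, ha', sub_eq_zero] using e0
    · simpa [hb, hb', sub_eq_zero] using e1
  · rw [show (vv L a b 0 : ℂ) * τ + vv L a b 1 + pt (vv L a' b') τ =
        pt (vv L (a + a') (b + b')) τ by
      simp only [pt, vv_zero, vv_one]; push_cast; ring] at h'
    obtain ⟨e0, e1⟩ := key _ _ h'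
    refine Or.inr (funext fun k => ?_)
    fin_cases k
    · simpa [ha, ha', eq_neg_iff_add_eq_zero] using e0
    · simpa [hb, hb', eq_neg_iff_add_eq_zero] using e1

/-- An element fixing all values of `pe` at `L`-torsion points lies in `±Γ(L)`. -/
theorem mem_sgnGamma_of_pev (hL : 3 ≤ L) {τ : ℍ} {δ : SL(2, ℤ)}
    (h : ∀ p : Fin 2 → ZMod L, p ≠ 0 → pev L τ (mulZ L δ p) = pev L τ p) :
    δ ∈ sgnGamma L := by
  have h1 : (1 : ZMod L) ≠ 0 := by
    have : Fact (1 < L) := ⟨by omega⟩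
    exact one_ne_zero
  have h2 : (2 : ZMod L) ≠ 0 := fun h2 => by
    have := Nat.le_of_dvd (by norm_num) ((ZMod.natCast_eq_zero_iff 2 L).1 (by exact_mod_cast h2))
    omega
  have key : ∀ x y : ZMod L, x = 1 ∨ y = 1 →
      ∃ s : ZMod L, (s = 1 ∨ s = -1) ∧ mulZ L δ ![x, y] = s • ![x, y] := by
    intro x y hxy
    have hne : (![x, y] : Fin 2 → ZMod L) ≠ 0 := fun h0 => by
      rcases hxy with rfl | rfl
      · exact h1 (by simpa using congrFun h0 0)
      · exact h1 (by simpa using congrFun h0 1)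
    have hr : 2 • (![x, y] : Fin 2 → ZMod L) ≠ 0 := fun h0 => by
      rcases hxy with rfl | rfl
      · exact h2 (by simpa [two_nsmul, ← two_mul] using congrFun h0 0)
      · exact h2 (by simpa [two_nsmul, ← two_mul] using congrFun h0 1)
    rcases pev_injective (mulZ_ne_zero δ hne) hr (h _ hne) with e | e
    · exact ⟨1, Or.inl rfl, by rw [e, one_smul]⟩
    · exact ⟨-1, Or.inr rfl, by rw [e, neg_one_smul]⟩
  obtain ⟨s, hs, es⟩ := key 1 0 (Or.inl rfl)
  obtain ⟨t, -, et⟩ := key 0 1 (Or.inr rfl)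
  obtain ⟨u, -, eu⟩ := key 1 1 (Or.inl rfl)
  have e00 := congrFun es 0; have e01 := congrFun es 1
  have e10 := congrFun et 0; have e11 := congrFun et 1
  have f0 := congrFun eu 0; have f1 := congrFun eu 1
  simp [mulZ] at e00 e01 e10 e11 f0 f1
  rw [e00, e10, add_zero] at f0
  rw [e01, e11, zero_add, ← f0] at f1
  rw [f1] at e11
  rw [mem_sgnGamma]
  rcases hs with rfl | rfl
  · exact Or.inl (CongruenceSubgroup.Gamma_mem.2 ⟨e00, e01, e10, e11⟩)
  · refine Or.inr (CongruenceSubgroup.Gamma_mem.2 ⟨?_, ?_, ?_, ?_⟩) <;>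
      simp [e00, e01, e10, e11]

end Pdiff

instance sgnGamma_normal (N : ℕ) : (sgnGamma N).Normal :=
  ⟨fun γ hγ g => by
    rcases hγ with h | h
    · exact Or.inl ((CongruenceSubgroup.Gamma_normal N).conj_mem _ h g)
    · refine Or.inr ?_
      have := (CongruenceSubgroup.Gamma_normal N).conj_mem _ h g
      rwa [mul_neg, neg_mul] at this⟩

instance sgnGamma_fintype (N : ℕ) [NeZero N] : Fintype (SL(2, ℤ) ⧸ sgnGamma N) :=
  Subgroup.fintypeQuotientOfFiniteIndex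

section Generator

variable (L) in
/-- The base vector `(0, 1)`. -/
def baseP : Fin 2 → ZMod L := ![0, 1]

omit [NeZero L] in
theorem baseP_ne_zero (hL : 3 ≤ L) : baseP L ≠ 0 := fun h => by
  have : Fact (1 < L) := ⟨by omega⟩
  simpa [baseP] using congrFun h 1

variable (L) in
/-- The value at the base point of the conjugates. -/
def pdv (γ : SL(2, ℤ)) (p : Fin 2 → ZMod L) : ℂ :=
  pev L UpperHalfPlane.I (mulZ L γ p) - pev L UpperHalfPlane.I (mulZ L γ (baseP L))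

theorem exists_pdv_ne (hL : 3 ≤ L) {γ₁ γ₂ : SL(2, ℤ)} (h : γ₁⁻¹ * γ₂ ∉ sgnGamma L) :
    ∃ p : {p : Fin 2 → ZMod L // p ≠ 0}, pdv L γ₁ p.1 ≠ pdv L γ₂ p.1 := by
  by_contra hcon
  push Not at hcon
  set τ : ℍ := UpperHalfPlane.I
  have hb := baseP_ne_zero hL
  set D := pev L τ (mulZ L γ₁ (baseP L)) - pev L τ (mulZ L γ₂ (baseP L)) with hD
  have hdiff : ∀ p : {p : Fin 2 → ZMod L // p ≠ 0},
      pev L τ (mulZ L γ₁ p.1) = pev L τ (mulZ L γ₂ p.1) + D := fun p => by
    have := hcon p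
    simp only [pdv] at this
    rw [hD]; linear_combination this
  have hsum : ∀ γ : SL(2, ℤ), ∑ p : {p : Fin 2 → ZMod L // p ≠ 0}, pev L τ (mulZ L γ p.1)
      = ∑ p : {p : Fin 2 → ZMod L // p ≠ 0}, pev L τ p.1 := fun γ =>
    Fintype.sum_equiv (mulZEquiv L γ) _ _ fun p => rfl
  have hD0 : D = 0 := by
    have h1 : ∑ p : {p : Fin 2 → ZMod L // p ≠ 0}, pev L τ (mulZ L γ₁ p.1) =
        ∑ p : {p : Fin 2 → ZMod L // p ≠ 0}, (pev L τ (mulZ L γ₂ p.1) + D) :=
      Finset.sum_congr rfl fun p _ => hdiff p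
    rw [Finset.sum_add_distrib, hsum, hsum, left_eq_add, Finset.sum_const, smul_eq_zero] at h1
    refine h1.resolve_left ?_
    rw [Finset.card_univ]
    exact (Fintype.card_pos_iff.2 ⟨⟨baseP L, hb⟩⟩).ne'
  refine h (mem_sgnGamma_of_pev hL (τ := τ) fun p hp => ?_)
  have := hdiff ⟨mulZ L γ₁⁻¹ p, mulZ_ne_zero _ hp⟩
  rw [hD0, add_zero] at this
  simp only [← mulZ_mul, inv_mul_cancel, mulZ_one] at this
  exact this.symm

variable (L) in
/-- A linear combination of `pdiff`, with coefficients powers of a natural number. -/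
def genG (c : ℤ) (T : ℕ) : ℍ → ℂ :=
  ∑ j : Fin (Fintype.card {p : Fin 2 → ZMod L // p ≠ 0}),
    ((T : ℂ) ^ (j : ℕ)) • pdiff
      (vv L (((Fintype.equivFin _).symm j).1 0).val (c * (((Fintype.equivFin _).symm j).1 1).val))
      (vv L 0 c)

theorem adm_genG (hc : IsCoprime c (L : ℤ)) (p : {p : Fin 2 → ZMod L // p ≠ 0}) :
    Adm (vv L (p.1 0).val (c * (p.1 1).val)) := vv_mul_adm hc (adm_val p.2)

theorem adm_base (hL : 3 ≤ L) (hc : IsCoprime c (L : ℤ)) : Adm (vv L 0 c) := by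
  rw [adm_of_int_div (vv_zero _ _) (vv_one _ _)]
  rintro ⟨-, hd⟩
  have h1 := isUnit_of_dvd_one (a := (L : ℤ)) (by
    obtain ⟨u, w, huw⟩ := hc
    exact huw ▸ dvd_add (dvd_mul_of_dvd_right hd u) (dvd_mul_left _ w))
  rw [Int.isUnit_iff] at h1
  omega

theorem slash_two_neg (f : ℍ → ℂ) (γ : SL(2, ℤ)) : f ∣[(2 : ℤ)] (-γ) = f ∣[(2 : ℤ)] γ := by
  funext τ
  rw [ModularForm.SL_slash_apply, ModularForm.SL_slash_apply, ModularGroup.SL_neg_smul]
  have h : UpperHalfPlane.denom ((-γ : SL(2, ℤ)) : GL (Fin 2) ℝ) τ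
      = -UpperHalfPlane.denom ((γ : SL(2, ℤ)) : GL (Fin 2) ℝ) τ := by
    rw [ModularGroup.denom_apply, ModularGroup.denom_apply]
    simp only [Matrix.SpecialLinearGroup.coe_neg, Matrix.neg_apply]
    push_cast
    ring
  rw [h, Even.neg_zpow (by decide)]

theorem pdiff_vv_slash {a b a' b' : ℤ} (hv : Adm (vv L a b)) (hw : Adm (vv L a' b'))
    {γ : SL(2, ℤ)} (hγ : γ ∈ sgnGamma L) :
    pdiff (vv L a b) (vv L a' b') ∣[(2 : ℤ)] γ = pdiff (vv L a b) (vv L a' b') := by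
  suffices H : ∀ δ ∈ CongruenceSubgroup.Gamma L,
      pdiff (vv L a b) (vv L a' b') ∣[(2 : ℤ)] δ = pdiff (vv L a b) (vv L a' b') by
    rcases hγ with h | h
    · exact H _ h
    · rw [← slash_two_neg]; exact H _ h
  intro δ hδ
  rw [CongruenceSubgroup.Gamma_mem] at hδ
  rw [pdiff_slash hv hw, vmul_vv, vmul_vv]
  funext τ
  simp only [pdiff]
  congr 1 <;> refine pe_pt_congr (by assumption) ?_ ?_ τ <;>
    (push_cast; simp [hδ.1, hδ.2.1, hδ.2.2.1, hδ.2.2.2])

theorem genG_isForm (hL : 3 ≤ L) (hc : IsCoprime c (L : ℤ)) (T : ℕ) :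
    IsFormOn (sgnGamma L) 2 (genG L c T) := by
  refine IsFormOn.sum _ fun j _ => IsFormOn.smul ⟨?_, ?_, ?_⟩ _
  · exact (mdifferentiable_pdiff (adm_genG hc _) (adm_base hL hc)).1
  · exact fun γ hγ => pdiff_vv_slash (adm_genG hc _) (adm_base hL hc) hγ
  · intro γ
    rw [pdiff_slash (adm_genG hc _) (adm_base hL hc)]
    exact (mdifferentiable_pdiff ((adm_genG hc _).vmul γ) ((adm_base hL hc).vmul γ)).2

theorem genG_slash_apply (hL : 3 ≤ L) (T : ℕ) (γ : SL(2, ℤ)) :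
    (genG L 1 T ∣[(2 : ℤ)] γ) UpperHalfPlane.I =
      ∑ j : Fin (Fintype.card {p : Fin 2 → ZMod L // p ≠ 0}),
        (T : ℂ) ^ (j : ℕ) * pdv L γ ((Fintype.equivFin _).symm j).1 := by
  rw [genG, SlashAction.sum_slash, Finset.sum_apply]
  refine Finset.sum_congr rfl fun j _ => ?_
  rw [ModularForm.SL_smul_slash, Pi.smul_apply, smul_eq_mul,
    pdiff_slash (adm_genG isCoprime_one_left _) (adm_base hL isCoprime_one_left)]
  congr 1
  simp only [pdiff, pdv, one_mul]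
  congr 1
  · exact pe_pt_vmul ((Fintype.equivFin _).symm j).2 γ _
  · have := pe_pt_vmul (L := L) (baseP_ne_zero hL) γ UpperHalfPlane.I
    rw [← this]
    have : Fact (1 < L) := ⟨by omega⟩
    simp [baseP, ZMod.val_one]

/-- For a suitable `T` the conjugates of `genG` are distinct. -/
theorem exists_genG_injective (hL : 3 ≤ L) :
    ∃ T : ℕ, Function.Injective (conjOn (Γ := sgnGamma L) 2 (genG L 1 T)) := by
  obtain ⟨m, -, hm⟩ := Connected.exists_injective_comb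
    (α := SL(2, ℤ) ⧸ sgnGamma L) (n := Fintype.card {p : Fin 2 → ZMod L // p ≠ 0})
    (fun j q => pdv L q.out⁻¹ ((Fintype.equivFin _).symm j).1) (fun q q' hne => by
      obtain ⟨p, hp⟩ := exists_pdv_ne hL (γ₁ := q.out⁻¹) (γ₂ := q'.out⁻¹) (fun hmem => hne (by
        rw [inv_inv] at hmem
        rw [← QuotientGroup.out_eq' q, ← QuotientGroup.out_eq' q', QuotientGroup.eq]
        have := (inferInstance : (sgnGamma L).Normal).mem_comm hmem
        simpa using inv_mem this))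
      exact ⟨Fintype.equivFin _ p, by simpa using hp⟩)
    (fun m : ℕ => (m : ℂ)) Nat.cast_injective
  refine ⟨m, fun q q' h => hm ?_⟩
  have := congrFun h UpperHalfPlane.I
  simp only [conjOn, genG_slash_apply hL] at this
  exact this

/-- `σ` sends `genG L 1 T` to `genG L c T`, compatibly with slashing. -/
theorem twistL_genG_slash (hL : 3 ≤ L) (hc : IsCoprime c (L : ℤ)) (hσ : RootTwist L σ c) (T : ℕ)
    {γ γ' : SL(2, ℤ)} (hγ : ConjRel L c γ γ') :
    TwistL L σ (genG L 1 T ∣[(2 : ℤ)] γ) (genG L c T ∣[(2 : ℤ)] γ') := by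
  obtain ⟨h00, h01, h10, h11⟩ := hγ
  simp only [genG, SlashAction.sum_slash, ModularForm.SL_smul_slash]
  refine TwistL.sum _ fun j _ => ?_
  rw [pdiff_slash (adm_genG isCoprime_one_left _) (adm_base hL isCoprime_one_left),
    pdiff_slash (adm_genG hc _) (adm_base hL hc)]
  simp only [vmul_vv, one_mul]
  have key : ∀ a b : ℤ, Adm (vv L a b) → ∀ τ,
      pe (pt (vv L (a * γ' 0 0 + c * b * γ' 1 0) (a * γ' 0 1 + c * b * γ' 1 1)) τ) τ =
        pe (pt (vv L (a * γ 0 0 + b * γ 1 0) (c * (a * γ 0 1 + b * γ 1 1))) τ) τ := by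
    intro a b hab τ
    refine pe_pt_congr ?_ ?_ ?_ τ
    · have := hab.vmul γ
      rw [vmul_vv] at this
      exact vv_mul_adm hc this
    · push_cast; linear_combination -(a : ZMod L) * h00 - (b : ZMod L) * h10
    · push_cast; linear_combination -(a : ZMod L) * h01 - (c : ZMod L) * (b : ZMod L) * h11
  have hsm : ((T : ℂ) ^ (j : ℕ)) = σ ((T : ℂ) ^ (j : ℕ)) := by rw [map_pow, map_natCast]
  nth_rewrite 2 [hsm]
  refine TwistL.smul ?_ _
  set p := (Fintype.equivFin {p : Fin 2 → ZMod L // p ≠ 0}).symm j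
  have hv : Adm (vv L (p.1 0).val (p.1 1).val) := adm_val p.2
  have hw : Adm (vv L 0 1) := adm_base hL isCoprime_one_left
  have h1 := twistL_pdiff hc hσ (by rw [← vmul_vv]; exact hv.vmul γ)
    (by rw [← vmul_vv]; exact hw.vmul γ)
  simp only [one_mul] at h1
  refine Eq.subst ?_ h1
  funext τ
  simp only [pdiff]
  have e1 := key _ _ hv τ
  have e2 := key _ _ hw τ
  simp only [mul_one, one_mul, zero_mul, zero_add] at e1 e2 ⊢
  rw [e1, e2]

end Generator

/-- **Field automorphisms act on forms of level `±Γ(L)`**, compatibly with slashing. -/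
theorem exists_twist_formOn (hL : 3 ≤ L) {k : ℤ} {f : ℍ → ℂ} (hc : IsCoprime c (L : ℤ))
    (hσ : RootTwist L σ c) (hf : IsFormOn (sgnGamma L) k f) :
    ∃ g, IsFormOn (sgnGamma L) k g ∧
      ∀ γ γ' : SL(2, ℤ), ConjRel L c γ γ' → TwistL L σ (f ∣[k] γ) (g ∣[k] γ') := by
  obtain ⟨T, hinj⟩ := exists_genG_injective hL
  set n := Fintype.card (SL(2, ℤ) ⧸ sgnGamma L) with hn
  set G := genG L 1 T with hGdef
  set G' := genG L c T with hG'def
  have hG : IsFormOn (sgnGamma L) 2 G := genG_isForm hL isCoprime_one_left T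
  have hG' : IsFormOn (sgnGamma L) 2 G' := genG_isForm hL hc T
  have h1 : IsFormOn (sgnGamma L) 0 (1 : ℍ → ℂ) := IsFormOn.one
  choose p hp hpt using fun m => MFCore.exists_twist_levelOne σ (interpOn_levelOne hf hG m)
  choose d hd hdt using fun m => MFCore.exists_twist_levelOne σ (interpOn_levelOne h1 hG m)
  choose e he het using fun m => MFCore.exists_twist_levelOne σ (esymOn_levelOne hf m)
  set num : ℍ → ℂ := ∑ m ∈ Finset.range n, (-1 : ℍ → ℂ) ^ m * (p m * G' ^ (n - 1 - m)) with hnum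
  set den : ℍ → ℂ := ∑ m ∈ Finset.range n, (-1 : ℍ → ℂ) ^ m * (d m * G' ^ (n - 1 - m)) with hden
  set D := diffProdOn (sgnGamma L) 2 G with hD
  set W : ℤ := ((n - 1 : ℕ) : ℤ) * 2 with hW
  have hlev : ∀ {k₁ : ℤ} {F : ℍ → ℂ} (hF : IsFormOn (sgnGamma L) k₁ F) (q : ℕ → ℍ → ℂ)
      (_ : ∀ m : ℕ, IsLevelOne (k₁ + (m : ℤ) * 2) (q m))
      (_ : ∀ m, Twist σ (interpOn (sgnGamma L) k₁ 2 F G m) (q m)) (γ γ' : SL(2, ℤ)),
      ConjRel L c γ γ' → TwistL L σ ((F * D) ∣[k₁ + W] γ)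
        ((∑ m ∈ Finset.range n, (-1 : ℍ → ℂ) ^ m * (q m * G' ^ (n - 1 - m))) ∣[k₁ + W] γ') := by
    intro k₁ F hF q hq hqt γ γ' hγ
    have ev := interpOn_eval (w := 2) hF.slash hG.slash
    simp only [mul_assoc] at ev
    rw [hD, ← ev, MFCore.sum_coeff_slash n _ (interpOn_levelOne hF hG) γ,
      MFCore.sum_coeff_slash n _ hq γ']
    refine TwistL.sum _ fun m _ => ?_
    exact (TwistL.neg_one.pow m).mul
      ((twistL_levelOne (interpOn_levelOne hF hG m) (hq m) (hqt m)).mul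
        ((twistL_genG_slash hL hc hσ T hγ).pow _))
  have tnumγ : ∀ γ γ' : SL(2, ℤ), ConjRel L c γ γ' →
      TwistL L σ ((f * D) ∣[k + W] γ) (num ∣[k + W] γ') := hlev hf p hp hpt
  have tdenγ : ∀ γ γ' : SL(2, ℤ), ConjRel L c γ γ' →
      TwistL L σ (D ∣[W] γ) (den ∣[W] γ') := by
    intro γ γ' hγ
    have := hlev h1 d hd hdt γ γ' hγ
    rwa [one_mul, zero_add] at this
  have tnum : TwistL L σ (f * D) num := by
    simpa only [SlashAction.slash_one] using tnumγ 1 1 (ConjRel.one L c)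
  have tden : TwistL L σ D den := by
    simpa only [SlashAction.slash_one] using tdenγ 1 1 (ConjRel.one L c)
  have hden0 : den ≠ 0 := by
    rw [Ne, ← tden.left_eq_zero_iff]
    exact diffProdOn_ne_zero hG hinj
  have he0 : e 0 = 1 := by
    have := het 0
    rw [esymOn, MFCore.esymm_zero] at this
    exact this.right_unique Twist.one
  -- the twisted relation
  have trel : ∑ m ∈ Finset.range (n + 1),
      (-1 : ℍ → ℂ) ^ m * (e m * num ^ (n - m) * den ^ m) = 0 := by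
    have hz : ∑ m ∈ Finset.range (n + 1),
        (-1 : ℍ → ℂ) ^ m * (esymOn (sgnGamma L) k f m * (f * D) ^ (n - m) * D ^ m) = 0 := by
      have hmul := congrArg (· * D ^ n) (esymOn_eval (Γ := sgnGamma L) hf.slash)
      simp only [zero_mul, Finset.sum_mul] at hmul
      rw [← hmul]
      refine Finset.sum_congr rfl fun m hm => ?_
      have hm' : m ≤ n := Nat.lt_succ_iff.1 (Finset.mem_range.1 hm)
      rw [mul_pow, show D ^ n = D ^ (n - m) * D ^ m by rw [← pow_add]; congr 1; omega]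
      ring
    refine (TwistL.left_eq_zero_iff (L := L) (σ := σ) ?_).1 hz
    refine TwistL.sum _ fun m _ => ?_
    exact (TwistL.neg_one.pow m).mul
      (((twistL_levelOne (esymOn_levelOne hf m) (he m) (het m)).mul (tnum.pow _)).mul (tden.pow m))
  set cf : ℕ → ℍ → ℂ := fun m => (-1 : ℍ → ℂ) ^ (m + 1) * e (m + 1) with hcf
  have hnumm : MDiff num := MFCore.mdiff_sum _ fun m _ =>
    ((MFCore.isQ_one.neg.pow m).holo).mul ((hp m).holo.mul (hG'.pow _).holo)
  have hdenm : MDiff den := MFCore.mdiff_sum _ fun m _ =>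
    ((MFCore.isQ_one.neg.pow m).holo).mul ((hd m).holo.mul (hG'.pow _).holo)
  have hcm : ∀ m, MDiff (cf m) := fun m =>
    ((MFCore.isQ_one.neg.pow (m + 1)).holo).mul (he (m + 1)).holo
  obtain ⟨F, hFm, hFden, hFroot⟩ := MFCore.exists_mdiff_mul_eq (n := n) hnumm hdenm hden0 hcm (by
      rw [← trel, Finset.sum_range_succ', he0, add_comm]
      refine congrArg₂ (· + ·) (Finset.sum_congr rfl fun m hm => ?_) (by simp)
      rw [hcf]
      ring)
  have hroot : ∑ m ∈ Finset.range (n + 1), (-1 : ℍ → ℂ) ^ m * (e m * F ^ (n - m)) = 0 := by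
    rw [MFCore.monic_split n e he0]
    exact hFroot
  have hrootγ : ∀ γ : SL(2, ℤ), ∀ τ : ℍ,
      ((F ∣[k] γ) τ) ^ n +
        ∑ m ∈ Finset.range n, cf m τ * ((F ∣[k] γ) τ) ^ (n - (m + 1)) = 0 := by
    intro γ τ
    have h := MFCore.monic_slash n F e he γ
    rw [hroot, SlashAction.zero_slash, MFCore.monic_split n e he0] at h
    simpa [hcf] using (congrFun h τ).symm
  have hbdd : ∀ γ : SL(2, ℤ), IsBoundedAtImInfty (F ∣[k] γ) := by
    intro γ
    rw [isBoundedAtImInfty_iff]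
    have hb : IsBoundedAtImInfty (fun τ => 1 + ∑ m ∈ Finset.range n, ‖cf m τ‖) := by
      refine (atImInfty.const_boundedAtFilter (1 : ℝ)).add ?_
      exact Asymptotics.IsBigO.fun_sum fun m _ =>
        (((MFCore.isQ_one.neg.pow (m + 1)).mul (he (m + 1)).isQ).bdd).norm_left
    obtain ⟨M, A, hMA⟩ := isBoundedAtImInfty_iff.1 hb
    exact ⟨M, A, fun τ hτ =>
      ((MFCore.norm_root_le (hrootγ γ τ)).trans (le_abs_self _)).trans (hMA τ hτ)⟩
  have hslashF : ∀ γ, (F ∣[k] γ) * (den ∣[W] γ) = num ∣[k + W] γ := fun γ => by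
    rw [← ModularForm.mul_slash_SL2, hFden]
  have hinv : ∀ γ ∈ sgnGamma L, F ∣[k] γ = F := by
    intro γ hγ
    have hnγ : num ∣[k + W] γ = num := by
      rw [hnum, MFCore.sum_coeff_slash n p hp γ, hG'.slash γ hγ]
    have hdγ : den ∣[W] γ = den := by
      have hd' : ∀ m : ℕ, IsLevelOne (0 + (m : ℤ) * 2) (d m) := hd
      have := MFCore.sum_coeff_slash (G := G') (k := 0) (w := 2) n d hd' γ
      rw [zero_add, hG'.slash γ hγ] at this
      exact this
    have h3 : (F ∣[k] γ - F) * den = 0 := by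
      have h2 := hslashF γ
      rw [hdγ, hnγ] at h2
      rw [sub_mul, h2, hFden, sub_self]
    exact sub_eq_zero.1 (((UpperHalfPlane.mul_eq_zero_iff ((MFCore.mdiff_slash_SL hFm γ).sub hFm)
      hdenm).1 h3).resolve_right hden0)
  have hF : IsFormOn (sgnGamma L) k F := ⟨hFm, hinv, hbdd⟩
  refine ⟨F, hF, fun γ γ' hγ => ⟨hf.isQ_slash γ, hF.isQ_slash γ', ?_⟩⟩
  have td := tdenγ γ γ' hγ
  have tn := tnumγ γ γ' hγ
  rw [ModularForm.mul_slash_SL2] at tn
  refine mul_right_cancel₀ (b := MFCore.qExp (liftHom L (den ∣[W] γ'))) ?_ ?_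
  · rw [Ne, MFCore.qExp_eq_zero_iff td.isQ_right, map_eq_zero_iff _ (liftHom_injective L)]
    exact fun h0 => hden0 (eq_zero_of_slash_eq_zero h0)
  · rw [← MFCore.qExp_mul (hF.isQ_slash γ') td.isQ_right, ← map_mul, hslashF, tn.qExp_eq, map_mul,
      MFCore.qExp_mul (hf.isQ_slash γ) td.isQ_left, map_mul, td.qExp_eq]

end Fermat.Agent.LevelM
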