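import Fermat.Agent.LevelM.Sep

/-!
# Separation data for subgroups of `±Γ₁(M) ∩ ±Γ(N)`

Given functions on `Γ ≤ ±Γ₁(M) ∩ ±Γ(N)` separating, inside the base group, the cosets with the
same image in `±Γ₁(M) ∩ ±Γ(N)`, we get `Connected.SepData`.
-/

set_option autoImplicit false

noncomputable section

open Complex Filter Topology UpperHalfPlane ModularCurve
open scoped Manifold MatrixGroups ModularForm

namespace Fermat.Agent.LevelM

open Fermat.Agent.Igusa (HasExp QSR mem_QSR)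
open Fermat.Agent.Connected (Inv tr fRing Haupt HauptU SepData)

namespace LevelData

variable {O k : Type*} [CommRing O] [IsDomain O] [Field k] {h : ℕ} [NeZero h] {ι : O →+* ℂ}
  (L : LevelData O h ι)

theorem out_eq_iff {Γ : Subgroup SL(2, ℤ)} (q q' : SL(2, ℤ) ⧸ Γ) :
    q.out⁻¹ * (q'.out⁻¹)⁻¹ ∈ Γ ↔ q = q' := by
  rw [inv_inv, ← QuotientGroup.eq, QuotientGroup.out_eq', QuotientGroup.out_eq']

/-- **Separation data.** -/
def mkSepData {Γ : Subgroup SL(2, ℤ)} (hle : Γ ≤ L.G) (res : O →+* k)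
    (res_surjective : Function.Surjective res) (pi : O) (pi_ne_zero : pi ≠ 0)
    (res_eq_zero : ∀ a, res a = 0 ↔ pi ∣ a)
    (sep_pi : ∀ a : O, (∀ n : ℕ, pi ^ n ∣ a) → a = 0)
    (pi_pow : ∀ s : O, s ≠ 0 → ∃ a : ℕ, s ∣ pi ^ a)
    {n : ℕ} (F : Fin n → ℍ → ℂ) (Y : Fin n → SL(2, ℤ) → LaurentSeries O)
    (F_inv : ∀ a, Inv Γ (F a)) (Y_spec : ∀ a γ, ((fun τ => F a (γ • τ)), Y a γ) ∈ QSR h ι)
    (hsep : ∀ γ ∈ sgnGamma L.B.N, ∀ g ∈ L.G, g ∉ Γ →
      ∀ τ, ∃ a, F a ((g * γ) • τ) ≠ F a (γ • τ))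
    (hred : ∀ γ ∈ sgnGamma L.B.N, ∀ g ∈ L.G, g ∉ Γ →
      ∃ a, coeffMap res (Y a (g * γ)) ≠ coeffMap res (Y a γ)) :
    SepData O k h ι L.B.haupt Γ where
  le := hle.trans inf_le_right
  res := res
  res_surjective := res_surjective
  pi := pi
  pi_ne_zero := pi_ne_zero
  res_eq_zero := res_eq_zero
  sep_pi := sep_pi
  pi_pow := pi_pow
  n := n + 2
  f := Fin.cons L.gFun (Fin.cons L.B.uFun F)
  y := Fin.cons (fun q => L.gSer q.out⁻¹)
    (Fin.cons (fun q => L.uSerγ q.out⁻¹) fun a q => Y a q.out⁻¹)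
  f_inv := by
    refine Fin.cases ?_ (Fin.cases ?_ fun a => ?_)
    · exact fun γ hγ => L.gFun_inv γ (hle hγ)
    · exact fun γ hγ => L.B.uFun_inv γ (hle hγ).2
    · exact F_inv a
  f_exp := by
    refine Fin.cases ?_ (Fin.cases ?_ fun a => ?_) <;> intro q
    · exact L.gSer_spec q.out⁻¹
    · exact L.uSerγ_spec q.out⁻¹
    · exact Y_spec a q.out⁻¹
  sep_tau := fun τ q q' hq hq' hne => by
    by_contra hcon
    push Not at hcon
    have hγ : (q.out⁻¹ : SL(2, ℤ)) ∈ sgnGamma L.B.N := inv_mem hq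
    have hγ' : (q'.out⁻¹ : SL(2, ℤ)) ∈ sgnGamma L.B.N := inv_mem hq'
    have hG := L.mem_G_of_gFun_eq hγ hγ' (τ := τ) (by simpa [tr] using hcon 0)
    obtain ⟨a, ha⟩ := hsep _ hγ' _ hG (fun hm => hne ((out_eq_iff q q').1 hm)) τ
    rw [inv_mul_cancel_right] at ha
    exact ha (by simpa [tr] using hcon a.succ.succ)
  sep_series := fun q q' hne => by
    by_contra hcon
    push Not at hcon
    set γ := (q.out⁻¹ : SL(2, ℤ)) with hγ
    set γ' := (q'.out⁻¹ : SL(2, ℤ)) with hγ'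
    have heq : ∀ {F₁ : ℍ → ℂ} {s s' : LaurentSeries O},
        ((fun τ => F₁ (γ • τ)), s) ∈ QSR h ι → ((fun τ => F₁ (γ' • τ)), s') ∈ QSR h ι →
        s = s' → ∀ τ, F₁ (γ • τ) = F₁ (γ' • τ) := fun h1 h2 e τ =>
      congrFun (Connected.qsr_fun_unique (e ▸ h1) h2) τ
    have hg := heq (L.gSer_spec γ) (L.gSer_spec γ') (by simpa [hγ, hγ'] using hcon 0)
    have hu := heq (L.uSerγ_spec γ) (L.uSerγ_spec γ') (by simpa [hγ, hγ'] using hcon 1)
    have hG := L.mem_G_of_fun_eq hu hg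
    obtain ⟨a, ha⟩ := hsep 1 (one_mem _) _ hG (fun hm => hne ((out_eq_iff q q').1 hm))
      UpperHalfPlane.I
    refine ha ?_
    rw [mul_one, one_smul, mul_smul,
      heq (Y_spec a γ) (Y_spec a γ') (by simpa [hγ, hγ'] using hcon a.succ.succ) _,
      smul_inv_smul]
  sep_red := fun q q' hq hq' hne => by
    by_contra hcon
    push Not at hcon
    have hγ : (q.out⁻¹ : SL(2, ℤ)) ∈ sgnGamma L.B.N := inv_mem hq
    have hγ' : (q'.out⁻¹ : SL(2, ℤ)) ∈ sgnGamma L.B.N := inv_mem hq'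
    have hG := L.mem_G_of_red_eq res hγ hγ' (by simpa using hcon 0)
    obtain ⟨a, ha⟩ := hred _ hγ' _ hG (fun hm => hne ((out_eq_iff q q').1 hm))
    rw [inv_mul_cancel_right] at ha
    exact ha (by simpa using hcon a.succ.succ)

end LevelData

end Fermat.Agent.LevelM
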