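import Fermat.Agent.LevelM.BaseSmall
import Fermat.Agent.LevelM.PfunInj
import Fermat.Agent.Connected.Main

/-!
# Functions separating the cosets of `±Γ₁(M) ∩ ±Γ(N)`

With `v₀ = (0, 1/M)`, `w₀ = (0, 1/N)` the function `g = pdiff v₀ w₀ / C²` and the Hauptmodul `u`
separate the cosets; inside `±Γ(N)` the function `g` alone separates them at every point and
after reduction.
-/

set_option autoImplicit false

noncomputable section

open Complex Filter Topology UpperHalfPlane ModularCurve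
open scoped Manifold MatrixGroups ModularForm

namespace Fermat.Agent.LevelM

open Fermat.Agent.Igusa (HasExp QSR mem_QSR)
open Fermat.Agent.Connected (Inv tr fRing Haupt HauptU SepData cuspOrbit PoleBound)

/-- `±Γ₁(M)`. -/
def sgnGamma1 (M : ℕ) : Subgroup SL(2, ℤ) where
  carrier := {γ | γ ∈ CongruenceSubgroup.Gamma1 M ∨ -γ ∈ CongruenceSubgroup.Gamma1 M}
  one_mem' := Or.inl (one_mem _)
  mul_mem' := by
    rintro a b (ha | ha) (hb | hb)
    · exact Or.inl (mul_mem ha hb)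
    · exact Or.inr (by rw [← mul_neg]; exact mul_mem ha hb)
    · exact Or.inr (by rw [← neg_mul]; exact mul_mem ha hb)
    · exact Or.inl (by rw [← neg_mul_neg]; exact mul_mem ha hb)
  inv_mem' := by
    rintro a (ha | ha)
    · exact Or.inl (inv_mem ha)
    · refine Or.inr ?_
      rw [show -a⁻¹ = (-a)⁻¹ by
        rw [← neg_one_mul a, mul_inv_rev, inv_neg, inv_one, mul_neg, mul_one]]
      exact inv_mem ha

theorem Gamma1_le_sgnGamma1 (M : ℕ) : CongruenceSubgroup.Gamma1 M ≤ sgnGamma1 M :=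
  fun _ h => Or.inl h

theorem neg_one_mem_sgnGamma1 (M : ℕ) : (-1 : SL(2, ℤ)) ∈ sgnGamma1 M :=
  Or.inr (by rw [neg_neg]; exact one_mem _)

instance finiteIndex_sgnGamma1 (M : ℕ) [NeZero M] : (sgnGamma1 M).FiniteIndex :=
  Subgroup.finiteIndex_of_le (Gamma1_le_sgnGamma1 M)

/-- Bottom rows congruent up to sign. -/
def RowEq (M : ℕ) (γ δ : SL(2, ℤ)) : Prop :=
  ((M : ℤ) ∣ γ 1 0 - δ 1 0 ∧ (M : ℤ) ∣ γ 1 1 - δ 1 1) ∨
    ((M : ℤ) ∣ γ 1 0 + δ 1 0 ∧ (M : ℤ) ∣ γ 1 1 + δ 1 1)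

theorem mem_sgnGamma1_iff {M : ℕ} {γ : SL(2, ℤ)} : γ ∈ sgnGamma1 M ↔ RowEq M γ 1 := by
  have key : ∀ δ : SL(2, ℤ), δ ∈ CongruenceSubgroup.Gamma1 M ↔
      (M : ℤ) ∣ δ 1 0 ∧ (M : ℤ) ∣ δ 1 1 - 1 := by
    intro δ
    rw [CongruenceSubgroup.Gamma1_mem, ← ZMod.intCast_zmod_eq_zero_iff_dvd,
      ← ZMod.intCast_zmod_eq_zero_iff_dvd, Int.cast_sub, Int.cast_one, sub_eq_zero]
    refine ⟨fun h => ⟨h.2.2, h.2.1⟩, fun h => ⟨?_, h.2, h.1⟩⟩
    have hd := δ.2
    rw [Matrix.det_fin_two] at hd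
    have := congrArg (fun x : ℤ => (x : ZMod M)) hd
    push_cast at this
    rwa [h.1, h.2, mul_one, mul_zero, sub_zero] at this
  show γ ∈ CongruenceSubgroup.Gamma1 M ∨ -γ ∈ CongruenceSubgroup.Gamma1 M ↔ _
  rw [key, key, RowEq]
  simp only [Matrix.SpecialLinearGroup.coe_neg, Matrix.neg_apply,
    Matrix.SpecialLinearGroup.coe_one, Matrix.one_apply_ne (show (1 : Fin 2) ≠ 0 by decide),
    Matrix.one_apply_eq, sub_zero, add_zero, dvd_neg]
  refine or_congr Iff.rfl (and_congr Iff.rfl ?_)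
  rw [show -γ 1 1 - 1 = -(γ 1 1 + 1) by ring, dvd_neg]

theorem RowEq.mul_right {M : ℕ} {γ δ : SL(2, ℤ)} (h : RowEq M γ δ) (g : SL(2, ℤ)) :
    RowEq M (γ * g) (δ * g) := by
  have e : ∀ (x : SL(2, ℤ)) (j : Fin 2),
      (x * g) 1 j = x 1 0 * g 0 j + x 1 1 * g 1 j := fun x j => BaseForms.mul_apply' x g 1 j
  have key : ∀ {u v : ℤ} (j : Fin 2), (M : ℤ) ∣ u → (M : ℤ) ∣ v →
      (M : ℤ) ∣ u * g 0 j + v * g 1 j :=
    fun j hu hv => dvd_add (dvd_mul_of_dvd_left hu _) (dvd_mul_of_dvd_left hv _)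
  rcases h with ⟨h0, h1⟩ | ⟨h0, h1⟩
  · refine Or.inl ⟨?_, ?_⟩ <;> rw [e, e]
    · exact (key 0 h0 h1).trans (dvd_of_eq (by ring))
    · exact (key 1 h0 h1).trans (dvd_of_eq (by ring))
  · refine Or.inr ⟨?_, ?_⟩ <;> rw [e, e]
    · exact (key 0 h0 h1).trans (dvd_of_eq (by ring))
    · exact (key 1 h0 h1).trans (dvd_of_eq (by ring))

theorem RowEq.mem {M : ℕ} {γ δ : SL(2, ℤ)} (h : RowEq M γ δ) : γ * δ⁻¹ ∈ sgnGamma1 M :=
  mem_sgnGamma1_iff.2 (by simpa using h.mul_right δ⁻¹)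

theorem tail2_of_le {M : ℕ} {R : Type*} [CommRing R] {k₀ : ℕ} (hk : k₀ ≤ M) (u : R) {n : ℕ}
    (hn0 : 0 < n) (hn : n ≤ k₀) : tail2 M k₀ u n = if n = k₀ then u else 0 :=
  (sum_divisorsAntidiagonal_of_le hk (fun m => (m : R) * u ^ m) hn0 hn).trans (by simp)

section RedInjective

variable {O k : Type*} [CommRing O] [IsDomain O] [Field k] {h : ℕ} [NeZero h] {ι : O →+* ℂ}
  {ζ : Oˣ} (res : O →+* k) (hι : Function.Injective ι)
  (hζ : ι ζ = Complex.exp (2 * Real.pi * Complex.I / h)) (hh : IsUnit (h : O))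

include hι hζ hh in
theorem dvd_sub_of_res_eq {x y : ℤ} (hxy : res ((ζ ^ x : Oˣ) : O) = res ((ζ ^ y : Oˣ) : O)) :
    (h : ℤ) ∣ x - y := by
  by_contra hne
  have hu := isUnit_zpow_sub hι hζ hh (x := y) (y := x) hne
  have := (hu.map res).ne_zero
  rw [map_sub, hxy, sub_self] at this
  exact this rfl

include hι hζ hh in
theorem dvd_add_of_res_eq_inv {x y : ℤ}
    (hxy : res ((ζ ^ x : Oˣ) : O) = res (((ζ ^ y)⁻¹ : Oˣ) : O)) : (h : ℤ) ∣ x + y := by
  rw [← zpow_neg] at hxy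
  simpa using dvd_sub_of_res_eq res hι hζ hh hxy

omit [IsDomain O] [NeZero h] in
theorem pO_coeff_zero (a b : ℤ) : (pO h ζ a b).coeff 0 = pconst h ζ a b := by
  rw [pO, PowerSeries.coeff_mk, if_pos rfl]

omit [IsDomain O] in
theorem pO_coeff_low {a b : ℤ} {n : ℕ} (hi : idx h a ≠ 0) (hn0 : 0 < n) (hn : n ≤ idx h a)
    (hn' : n ≤ h - idx h a) :
    (pO h ζ a b).coeff n = (if n = idx h a then ((ζ ^ b : Oˣ) : O) else 0)
      + (if n = h - idx h a then (((ζ ^ b)⁻¹ : Oˣ) : O) else 0) := by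
  have hlt := idx_lt h a
  rw [pO, PowerSeries.coeff_mk, if_neg (by omega), pCoeffPos, if_neg hi,
    tail2_of_le hlt.le _ hn0 hn, tail2_of_le (Nat.sub_le _ _) _ hn0 hn']

theorem dvd_sub_of_idx_eq {a a' : ℤ} (he : idx h a = idx h a') : (h : ℤ) ∣ a - a' := by
  have h0 := Int.emod_nonneg a (show (h : ℤ) ≠ 0 by exact_mod_cast NeZero.ne h)
  have h0' := Int.emod_nonneg a' (show (h : ℤ) ≠ 0 by exact_mod_cast NeZero.ne h)
  simp only [idx] at he
  exact Int.modEq_iff_dvd.1 (show a' ≡ a [ZMOD (h : ℤ)] by unfold Int.ModEq; omega)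

theorem dvd_add_of_idx_eq {a a' : ℤ} (_ha : idx h a ≠ 0) (he : idx h a' = h - idx h a) :
    (h : ℤ) ∣ a + a' := by
  have h0 := Int.emod_nonneg a (show (h : ℤ) ≠ 0 by exact_mod_cast NeZero.ne h)
  have hlt := idx_lt h a
  simp only [idx] at he hlt
  have h1 : a % (h : ℤ) + a' % (h : ℤ) = h := by omega
  have h2 := Int.emod_add_mul_ediv a h
  have h3 := Int.emod_add_mul_ediv a' h
  exact ⟨1 + a / (h : ℤ) + a' / (h : ℤ), by linear_combination h1 - h2 - h3⟩

include hι hζ hh in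
/-- **Reductions of `pe` at torsion vectors separate them up to sign.** -/
theorem pO_red_injective {a b a' b' : ℤ} (hab : ¬((h : ℤ) ∣ a ∧ (h : ℤ) ∣ b))
    (hab' : ¬((h : ℤ) ∣ a' ∧ (h : ℤ) ∣ b'))
    (heq : ∀ n, res ((pO h ζ a b).coeff n) = res ((pO h ζ a' b').coeff n)) :
    ((h : ℤ) ∣ a - a' ∧ (h : ℤ) ∣ b - b') ∨ ((h : ℤ) ∣ a + a' ∧ (h : ℤ) ∣ b + b') := by
  set i := idx h a with hidef
  set i' := idx h a' with hi'def
  have hz : ∀ x : ℤ, res ((ζ ^ x : Oˣ) : O) ≠ 0 := fun x => ((Units.isUnit _).map res).ne_zero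
  have hzi : ∀ x : ℤ, res (((ζ ^ x)⁻¹ : Oˣ) : O) ≠ 0 := fun x =>
    ((Units.isUnit _).map res).ne_zero
  have hinv : ∀ x : ℤ, res ((ζ ^ x : Oˣ) : O) * res (((ζ ^ x)⁻¹ : Oˣ) : O) = 1 := fun x => by
    rw [← map_mul, ← Units.val_mul, mul_inv_cancel, Units.val_one, map_one]
  have h0 := heq 0
  rw [pO_coeff_zero, pO_coeff_zero, pconst, pconst] at h0
  by_cases hia : i = 0
  · have hnb : ¬(h : ℤ) ∣ b := fun hd => hab ⟨(idx_eq_zero_iff h a).1 hia, hd⟩
    have hu := isUnit_one_sub_zeta hι hζ hh hnb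
    rw [if_pos hia] at h0
    by_cases hia' : i' = 0
    · have hnb' : ¬(h : ℤ) ∣ b' := fun hd => hab' ⟨(idx_eq_zero_iff h a').1 hia', hd⟩
      have hu' := isUnit_one_sub_zeta hι hζ hh hnb'
      rw [if_pos hia', map_mul, map_mul] at h0
      have r1 : (1 - res ((ζ ^ b : Oˣ) : O)) ^ 2 *
          res (Ring.inverse ((1 - ((ζ ^ b : Oˣ) : O)) ^ 2)) = 1 := by
        rw [← map_one res, ← map_sub, ← map_pow, ← map_mul, Ring.mul_inverse_cancel _ (hu.pow 2)]
      have r2 : (1 - res ((ζ ^ b' : Oˣ) : O)) ^ 2 *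
          res (Ring.inverse ((1 - ((ζ ^ b' : Oˣ) : O)) ^ 2)) = 1 := by
        rw [← map_one res, ← map_sub, ← map_pow, ← map_mul, Ring.mul_inverse_cancel _ (hu'.pow 2)]
      have ha0 := (idx_eq_zero_iff h a).1 hia
      have ha0' := (idx_eq_zero_iff h a').1 hia'
      set z := res ((ζ ^ b : Oˣ) : O) with hzdef
      set z' := res ((ζ ^ b' : Oˣ) : O) with hz'def
      set r := res (Ring.inverse ((1 - ((ζ ^ b : Oˣ) : O)) ^ 2))
      set r' := res (Ring.inverse ((1 - ((ζ ^ b' : Oˣ) : O)) ^ 2))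
      have h2 : (z - z') * (1 - z * z') = 0 := by
        linear_combination ((1 - z) ^ 2 * (1 - z') ^ 2) * h0 - z * (1 - z') ^ 2 * r1
          + z' * (1 - z) ^ 2 * r2
      rcases mul_eq_zero.1 h2 with h3 | h3
      · exact Or.inl ⟨dvd_sub ha0 ha0', dvd_sub_of_res_eq res hι hζ hh (sub_eq_zero.1 h3)⟩
      · refine Or.inr ⟨dvd_add ha0 ha0', dvd_add_of_res_eq_inv res hι hζ hh ?_⟩
        exact mul_right_cancel₀ (hz b') ((sub_eq_zero.1 h3).symm.trans
          (by rw [mul_comm, hinv]))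
    · rw [if_neg hia', map_zero] at h0
      exact absurd h0 (((Units.isUnit _).mul (isUnit_ringInverse.2 (hu.pow 2))).map res).ne_zero
  · rw [if_neg hia, map_zero] at h0
    have hia' : i' ≠ 0 := by
      intro hia'
      have hnb' : ¬(h : ℤ) ∣ b' := fun hd => hab' ⟨(idx_eq_zero_iff h a').1 hia', hd⟩
      rw [if_pos hia'] at h0
      exact (((Units.isUnit _).mul (isUnit_ringInverse.2
        ((isUnit_one_sub_zeta hι hζ hh hnb').pow 2))).map res).ne_zero h0.symm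
    have hlt := idx_lt h a
    have hlt' := idx_lt h a'
    rw [← hidef] at hlt
    rw [← hi'def] at hlt'
    have hc : ∀ n, 0 < n → n ≤ i → n ≤ h - i → n ≤ i' → n ≤ h - i' →
        (if n = i then res ((ζ ^ b : Oˣ) : O) else 0)
          + (if n = h - i then res (((ζ ^ b)⁻¹ : Oˣ) : O) else 0)
        = (if n = i' then res ((ζ ^ b' : Oˣ) : O) else 0)
          + (if n = h - i' then res (((ζ ^ b')⁻¹ : Oˣ) : O) else 0) := by
      intro n hn0 h1 h2 h3 h4
      have := heq n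
      rw [pO_coeff_low hia hn0 h1 h2, pO_coeff_low hia' hn0 h3 h4, map_add, map_add] at this
      simpa only [apply_ite res, map_zero] using this
    set m := min i (h - i) with hm
    set m' := min i' (h - i') with hm'
    have hmm : m = m' := by
      rcases lt_trichotomy m m' with hlt1 | heq1 | hgt
      · have := hc m (by omega) (by omega) (by omega) (by omega) (by omega)
        rw [if_neg (show m ≠ i' by omega), if_neg (show m ≠ h - i' by omega), add_zero] at this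
        by_cases hmi : m = i
        · rw [if_pos hmi, if_neg (by omega), add_zero] at this
          exact absurd this (hz b)
        · rw [if_neg hmi, if_pos (by omega), zero_add] at this
          exact absurd this (hzi b)
      · exact heq1
      · have := hc m' (by omega) (by omega) (by omega) (by omega) (by omega)
        rw [if_neg (show m' ≠ i by omega), if_neg (show m' ≠ h - i by omega), add_zero] at this
        by_cases hmi : m' = i'
        · rw [if_pos hmi, if_neg (by omega), add_zero] at this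
          exact absurd this.symm (hz b')
        · rw [if_neg hmi, if_pos (by omega), zero_add] at this
          exact absurd this.symm (hzi b')
    have hval := hc m (by omega) (by omega) (by omega) (by omega) (by omega)
    rcases lt_trichotomy i (h - i) with hcase | hcase | hcase
    · rw [if_pos (show m = i by omega), if_neg (show m ≠ h - i by omega), add_zero] at hval
      by_cases hi' : i' = i
      · rw [if_pos (show m = i' by omega), if_neg (show m ≠ h - i' by omega), add_zero] at hval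
        exact Or.inl ⟨dvd_sub_of_idx_eq hi'.symm, dvd_sub_of_res_eq res hι hζ hh hval⟩
      · rw [if_neg (show m ≠ i' by omega), if_pos (show m = h - i' by omega), zero_add] at hval
        exact Or.inr ⟨dvd_add_of_idx_eq hia (show i' = h - i by omega),
          dvd_add_of_res_eq_inv res hι hζ hh hval⟩
    · have hi' : i' = i := by omega
      rw [if_pos (show m = i by omega), if_pos (show m = h - i by omega),
        if_pos (show m = i' by omega), if_pos (show m = h - i' by omega)] at hval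
      have e1 := hinv b
      have e2 := hinv b'
      set z := res ((ζ ^ b : Oˣ) : O)
      set z' := res ((ζ ^ b' : Oˣ) : O)
      set w := res (((ζ ^ b)⁻¹ : Oˣ) : O)
      set w' := res (((ζ ^ b')⁻¹ : Oˣ) : O)
      have h2 : (z - z') * (z - w') = 0 := by linear_combination z * hval - e1 + e2
      rcases mul_eq_zero.1 h2 with h3 | h3
      · exact Or.inl
          ⟨dvd_sub_of_idx_eq hi'.symm, dvd_sub_of_res_eq res hι hζ hh (sub_eq_zero.1 h3)⟩
      · exact Or.inr ⟨dvd_add_of_idx_eq hia (show i' = h - i by omega),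
          dvd_add_of_res_eq_inv res hι hζ hh (sub_eq_zero.1 h3)⟩
    · rw [if_neg (show m ≠ i by omega), if_pos (show m = h - i by omega), zero_add] at hval
      by_cases hi' : i' = i
      · rw [if_neg (show m ≠ i' by omega), if_pos (show m = h - i' by omega), zero_add] at hval
        refine Or.inl ⟨dvd_sub_of_idx_eq hi'.symm, dvd_sub_of_res_eq res hι hζ hh ?_⟩
        have e1 := hinv b
        have e2 := hinv b'
        rw [← mul_one (res ((ζ ^ b : Oˣ) : O)), ← e2, ← hval, mul_left_comm, e1, mul_one]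
      · rw [if_pos (show m = i' by omega), if_neg (show m ≠ h - i' by omega), add_zero] at hval
        refine Or.inr ⟨dvd_add_of_idx_eq hia (show i' = h - i by omega), ?_⟩
        rw [add_comm]
        exact dvd_add_of_res_eq_inv res hι hζ hh hval.symm

end RedInjective

theorem exists_int_of_mem_lat {v : Fin 2 → ℚ} {τ : ℍ} (h : pt v τ ∈ lat (τ : ℂ)) (k : Fin 2) :
    ∃ a : ℤ, v k = a := by
  by_contra hc
  exact Adm.notMem_lat (fun hall => hc (hall k)) τ h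

theorem pt_sub (v w : Fin 2 → ℚ) (τ : ℍ) : pt (v - w) τ = pt v τ - pt w τ := by
  simp only [pt, Pi.sub_apply]; push_cast; ring

theorem pt_add (v w : Fin 2 → ℚ) (τ : ℍ) : pt (v + w) τ = pt v τ + pt w τ := by
  simp only [pt, Pi.add_apply]; push_cast; ring

/-- If two bottom rows give the same value of `pe` at one point they agree up to sign. -/
theorem rowEq_of_pe_eq {M : ℕ} (hM : 3 ≤ M) {γ δ : SL(2, ℤ)} {τ : ℍ}
    (he : pe (pt (vmul (vv M 0 1) γ) τ) τ = pe (pt (vmul (vv M 0 1) δ) τ) τ) : RowEq M γ δ := by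
  have hM0 : M ≠ 0 := by omega
  have hMq : (M : ℚ) ≠ 0 := Nat.cast_ne_zero.2 hM0
  have hnd1 : ¬(M : ℤ) ∣ 1 := fun hd => by
    have := Int.le_of_dvd one_pos hd
    omega
  have hv : Adm (vv M 0 1) := adm_vv hM0 fun h => hnd1 h.2
  have h2 : 2 * pt (vmul (vv M 0 1) δ) τ ∉ lat (τ : ℂ) := by
    have hv2 : Adm (vv M 0 2) := adm_vv hM0 fun h => by
      have := Int.le_of_dvd two_pos h.2
      omega
    have := (hv2.vmul δ).notMem_lat τ
    convert this using 1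
    rw [pt, vmul_apply, vmul_apply, vmul_apply, vmul_apply]
    simp [vv]
    ring_nf
  have key : ∀ x y : ℤ, (∃ a : ℤ, (x : ℚ) / M + (y : ℚ) / M = a) → (M : ℤ) ∣ x + y := by
    rintro x y ⟨a, ha⟩
    rw [← add_div, div_eq_iff hMq] at ha
    exact ⟨a, by rw [mul_comm]; exact_mod_cast ha⟩
  rcases pe_injective τ.im_pos ((hv.vmul γ).notMem_lat τ) h2 he with h3 | h3
  · change pt (vmul (vv M 0 1) γ) τ - pt (vmul (vv M 0 1) δ) τ ∈ lat (τ : ℂ) at h3
    rw [← pt_sub] at h3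
    refine Or.inl ⟨?_, ?_⟩
    · have := exists_int_of_mem_lat h3 0
      simp only [Pi.sub_apply, vmul_apply, vv, Matrix.cons_val_zero, Matrix.cons_val_one] at this
      rw [sub_eq_add_neg]
      refine key _ _ ?_
      push_cast
      simpa [div_eq_mul_inv, sub_eq_add_neg, mul_comm] using this
    · have := exists_int_of_mem_lat h3 1
      simp only [Pi.sub_apply, vmul_apply, vv, Matrix.cons_val_zero, Matrix.cons_val_one] at this
      rw [sub_eq_add_neg]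
      refine key _ _ ?_
      push_cast
      simpa [div_eq_mul_inv, sub_eq_add_neg, mul_comm] using this
  · change pt (vmul (vv M 0 1) γ) τ + pt (vmul (vv M 0 1) δ) τ ∈ lat (τ : ℂ) at h3
    rw [← pt_add] at h3
    refine Or.inr ⟨?_, ?_⟩
    · have := exists_int_of_mem_lat h3 0
      simp only [Pi.add_apply, vmul_apply, vv, Matrix.cons_val_zero, Matrix.cons_val_one] at this
      refine key _ _ ?_
      simpa [div_eq_mul_inv, mul_comm] using this
    · have := exists_int_of_mem_lat h3 1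
      simp only [Pi.add_apply, vmul_apply, vv, Matrix.cons_val_zero, Matrix.cons_val_one] at this
      refine key _ _ ?_
      simpa [div_eq_mul_inv, mul_comm] using this

/-- `pe` at `(0, 1/N)` is invariant under `±Γ(N)`. -/
theorem pe_vmul_vv_of_mem {N : ℕ} (hN0 : N ≠ 0) {γ : SL(2, ℤ)} (hγ : γ ∈ sgnGamma N) (τ : ℍ)
    (hN1 : ¬(N : ℤ) ∣ 1) :
    pe (pt (vmul (vv N 0 1) γ) τ) τ = pe (pt (vv N 0 1) τ) τ := by
  have hw : Adm (vv N 0 1) := adm_vv hN0 fun h => hN1 h.2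
  have key : ∀ g ∈ CongruenceSubgroup.Gamma N,
      pe (pt (vmul (vv N 0 1) g) τ) τ = pe (pt (vv N 0 1) τ) τ := by
    intro g hg
    obtain ⟨h1, h2, ⟨x, h3⟩, ⟨y, h4⟩⟩ := gamma_congr hg
    rw [show pt (vmul (vv N 0 1) g) τ = pt (vv N 0 1) τ + ((x : ℂ) * τ + y) by
      have e3 : (g 1 0 : ℤ) = N * x := h3
      have e4 : (g 1 1 : ℤ) = N * y + 1 := by linear_combination h4
      simp only [pt, vmul_apply, vv, Matrix.cons_val_zero, Matrix.cons_val_one, e3, e4]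
      push_cast
      field_simp
      ring]
    exact pe_add_lat τ.im_pos (hw.notMem_lat τ) _ _
  rcases hγ with h | h
  · exact key γ h
  · have := key _ h
    rwa [vmul_neg, pe_pt_neg (hw.vmul γ)] at this

/-- The basic data: a base group and a level. -/
structure LevelData (O : Type*) [CommRing O] [IsDomain O] (h : ℕ) [NeZero h] (ι : O →+* ℂ) where
  B : BaseForms O h ι
  unit_h : IsUnit (h : O)
  M : ℕ
  three_le_M : 3 ≤ M
  f : ℕ
  f_mul : f * M = h

namespace LevelData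

variable {O k : Type*} [CommRing O] [IsDomain O] [Field k] {h : ℕ} [NeZero h] {ι : O →+* ℂ}
  (L : LevelData O h ι)

/-- `±Γ₁(M) ∩ ±Γ(N)`. -/
def G : Subgroup SL(2, ℤ) := sgnGamma1 L.M ⊓ sgnGamma L.B.N

instance : NeZero L.M := ⟨by have := L.three_le_M; omega⟩

/-- The separating function. -/
def gFun : ℍ → ℂ := fun τ => pdiff (vv L.M 0 1) (vv L.B.N 0 1) τ * ((L.B.C τ)⁻¹) ^ 2

theorem adm_M : Adm (vv L.M 0 1) := adm_vv (NeZero.ne _) fun h => by
  have := Int.le_of_dvd one_pos h.2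
  have := L.three_le_M
  omega

theorem not_dvd_one_N : ¬(L.B.N : ℤ) ∣ 1 := fun hd => by
  have := Int.le_of_dvd one_pos hd
  have := L.B.three_le
  omega

theorem adm_N : Adm (vv L.B.N 0 1) := adm_vv (NeZero.ne _) fun h => L.not_dvd_one_N h.2

theorem gFun_smul (γ : SL(2, ℤ)) (τ : ℍ) : L.gFun (γ • τ) =
    pdiff (vmul (vv L.M 0 1) γ) (vmul (vv L.B.N 0 1) γ) τ *
      (((L.B.C ∣[(1 : ℤ)] γ) τ)⁻¹) ^ 2 := by
  rw [gFun, ← pdiff_slash L.adm_M L.adm_N γ, BaseForms.apply_smul L.B.C,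
    ModularForm.SL_slash_apply (f := pdiff _ _)]
  rw [zpow_neg, zpow_ofNat]
  field_simp

/-- The expansion of `g ∘ γ`. -/
def gSer (γ : SL(2, ℤ)) : LaurentSeries O :=
  HahnSeries.ofPowerSeries ℤ O
    (pO h L.B.zeta ((L.f : ℤ) * γ 1 0) ((L.f : ℤ) * γ 1 1)
      - pO h L.B.zeta ((L.B.e : ℤ) * γ 1 0) ((L.B.e : ℤ) * γ 1 1)) * L.B.cinv γ ^ 2

theorem coords {K e : ℕ} (he : e * K = h) (γ : SL(2, ℤ)) :
    vmul (vv K 0 1) γ 0 = (((e : ℤ) * γ 1 0 : ℤ) : ℚ) / h ∧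
      vmul (vv K 0 1) γ 1 = (((e : ℤ) * γ 1 1 : ℤ) : ℚ) / h := by
  have he0 : e ≠ 0 := fun h0 => NeZero.ne h (by rw [← he, h0, zero_mul])
  have hK : K ≠ 0 := fun h0 => NeZero.ne h (by rw [← he, h0, mul_zero])
  have : (e : ℚ) ≠ 0 := Nat.cast_ne_zero.2 he0
  have : (K : ℚ) ≠ 0 := Nat.cast_ne_zero.2 hK
  constructor <;>
  · rw [vmul_apply]
    simp only [vv, Matrix.cons_val_zero, Matrix.cons_val_one, ← he]
    push_cast
    field_simp
    ring

theorem gSer_spec (γ : SL(2, ℤ)) : ((fun τ => L.gFun (γ • τ)), L.gSer γ) ∈ QSR h ι := by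
  have e : (fun τ => L.gFun (γ • τ)) = pdiff (vmul (vv L.M 0 1) γ) (vmul (vv L.B.N 0 1) γ) *
      (fun τ => ((L.B.C ∣[(1 : ℤ)] γ) τ)⁻¹) ^ 2 := funext fun τ => L.gFun_smul γ τ
  rw [e]
  refine mul_mem (qsr_pdiff L.B.ι_injective L.B.zeta_spec L.unit_h (L.adm_M.vmul γ)
    (L.adm_N.vmul γ) (coords L.f_mul γ).1 (coords L.f_mul γ).2 (coords L.B.e_mul γ).1
    (coords L.B.e_mul γ).2) (pow_mem (L.B.cinv_spec γ) 2)

theorem gFun_inv : Inv L.G L.gFun := fun γ hγ τ => by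
  have h1 := mem_sgnGamma1_iff.1 hγ.1
  have e1 : pe (pt (vmul (vv L.M 0 1) γ) τ) τ = pe (pt (vv L.M 0 1) τ) τ := by
    have hq : (L.M : ℂ) ≠ 0 := Nat.cast_ne_zero.2 (NeZero.ne _)
    rcases h1 with ⟨⟨x, hx⟩, ⟨y, hy⟩⟩ | ⟨⟨x, hx⟩, ⟨y, hy⟩⟩
    · rw [show pt (vmul (vv L.M 0 1) γ) τ = pt (vv L.M 0 1) τ + ((x : ℂ) * τ + y) by
        simp at hx hy
        have e3 : (γ 1 0 : ℤ) = L.M * x := hx
        have e4 : (γ 1 1 : ℤ) = L.M * y + 1 := by linear_combination hy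
        simp only [pt, vmul_apply, vv, Matrix.cons_val_zero, Matrix.cons_val_one, e3, e4]
        push_cast
        field_simp
        ring]
      exact pe_add_lat τ.im_pos (L.adm_M.notMem_lat τ) _ _
    · rw [show pt (vmul (vv L.M 0 1) γ) τ = -pt (vv L.M 0 1) τ + ((x : ℂ) * τ + y) by
        simp at hx hy
        have e3 : (γ 1 0 : ℤ) = L.M * x := hx
        have e4 : (γ 1 1 : ℤ) = L.M * y - 1 := by linear_combination hy
        simp only [pt, vmul_apply, vv, Matrix.cons_val_zero, Matrix.cons_val_one, e3, e4]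
        push_cast
        field_simp
        ring]
      have hn : pt (vv L.M 0 1) τ ∉ lat (τ : ℂ) := L.adm_M.notMem_lat τ
      rw [pe_add_lat τ.im_pos (neg_notMem hn), pe_neg τ.im_pos hn]
  have h2 := congrFun (L.B.sq_slash hγ.2) τ
  rw [show (2 : ℤ) = 1 + 1 by norm_num, ModularForm.mul_slash_SL2, Pi.mul_apply,
    Pi.mul_apply] at h2
  rw [L.gFun_smul, gFun]
  simp only [pdiff]
  rw [e1, pe_vmul_vv_of_mem (NeZero.ne _) hγ.2 τ L.not_dvd_one_N, sq, sq, ← mul_inv, ← mul_inv, h2]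

/-- The expansion of `u ∘ γ`. -/
def uSerγ (γ : SL(2, ℤ)) : LaurentSeries O :=
  HahnSeries.ofPowerSeries ℤ O (L.B.aS γ) * L.B.cinv γ

theorem uSerγ_spec (γ : SL(2, ℤ)) : ((fun τ => L.B.uFun (γ • τ)), L.uSerγ γ) ∈ QSR h ι := by
  have e : (fun τ => L.B.uFun (γ • τ)) =
      L.B.A ∣[(1 : ℤ)] γ * fun τ => ((L.B.C ∣[(1 : ℤ)] γ) τ)⁻¹ :=
    funext fun τ => L.B.uFun_smul γ τ
  rw [e]
  exact mul_mem (L.B.aS_spec γ) (L.B.cinv_spec γ)

theorem pdiff_eq_of_gFun_eq {γ δ : SL(2, ℤ)} (hγ : γ ∈ sgnGamma L.B.N)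
    (hδ : δ ∈ sgnGamma L.B.N) {τ : ℍ} (he : L.gFun (γ • τ) = L.gFun (δ • τ)) :
    RowEq L.M γ δ := by
  refine rowEq_of_pe_eq L.three_le_M (τ := τ) ?_
  have hC : ∀ g ∈ sgnGamma L.B.N,
      (((L.B.C ∣[(1 : ℤ)] g) τ)⁻¹) ^ 2 = ((L.B.C τ)⁻¹) ^ 2 := fun g hg => by
    have h2 := congrFun (L.B.sq_slash hg) τ
    rw [show (2 : ℤ) = 1 + 1 by norm_num, ModularForm.mul_slash_SL2, Pi.mul_apply,
      Pi.mul_apply] at h2
    rw [sq, sq, ← mul_inv, ← mul_inv, h2]
  rw [L.gFun_smul, L.gFun_smul, hC γ hγ, hC δ hδ] at he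
  have h0 : ((L.B.C τ)⁻¹) ^ 2 ≠ 0 := pow_ne_zero _ (inv_ne_zero (L.B.C_ne_zero τ))
  have h1 := mul_right_cancel₀ h0 he
  simp only [pdiff] at h1
  rw [pe_vmul_vv_of_mem (NeZero.ne _) hγ τ L.not_dvd_one_N,
    pe_vmul_vv_of_mem (NeZero.ne _) hδ τ L.not_dvd_one_N] at h1
  exact sub_left_inj.1 h1

/-- **Separation at a point.** -/
theorem mem_G_of_gFun_eq {γ δ : SL(2, ℤ)} (hγ : γ ∈ sgnGamma L.B.N)
    (hδ : δ ∈ sgnGamma L.B.N) {τ : ℍ} (he : L.gFun (γ • τ) = L.gFun (δ • τ)) :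
    γ * δ⁻¹ ∈ L.G :=
  Subgroup.mem_inf.2 ⟨(L.pdiff_eq_of_gFun_eq hγ hδ he).mem, mul_mem hγ (inv_mem hδ)⟩

/-- **Separation after reduction.** -/
theorem mem_G_of_red_eq (res : O →+* k) {γ δ : SL(2, ℤ)} (hγ : γ ∈ sgnGamma L.B.N)
    (hδ : δ ∈ sgnGamma L.B.N)
    (he : coeffMap res (L.gSer γ) = coeffMap res (L.gSer δ)) : γ * δ⁻¹ ∈ L.G := by
  have hι := L.B.ι_injective
  have hζ := L.B.zeta_spec
  set K := L.B.cinv 1 ^ 2
  set P₀ := pO h L.B.zeta ((L.B.e : ℤ) * (1 : SL(2, ℤ)) 1 0) ((L.B.e : ℤ) * (1 : SL(2, ℤ)) 1 1)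
  have hs : ∀ g ∈ sgnGamma L.B.N, L.gSer g = HahnSeries.ofPowerSeries ℤ O
      (pO h L.B.zeta ((L.f : ℤ) * g 1 0) ((L.f : ℤ) * g 1 1) - P₀) * K := by
    intro g hg
    have e1 : HahnSeries.ofPowerSeries ℤ O
        (pO h L.B.zeta ((L.B.e : ℤ) * g 1 0) ((L.B.e : ℤ) * g 1 1))
        = HahnSeries.ofPowerSeries ℤ O P₀ := by
      refine Connected.qsr_unique hι (qsr_pe hι hζ L.unit_h (L.adm_N.vmul g)
        (coords L.B.e_mul g).1 (coords L.B.e_mul g).2) ?_
      convert qsr_pe hι hζ L.unit_h (L.adm_N.vmul 1) (coords L.B.e_mul 1).1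
        (coords L.B.e_mul 1).2 using 2
      funext τ
      rw [pe_vmul_vv_of_mem (NeZero.ne _) hg τ L.not_dvd_one_N,
        pe_vmul_vv_of_mem (NeZero.ne _) (one_mem _) τ L.not_dvd_one_N]
    have e2 : L.B.cinv g ^ 2 = K := by
      refine Connected.qsr_unique hι (pow_mem (L.B.cinv_spec g) 2) ?_
      convert pow_mem (L.B.cinv_spec 1) 2 using 1
      refine Prod.ext ?_ rfl
      funext τ
      have h2 := congrFun (L.B.sq_slash hg) τ
      rw [show (2 : ℤ) = 1 + 1 by norm_num, ModularForm.mul_slash_SL2, Pi.mul_apply,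
        Pi.mul_apply] at h2
      simp only [Prod.pow_fst]
      show (((L.B.C ∣[(1 : ℤ)] g) τ)⁻¹) ^ 2 = (((L.B.C ∣[(1 : ℤ)] (1 : SL(2, ℤ))) τ)⁻¹) ^ 2
      rw [SlashAction.slash_one, sq, sq, ← mul_inv, ← mul_inv, h2]
    rw [gSer, map_sub, map_sub, e1, e2]
  rw [hs γ hγ, hs δ hδ, map_mul, map_mul] at he
  have hK : coeffMap res K ≠ 0 := by
    intro hz
    have h1 := congrArg (fun x => coeffMap res (x ^ 2)) (L.B.cS_mul_cinv 1)
    simp only [mul_pow, map_mul, map_pow, map_one, one_pow] at h1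
    rw [show coeffMap res (L.B.cinv 1) ^ 2 = coeffMap res K from (map_pow _ _ _).symm, hz,
      mul_zero] at h1
    exact zero_ne_one h1
  have h1 := mul_right_cancel₀ hK he
  rw [map_sub, map_sub, map_sub, map_sub, sub_left_inj] at h1
  have hM : ∀ g : SL(2, ℤ), ¬((h : ℤ) ∣ (L.f : ℤ) * g 1 0 ∧ (h : ℤ) ∣ (L.f : ℤ) * g 1 1) :=
    fun g => (adm_of_div (NeZero.ne h) (coords L.f_mul g).1 (coords L.f_mul g).2).1
      (L.adm_M.vmul g)
  have hf : (L.f : ℤ) ≠ 0 := by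
    exact_mod_cast fun h0 : L.f = 0 => NeZero.ne h (by rw [← L.f_mul, h0, zero_mul])
  have hdvd : ∀ x : ℤ, (h : ℤ) ∣ (L.f : ℤ) * x → (L.M : ℤ) ∣ x := fun x hx => by
    have e : (h : ℤ) = (L.f : ℤ) * L.M := by exact_mod_cast L.f_mul.symm
    rw [e] at hx
    exact Int.dvd_of_mul_dvd_mul_left hf hx
  refine Subgroup.mem_inf.2 ⟨RowEq.mem ?_, mul_mem hγ (inv_mem hδ)⟩
  rcases pO_red_injective res hι hζ L.unit_h (hM γ) (hM δ) (fun n => by
    have h2 := congrArg (fun x : LaurentSeries k => x.coeff (n : ℤ)) h1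
    simpa only [coeffMap_coeff, HahnSeries.ofPowerSeries_apply_coeff] using h2) with
    ⟨ha, hb⟩ | ⟨ha, hb⟩
  · rw [← mul_sub] at ha hb
    exact Or.inl ⟨hdvd _ ha, hdvd _ hb⟩
  · rw [← mul_add] at ha hb
    exact Or.inr ⟨hdvd _ ha, hdvd _ hb⟩

/-- The Hauptmodul determines the coset of the base group. -/
theorem mem_base_of_uFun_eq {γ δ : SL(2, ℤ)}
    (he : ∀ τ, L.B.uFun (γ • τ) = L.B.uFun (δ • τ)) : γ * δ⁻¹ ∈ sgnGamma L.B.N := by
  set H := L.B.hauptU
  set g := γ * δ⁻¹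
  have hg : ∀ τ, L.B.uFun (g • τ) = L.B.uFun τ := fun τ => by
    rw [show g • τ = γ • δ⁻¹ • τ from mul_smul γ δ⁻¹ τ, he, ← mul_smul, mul_inv_cancel,
      one_smul]
  set q : SL(2, ℤ) ⧸ sgnGamma L.B.N := QuotientGroup.mk g⁻¹
  obtain ⟨F, hF, hFs⟩ := H.uS_mem
  have hser : H.uS q = H.uS (Connected.one _) := by
    refine Connected.qsr_unique (h := h) H.ι_injective (f := tr L.B.uFun q) ?_ ?_
    · rw [show tr L.B.uFun q = L.B.A ∣[(1 : ℤ)] (q.out⁻¹ : SL(2, ℤ)) *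
          fun τ => ((L.B.C ∣[(1 : ℤ)] (q.out⁻¹ : SL(2, ℤ))) τ)⁻¹ from
        funext fun τ => L.B.uFun_smul _ τ]
      exact mul_mem (L.B.aS_spec _) (L.B.cinv_spec _)
    · have e : tr L.B.uFun q = tr L.B.uFun (Connected.one (sgnGamma L.B.N)) := funext fun τ => by
        rw [Connected.tr_mk L.B.uFun_inv, Connected.tr_mk L.B.uFun_inv, inv_inv, inv_one,
          one_smul, hg]
      rw [e, show tr L.B.uFun (Connected.one (sgnGamma L.B.N))
          = L.B.A ∣[(1 : ℤ)] ((Connected.one (sgnGamma L.B.N)).out⁻¹ : SL(2, ℤ)) *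
          fun τ => ((L.B.C ∣[(1 : ℤ)] ((Connected.one (sgnGamma L.B.N)).out⁻¹ : SL(2, ℤ))) τ)⁻¹ from
        funext fun τ => L.B.uFun_smul _ τ]
      exact mul_mem (L.B.aS_spec _) (L.B.cinv_spec _)
  by_cases hq : q ∈ cuspOrbit (sgnGamma L.B.N)
  · obtain ⟨i, hi⟩ := hq
    set m := (-i % (L.B.N : ℤ)).toNat
    have hN0 : (L.B.N : ℤ) ≠ 0 := by exact_mod_cast NeZero.ne L.B.N
    have hm : (m : ℤ) = -i % (L.B.N : ℤ) := Int.toNat_of_nonneg (Int.emod_nonneg _ hN0)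
    have hTN : (ModularGroup.T ^ (L.B.N : ℤ) : SL(2, ℤ)) ∈ sgnGamma L.B.N := H.period_mem
    have hq' : q = (ModularGroup.T ^ (-(m : ℤ)) : SL(2, ℤ)) • Connected.one _ := by
      rw [hi]
      show (QuotientGroup.mk ((ModularGroup.T ^ i : SL(2, ℤ)) * 1) : SL(2, ℤ) ⧸ sgnGamma L.B.N)
        = QuotientGroup.mk ((ModularGroup.T ^ (-(m : ℤ)) : SL(2, ℤ)) * 1)
      rw [mul_one, mul_one, QuotientGroup.eq, ← zpow_neg, ← zpow_add, hm]
      have := Int.emod_add_mul_ediv (-i) (L.B.N : ℤ)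
      rw [show -i + -(-i % (L.B.N : ℤ)) = (L.B.N : ℤ) * (-i / (L.B.N : ℤ)) by linarith, zpow_mul]
      exact zpow_mem hTN _
    have htw := H.twist_natCast H.uS_mem (Connected.one _) (-(H.e : ℤ)) m
    rw [show H.uS ((ModularGroup.T ^ (-(m : ℤ)) : SL(2, ℤ)) • Connected.one H.Γb) = H.uS q from
      (congrArg H.uS hq').symm, hser] at htw
    have h1 : ((H.zeta ^ (-(H.e : ℤ)) : Oˣ) : O) ^ m = 1 :=
      mul_right_cancel₀ H.u_lead.ne_zero (htw.symm.trans (one_mul _).symm)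
    rw [← Units.val_pow_eq_pow_val, Units.val_eq_one, zpow_neg, inv_pow, inv_eq_one,
      zpow_natCast, ← pow_mul] at h1
    have h2 : h ∣ H.e * m := by
      have hp : IsPrimitiveRoot (H.zeta : O) h := by
        refine IsPrimitiveRoot.of_map_of_injective (f := ι) ?_ H.ι_injective
        rw [H.zeta_spec]
        exact Complex.isPrimitiveRoot_exp h (NeZero.ne h)
      exact hp.dvd_of_pow_eq_one _ (by rw [← Units.val_pow_eq_pow_val, h1, Units.val_one])
    have h3 : H.period ∣ m :=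
      Nat.dvd_of_mul_dvd_mul_left L.B.e_pos ((dvd_of_eq H.e_mul_period).trans h2)
    have hlt : (m : ℤ) < L.B.N := hm ▸ Int.emod_lt_of_pos _ (by exact_mod_cast NeZero.pos L.B.N)
    have hm0 : m = 0 := Nat.eq_zero_of_dvd_of_lt h3 (by exact_mod_cast hlt)
    rw [hm0, Nat.cast_zero, neg_zero, zpow_zero, one_smul] at hq'
    have := QuotientGroup.eq.1 hq'.symm
    simpa using inv_mem this
  · have h1 := L.B.hauptU.u_bdd q hq (-(H.e : ℤ)) (by
      have : 0 < H.e := L.B.e_pos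
      push_cast
      omega)
    rw [hser] at h1
    exact absurd h1 H.u_lead.ne_zero

/-- **Separation as functions.** -/
theorem mem_G_of_fun_eq {γ δ : SL(2, ℤ)} (hu : ∀ τ, L.B.uFun (γ • τ) = L.B.uFun (δ • τ))
    (hg : ∀ τ, L.gFun (γ • τ) = L.gFun (δ • τ)) : γ * δ⁻¹ ∈ L.G := by
  have h1 := L.mem_base_of_uFun_eq hu
  have h2 : L.gFun ((γ * δ⁻¹) • UpperHalfPlane.I) =
      L.gFun ((1 : SL(2, ℤ)) • UpperHalfPlane.I) := by
    rw [mul_smul, hg, ← mul_smul, mul_inv_cancel]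
  simpa using L.mem_G_of_gFun_eq h1 (one_mem _) h2

end LevelData

end Fermat.Agent.LevelM
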