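import Fermat.Agent.LevelM.SeriesTools
import Fermat.Agent.Connected.HauptBase
import Fermat.Agent.MFCore.Conj

/-!
# A Hauptmodul from two weight one forms

`BaseForms` packages two forms `C`, `A` of weight one on `Γ(N)` (`N = 3` or `4`) with integral
expansions at all cusps, `C` having all its zeros at infinity. Then `A / C` is a Hauptmodul of
`±Γ(N)` and gives the data `Connected.Haupt`.
-/

set_option autoImplicit false

noncomputable section

open Complex Filter Topology UpperHalfPlane ModularCurve CongruenceSubgroup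
open scoped Manifold MatrixGroups ModularForm

namespace Fermat.Agent.LevelM

open Fermat.Agent.Igusa (HasExp QSR mem_QSR)
open Fermat.Agent.Connected (Inv tr fRing Haupt HauptU cuspOrbit PoleBound)

local notation "Δf" => ModularForm.discriminant

/-- `±Γ(N)`. -/
def sgnGamma (N : ℕ) : Subgroup SL(2, ℤ) where
  carrier := {γ | γ ∈ CongruenceSubgroup.Gamma N ∨ -γ ∈ CongruenceSubgroup.Gamma N}
  one_mem' := Or.inl (one_mem _)
  mul_mem' := by
    rintro a b (ha | ha) (hb | hb)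
    · exact Or.inl (mul_mem ha hb)
    · exact Or.inr (by rw [← mul_neg]; exact mul_mem ha hb)
    · exact Or.inr (by rw [← neg_mul]; exact mul_mem ha hb)
    · exact Or.inl (by rw [← neg_mul_neg]; exact mul_mem ha hb)
  inv_mem' := by
    rintro a (ha | ha)
    · exact Or.inl (inv_mem ha)
    · refine Or.inr ?_
      rw [show -a⁻¹ = (-a)⁻¹ by
        rw [← neg_one_mul a, mul_inv_rev, inv_neg, inv_one, mul_neg, mul_one]]
      exact inv_mem ha

theorem mem_sgnGamma {N : ℕ} {γ : SL(2, ℤ)} :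
    γ ∈ sgnGamma N ↔ γ ∈ CongruenceSubgroup.Gamma N ∨ -γ ∈ CongruenceSubgroup.Gamma N := Iff.rfl

theorem Gamma_le_sgnGamma (N : ℕ) : CongruenceSubgroup.Gamma N ≤ sgnGamma N := fun _ h => Or.inl h

instance finiteIndex_sgnGamma (N : ℕ) [NeZero N] : (sgnGamma N).FiniteIndex :=
  Subgroup.finiteIndex_of_le (Gamma_le_sgnGamma N)

theorem slash_one_neg (f : ℍ → ℂ) (γ : SL(2, ℤ)) :
    f ∣[(1 : ℤ)] (-γ) = -(f ∣[(1 : ℤ)] γ) := by
  funext τ
  rw [Pi.neg_apply, ModularForm.SL_slash_apply, ModularForm.SL_slash_apply,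
    ModularGroup.SL_neg_smul]
  have h : UpperHalfPlane.denom ((-γ : SL(2, ℤ)) : GL (Fin 2) ℝ) τ
      = -UpperHalfPlane.denom ((γ : SL(2, ℤ)) : GL (Fin 2) ℝ) τ := by
    rw [ModularGroup.denom_apply, ModularGroup.denom_apply]
    simp only [Matrix.SpecialLinearGroup.coe_neg, Matrix.neg_apply]
    push_cast
    ring
  rw [h, zpow_neg_one, zpow_neg_one, inv_neg, mul_neg]

theorem ne_zero_of_slash {k : ℤ} {f : ℍ → ℂ} (γ : SL(2, ℤ)) (hf : ∀ τ, f τ ≠ 0) (τ : ℍ) :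
    (f ∣[k] γ) τ ≠ 0 := by
  rw [ModularForm.SL_slash_apply]
  exact mul_ne_zero (hf _) (zpow_ne_zero _ (UpperHalfPlane.denom_ne_zero _ _))

theorem out_one_mem (N : ℕ) : (Connected.one (sgnGamma N)).out ∈ sgnGamma N := by
  obtain ⟨g, hg⟩ := QuotientGroup.mk_out_eq_mul (sgnGamma N) 1
  rw [show (Connected.one (sgnGamma N)).out = 1 * g from hg, one_mul]
  exact g.2

/-- Weight one forms giving a Hauptmodul. -/
structure BaseForms (O : Type*) [CommRing O] [IsDomain O] (h : ℕ) [NeZero h] (ι : O →+* ℂ) where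
  ι_injective : Function.Injective ι
  zeta : Oˣ
  zeta_spec : ι zeta = Complex.exp (2 * Real.pi * Complex.I / h)
  N : ℕ
  hN : N = 3 ∨ N = 4
  e : ℕ
  e_mul : e * N = h
  d : ℕ
  d_pos : 0 < d
  card_le : Nat.card (SL(2, ℤ) ⧸ sgnGamma N) ≤ 12 * d
  C : ℍ → ℂ
  A : ℍ → ℂ
  C_slash : ∀ γ ∈ CongruenceSubgroup.Gamma N, C ∣[(1 : ℤ)] γ = C
  A_slash : ∀ γ ∈ CongruenceSubgroup.Gamma N, A ∣[(1 : ℤ)] γ = A
  cS : SL(2, ℤ) → PowerSeries O
  aS : SL(2, ℤ) → PowerSeries O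
  cS_spec : ∀ γ, (C ∣[(1 : ℤ)] γ, HahnSeries.ofPowerSeries ℤ O (cS γ)) ∈ QSR h ι
  aS_spec : ∀ γ, (A ∣[(1 : ℤ)] γ, HahnSeries.ofPowerSeries ℤ O (aS γ)) ∈ QSR h ι
  cS_low : ∀ γ : SL(2, ℤ), (N : ℤ) ∣ γ 1 0 → ∀ n < d * e, (cS γ).coeff n = 0
  cS_lead : ∀ γ : SL(2, ℤ), (N : ℤ) ∣ γ 1 0 → IsUnit ((cS γ).coeff (d * e))
  cS_const : ∀ γ : SL(2, ℤ), ¬(N : ℤ) ∣ γ 1 0 → IsUnit ((cS γ).coeff 0)
  aS_low : ∀ γ : SL(2, ℤ), (N : ℤ) ∣ γ 1 0 → ∀ n < (d - 1) * e, (aS γ).coeff n = 0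
  aS_lead : ∀ γ : SL(2, ℤ), (N : ℤ) ∣ γ 1 0 → IsUnit ((aS γ).coeff ((d - 1) * e))

namespace BaseForms

variable {O : Type*} [CommRing O] [IsDomain O] {h : ℕ} [NeZero h] {ι : O →+* ℂ}
  (B : BaseForms O h ι)

include B in
theorem three_le : 3 ≤ B.N := by rcases B.hN with h' | h' <;> omega

instance : NeZero B.N := ⟨by have := B.three_le; omega⟩

instance : Fintype (SL(2, ℤ) ⧸ sgnGamma B.N) := Subgroup.fintypeQuotientOfFiniteIndex

include B in
theorem e_pos : 0 < B.e := by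
  rcases Nat.eq_zero_or_pos B.e with h0 | h0
  · exact absurd (by simp [← B.e_mul, h0]) (NeZero.ne h)
  · exact h0

theorem mul_apply' (a b : SL(2, ℤ)) (i j : Fin 2) :
    (a * b) i j = a i 0 * b 0 j + a i 1 * b 1 j := by
  rw [Matrix.SpecialLinearGroup.coe_mul, Matrix.mul_apply, Fin.sum_univ_two]

theorem dvd_of_mem {N : ℕ} {γ : SL(2, ℤ)} (hγ : γ ∈ sgnGamma N) : (N : ℤ) ∣ γ 1 0 := by
  rw [← ZMod.intCast_zmod_eq_zero_iff_dvd]
  rcases mem_sgnGamma.1 hγ with h' | h'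
  · exact (CongruenceSubgroup.Gamma_mem.1 h').2.2.1
  · have := (CongruenceSubgroup.Gamma_mem.1 h').2.2.1
    rw [Matrix.SpecialLinearGroup.coe_neg, Matrix.neg_apply] at this
    push_cast at this
    exact neg_eq_zero.1 this

/-- The orbit of the cusp `∞` consists of the cosets of the `γ` with `N ∣ γ₁₀`. -/
theorem mem_orbit_iff (q : SL(2, ℤ) ⧸ sgnGamma B.N) :
    q ∈ cuspOrbit (sgnGamma B.N) ↔ (B.N : ℤ) ∣ (q.out⁻¹ : SL(2, ℤ)) 1 0 := by
  constructor
  · rintro ⟨i, rfl⟩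
    have e : (ModularGroup.T ^ i : SL(2, ℤ)) • Connected.one (sgnGamma B.N)
        = QuotientGroup.mk (ModularGroup.T ^ i * 1) := rfl
    rw [e, mul_one]
    obtain ⟨g, hg⟩ := QuotientGroup.mk_out_eq_mul (sgnGamma B.N) (ModularGroup.T ^ i)
    rw [hg, mul_inv_rev, ← zpow_neg, mul_apply', ModularGroup.coe_T_zpow]
    simp only [Matrix.of_apply, Matrix.cons_val_zero, Matrix.cons_val_one, mul_one, mul_zero,
      add_zero]
    exact dvd_of_mem (inv_mem g.2)
  · intro hq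
    set γ := (q.out⁻¹ : SL(2, ℤ)) with hγ
    have hc : ((γ 1 0 : ℤ) : ZMod B.N) = 0 := (ZMod.intCast_zmod_eq_zero_iff_dvd _ _).2 hq
    have hdet : ((γ 0 0 : ℤ) : ZMod B.N) * (γ 1 1 : ℤ) = 1 := by
      have h1 := γ.2
      rw [Matrix.det_fin_two] at h1
      have h2 := congrArg (fun x : ℤ => (x : ZMod B.N)) h1
      push_cast at h2
      rwa [hc, mul_zero, sub_zero] at h2
    have hpm : ∀ x : ZMod B.N, IsUnit x → x = 1 ∨ x = -1 := by
      rcases B.hN with h' | h' <;> rw [h'] <;> decide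
    have ha := hpm _ (IsUnit.of_mul_eq_one _ hdet)
    set i : ℤ := -(γ 0 0) * γ 0 1 with hi
    refine ⟨i, ?_⟩
    conv_lhs => rw [← QuotientGroup.out_eq' q]
    show QuotientGroup.mk q.out = QuotientGroup.mk ((ModularGroup.T ^ i : SL(2, ℤ)) * 1)
    rw [mul_one, QuotientGroup.eq, ← hγ]
    rcases ha with ha | ha
    · left
      rw [CongruenceSubgroup.Gamma_mem]
      simp only [mul_apply', ModularGroup.coe_T_zpow, Matrix.of_apply, Matrix.cons_val_zero,
        Matrix.cons_val_one, hi]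
      push_cast
      rw [ha] at hdet
      refine ⟨by rw [ha]; ring, by rw [ha]; ring, by rw [hc]; ring, ?_⟩
      rw [hc]; linear_combination hdet
    · right
      rw [CongruenceSubgroup.Gamma_mem]
      simp only [Matrix.SpecialLinearGroup.coe_neg, Matrix.neg_apply, mul_apply',
        ModularGroup.coe_T_zpow, Matrix.of_apply, Matrix.cons_val_zero, Matrix.cons_val_one, hi]
      push_cast
      rw [ha] at hdet
      refine ⟨by rw [ha]; ring, by rw [ha]; ring, by rw [hc]; ring, ?_⟩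
      rw [hc]; linear_combination hdet

/-- The square of `C`, of weight two, invariant under `±Γ(N)`. -/
theorem sq_slash {γ : SL(2, ℤ)} (hγ : γ ∈ sgnGamma B.N) :
    (B.C * B.C) ∣[(2 : ℤ)] γ = B.C * B.C := by
  rw [show (2 : ℤ) = 1 + 1 by norm_num, ModularForm.mul_slash_SL2]
  rcases hγ with hγ | hγ
  · rw [B.C_slash γ hγ]
  · have h1 := slash_one_neg B.C γ
    rw [B.C_slash _ hγ] at h1
    rw [show B.C ∣[(1 : ℤ)] γ = -B.C from (neg_eq_iff_eq_neg.1 h1.symm), neg_mul_neg]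

/-- The product of the squares of all conjugates of `C`. -/
def norm2 : ℍ → ℂ :=
  ∏ q : SL(2, ℤ) ⧸ sgnGamma B.N, (B.C * B.C) ∣[(2 : ℤ)] (q.out⁻¹ : SL(2, ℤ))

theorem norm2_slash (γ : SL(2, ℤ)) :
    B.norm2 ∣[(Nat.card (SL(2, ℤ) ⧸ sgnGamma B.N) : ℤ) * 2] γ = B.norm2 := by
  rw [Nat.card_eq_fintype_card, ← Finset.card_univ, norm2, MFCore.prod_slash_SL]
  let σ : SL(2, ℤ) ⧸ sgnGamma B.N ≃ SL(2, ℤ) ⧸ sgnGamma B.N := MulAction.toPerm γ⁻¹
  conv_rhs => rw [← σ.prod_comp]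
  refine Finset.prod_congr rfl fun q _ => ?_
  rw [← SlashAction.slash_mul]
  have h1 : (q.out⁻¹ * γ) * (σ q).out ∈ sgnGamma B.N := by
    have h2 : (QuotientGroup.mk (γ⁻¹ * q.out) : SL(2, ℤ) ⧸ sgnGamma B.N)
        = QuotientGroup.mk (σ q).out := by
      rw [QuotientGroup.out_eq']
      show _ = γ⁻¹ • q
      conv_rhs => rw [← QuotientGroup.out_eq' q]
      rfl
    rw [QuotientGroup.eq, mul_inv_rev, inv_inv] at h2
    exact h2
  conv_lhs => rw [show q.out⁻¹ * γ = ((q.out⁻¹ * γ) * (σ q).out) * (σ q).out⁻¹ by group,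
    SlashAction.slash_mul, B.sq_slash h1]

/-- The factor of the trivial coset makes `norm2` vanish where `C` does. -/
theorem slash_zero_of_C_zero {τ : ℍ} (h0 : B.C τ = 0) : B.norm2 τ = 0 := by
  set q : SL(2, ℤ) ⧸ sgnGamma B.N := Connected.one _
  rw [norm2, Finset.prod_apply]
  refine Finset.prod_eq_zero (Finset.mem_univ q) ?_
  rw [B.sq_slash (inv_mem (out_one_mem B.N)), Pi.mul_apply, h0, mul_zero]

theorem qExpand_powerSeries {R : Type*} [CommRing R] (k : ℕ) [NeZero k] (P : PowerSeries R) :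
    qExpand R k (HahnSeries.ofPowerSeries ℤ R P)
      = HahnSeries.ofPowerSeries ℤ R (P.expand k (NeZero.ne k)) := by
  ext n
  have hk : (0 : ℤ) < k := by exact_mod_cast NeZero.pos k
  by_cases hd : (k : ℤ) ∣ n
  · obtain ⟨m, rfl⟩ := hd
    rw [qExpand_coeff_mul]
    rcases lt_or_ge m 0 with hm | hm
    · rw [ofPowerSeries_coeff_of_neg _ hm,
        ofPowerSeries_coeff_of_neg _ (mul_neg_of_pos_of_neg hk hm)]
    · lift m to ℕ using hm
      rw [← Nat.cast_mul, HahnSeries.ofPowerSeries_apply_coeff,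
        HahnSeries.ofPowerSeries_apply_coeff, PowerSeries.coeff_expand_mul]
  · rw [qExpand_coeff_of_not_dvd _ _ hd]
    rcases lt_or_ge n 0 with hn | hn
    · rw [ofPowerSeries_coeff_of_neg _ hn]
    · lift n to ℕ using hn
      rw [HahnSeries.ofPowerSeries_apply_coeff, PowerSeries.coeff_expand_of_not_dvd]
      exact fun h' => hd (Int.natCast_dvd_natCast.2 h')

theorem hasExp_deltaInv_level :
    HasExp h (fun τ => (Δf τ)⁻¹)
      (HahnSeries.single (-(h : ℤ)) 1 * HahnSeries.ofPowerSeries ℤ ℂ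
        ((dedekindEtaUnitInv.map (Int.castRingHom ℂ)).expand h (NeZero.ne h))) := by
  have := hasExp_expand (h := h) Igusa.hasExp_deltaInv h (one_mul h)
  rwa [Igusa.deltaInvR, map_mul, qExpand_single, mul_neg, mul_one, qExpand_powerSeries] at this

/-- `C` has no zero on the upper half plane. -/
theorem C_ne_zero (τ : ℍ) : B.C τ ≠ 0 := by
  classical
  intro h0
  set G : SL(2, ℤ) ⧸ sgnGamma B.N → PowerSeries O := fun q =>
    B.cS q.out⁻¹ * B.cS q.out⁻¹ with hG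
  have hmem : (B.norm2, HahnSeries.ofPowerSeries ℤ O (∏ q, G q)) ∈ QSR h ι := by
    have h1 : ∏ q, ((((B.C * B.C) ∣[(2 : ℤ)] (q.out⁻¹ : SL(2, ℤ))),
        HahnSeries.ofPowerSeries ℤ O (G q)) : (ℍ → ℂ) × LaurentSeries O) ∈ QSR h ι :=
      prod_mem fun q _ => by
        rw [hG, map_mul, show (2 : ℤ) = 1 + 1 by norm_num, ModularForm.mul_slash_SL2]
        exact mul_mem (B.cS_spec q.out⁻¹) (B.cS_spec q.out⁻¹)
    convert h1 using 1
    refine Prod.ext ?_ ?_
    · rw [Prod.fst_prod]; rfl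
    · rw [Prod.snd_prod, map_prod]
  have hne : ∀ q, G q ≠ 0 := by
    intro q
    suffices B.cS q.out⁻¹ ≠ 0 from mul_ne_zero this this
    intro hz
    by_cases hd : (B.N : ℤ) ∣ (q.out⁻¹ : SL(2, ℤ)) 1 0
    · exact not_isUnit_zero (M₀ := O) (by simpa [hz] using B.cS_lead _ hd)
    · exact not_isUnit_zero (M₀ := O) (by simpa [hz] using B.cS_const _ hd)
  -- the orbit of infinity
  set o : Fin B.N → SL(2, ℤ) ⧸ sgnGamma B.N := fun i =>
    (ModularGroup.T ^ (i.val : ℤ) : SL(2, ℤ)) • Connected.one _ with ho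
  have hinj : Function.Injective o := by
    intro i j hij
    have h1 : (QuotientGroup.mk ((ModularGroup.T ^ (i.val : ℤ) : SL(2, ℤ)) * 1) :
        SL(2, ℤ) ⧸ sgnGamma B.N) =
          QuotientGroup.mk ((ModularGroup.T ^ (j.val : ℤ) : SL(2, ℤ)) * 1) :=
      hij
    rw [mul_one, mul_one, QuotientGroup.eq, ← zpow_neg, ← zpow_add] at h1
    rcases h1 with h1 | h1
    · have h2 := (CongruenceSubgroup.Gamma_mem.1 h1).2.1
      rw [ModularGroup.coe_T_zpow] at h2
      simp only [Matrix.of_apply, Matrix.cons_val_one, Matrix.cons_val_zero] at h2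
      push_cast at h2
      rw [neg_add_eq_zero, ZMod.natCast_eq_natCast_iff'] at h2
      rw [Nat.mod_eq_of_lt i.isLt, Nat.mod_eq_of_lt j.isLt] at h2
      exact Fin.ext h2
    · exfalso
      have h2 := (CongruenceSubgroup.Gamma_mem.1 h1).1
      rw [Matrix.SpecialLinearGroup.coe_neg, Matrix.neg_apply, ModularGroup.coe_T_zpow] at h2
      simp only [Matrix.of_apply, Matrix.cons_val_zero] at h2
      rcases B.hN with h' | h' <;> rw [h'] at h2 <;> revert h2 <;> decide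
  have hdvd : (PowerSeries.X : PowerSeries O) ^ (2 * B.d * h) ∣ ∏ q, G q := by
    have h1 : ∀ i, (PowerSeries.X : PowerSeries O) ^ (2 * (B.d * B.e)) ∣ G (o i) := by
      intro i
      have horb := (B.mem_orbit_iff (o i)).1 ⟨i.val, rfl⟩
      have h2 : (PowerSeries.X : PowerSeries O) ^ (B.d * B.e) ∣ B.cS (o i).out⁻¹ :=
        PowerSeries.X_pow_dvd_iff.2 (B.cS_low _ horb)
      rw [two_mul, pow_add]
      exact mul_dvd_mul h2 h2
    refine Dvd.dvd.trans ?_ (Finset.prod_dvd_prod_of_subset (Finset.univ.map ⟨o, hinj⟩) _ G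
      (Finset.subset_univ _))
    rw [Finset.prod_map]
    refine Dvd.dvd.trans ?_ (Finset.prod_dvd_prod_of_dvd _ _ fun i _ => h1 i)
    rw [Finset.prod_const, Finset.card_univ, Fintype.card_fin, ← pow_mul]
    refine pow_dvd_pow _ (le_of_eq ?_)
    calc 2 * B.d * h = 2 * B.d * (B.e * B.N) := by rw [B.e_mul]
      _ = 2 * (B.d * B.e) * B.N := by ring
  obtain ⟨R, hR⟩ := hdvd
  have hR0 : R ≠ 0 := fun h' => by
    rw [h', mul_zero, Finset.prod_eq_zero_iff] at hR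
    obtain ⟨q, -, hq⟩ := hR
    exact hne q hq
  -- the level one quotient
  set F : ℍ → ℂ := fun τ => B.norm2 τ * ((Δf τ)⁻¹) ^ (2 * B.d) with hF
  have hexp : HasExp h F (HahnSeries.ofPowerSeries ℤ ℂ
      (R.map ι *
        ((dedekindEtaUnitInv.map (Int.castRingHom ℂ)).expand h (NeZero.ne h)) ^ (2 * B.d))) := by
    have h1 := mem_QSR.1 hmem
    have e : (∏ q, G q).map ι = PowerSeries.X ^ (2 * B.d * h) * R.map ι := by
      rw [hR, map_mul, map_pow, PowerSeries.map_X]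
    rw [coeffMap_ofPowerSeries, e, map_mul, map_pow,
      HahnSeries.ofPowerSeries_X, HahnSeries.single_pow, one_pow, nsmul_one] at h1
    have h2 : ((fun τ => ((Δf τ)⁻¹) ^ (2 * B.d)), (HahnSeries.single (-(h : ℤ)) 1 *
        HahnSeries.ofPowerSeries ℤ ℂ
          ((dedekindEtaUnitInv.map (Int.castRingHom ℂ)).expand h (NeZero.ne h))) ^ (2 * B.d))
        ∈ Igusa.QS h := by
      have := pow_mem (Igusa.mem_QS.2 (hasExp_deltaInv_level (h := h)) :
        ((fun τ => (Δf τ)⁻¹), _) ∈ Igusa.QS h) (2 * B.d)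
      exact this
    have h3 := h1.mul (Igusa.mem_QS.1 h2)
    simp only at h3
    convert h3 using 1
    · rfl
    rw [mul_pow, HahnSeries.single_pow, one_pow, mul_mul_mul_comm, HahnSeries.single_mul_single,
      map_mul, map_pow]
    have hz : ((2 * B.d * h : ℕ) : ℤ) + (2 * B.d) • (-(h : ℤ)) = 0 := by
      rw [nsmul_eq_mul]; push_cast; ring
    rw [hz, mul_one, ← HahnSeries.C_apply, map_one, one_mul]
  set w : ℤ := (Nat.card (SL(2, ℤ) ⧸ sgnGamma B.N) : ℤ) * 2 - 24 * B.d with hw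
  have hlev : MFCore.IsLevelOne w F := by
    refine ⟨hexp.1, fun γ => ?_, hexp.isBoundedAtImInfty fun n hn => ?_⟩
    · funext τ
      have h1 := congrFun (B.norm2_slash γ) τ
      rw [ModularForm.SL_slash_apply] at h1 ⊢
      have hden := UpperHalfPlane.denom_ne_zero ((γ : SL(2, ℤ)) : GL (Fin 2) ℝ) τ
      simp only [hF, Igusa.discriminant_smul]
      rw [← h1, hw]
      generalize (Nat.card (SL(2, ℤ) ⧸ sgnGamma B.N) : ℤ) * 2 = K
      rw [mul_inv, mul_pow, ← inv_pow, ← pow_mul, ← zpow_natCast, inv_zpow', zpow_neg,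
        zpow_neg, zpow_neg, zpow_sub₀ hden]
      push_cast
      rw [show (12 : ℤ) * (2 * (B.d : ℤ)) = 24 * B.d by ring]
      field_simp
    · rw [ofPowerSeries_coeff_of_neg _ hn]
  have hne0 : F ≠ 0 := by
    intro hz
    rw [hz] at hexp
    have := hexp.eq_zero
    rw [map_eq_zero_iff _ HahnSeries.ofPowerSeries_injective, mul_eq_zero] at this
    rcases this with h' | h'
    · exact hR0 (PowerSeries.map_injective ι B.ι_injective (h'.trans (map_zero _).symm))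
    · exact absurd (pow_eq_zero_iff'.1 h').1 (fun h'' => by
        have := congrArg PowerSeries.constantCoeff h''
        rw [PowerSeries.constantCoeff_expand, map_zero,
          ← PowerSeries.coeff_zero_eq_constantCoeff_apply,
          PowerSeries.coeff_map, PowerSeries.coeff_zero_eq_constantCoeff_apply,
          constantCoeff_dedekindEtaUnitInv, map_one] at this
        exact one_ne_zero this)
  have hw0 : w ≤ 0 := by
    have := B.card_le
    rw [hw]
    have : (Nat.card (SL(2, ℤ) ⧸ sgnGamma B.N) : ℤ) ≤ 12 * B.d := by exact_mod_cast this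
    linarith
  rcases hw0.lt_or_eq with hneg | hzero
  · exact hne0 (ModularFormClass.levelOne_neg_weight_eq_zero hneg hlev.toModularForm)
  · rw [hzero] at hlev
    obtain ⟨c, hc⟩ := ModularFormClass.levelOne_weight_zero_const hlev.toModularForm
    rw [MFCore.IsLevelOne.coe_toModularForm] at hc
    refine hne0 ?_
    have hc0 : c = 0 := by
      have := congrFun hc τ
      simp only [hF, B.slash_zero_of_C_zero h0, zero_mul, Function.const_apply] at this
      exact this.symm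
    rw [hc, hc0]
    rfl

section Hauptmodul

/-- The order of `C` at the cusp of `γ`, in `exp (2πiτ/h)`. -/
def ordC (γ : SL(2, ℤ)) : ℕ := if (B.N : ℤ) ∣ γ 1 0 then B.d * B.e else 0

theorem exists_cR (γ : SL(2, ℤ)) : ∃ R : PowerSeries O,
    B.cS γ * R = PowerSeries.X ^ B.ordC γ ∧ IsUnit (PowerSeries.constantCoeff R) := by
  have key : (∀ n < B.ordC γ, (B.cS γ).coeff n = 0) ∧ IsUnit ((B.cS γ).coeff (B.ordC γ)) := by
    rw [ordC]
    split_ifs with hd
    · exact ⟨B.cS_low γ hd, B.cS_lead γ hd⟩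
    · exact ⟨fun n hn => absurd hn (Nat.not_lt_zero n), B.cS_const γ hd⟩
  obtain ⟨P, hP⟩ := PowerSeries.X_pow_dvd_iff.2 key.1
  have hu : IsUnit (PowerSeries.constantCoeff P) := by
    have h2 := key.2
    rwa [hP, PowerSeries.coeff_X_pow_mul', if_pos le_rfl, Nat.sub_self,
      PowerSeries.coeff_zero_eq_constantCoeff_apply] at h2
  obtain ⟨R, hR⟩ := (PowerSeries.isUnit_iff_constantCoeff.2 hu).exists_right_inv
  refine ⟨R, by rw [hP, mul_assoc, hR, mul_one], ?_⟩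
  have h3 := congrArg PowerSeries.constantCoeff hR
  rw [map_mul, map_one] at h3
  exact IsUnit.of_mul_eq_one _ (by rw [mul_comm]; exact h3)

/-- The unit part of `1 / C`. -/
def cR (γ : SL(2, ℤ)) : PowerSeries O := (B.exists_cR γ).choose

/-- The expansion of `1 / C`. -/
def cinv (γ : SL(2, ℤ)) : LaurentSeries O :=
  HahnSeries.single (-(B.ordC γ : ℤ)) 1 * HahnSeries.ofPowerSeries ℤ O (B.cR γ)

theorem cS_mul_cinv (γ : SL(2, ℤ)) :
    HahnSeries.ofPowerSeries ℤ O (B.cS γ) * B.cinv γ = 1 := by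
  rw [cinv, cR, mul_left_comm, ← map_mul, (B.exists_cR γ).choose_spec.1, map_pow,
    HahnSeries.ofPowerSeries_X, HahnSeries.single_pow, one_pow, HahnSeries.single_mul_single,
    nsmul_one, neg_add_cancel, mul_one]
  rfl

theorem cinv_spec (γ : SL(2, ℤ)) :
    ((fun τ => ((B.C ∣[(1 : ℤ)] γ) τ)⁻¹), B.cinv γ) ∈ QSR h ι := by
  have h1 := mem_QSR.1 (B.cS_spec γ)
  simp only at h1
  have h2 := hasExp_inv h1 fun τ => ne_zero_of_slash γ B.C_ne_zero τ
  rw [mem_QSR]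
  convert h2 using 1
  refine eq_inv_of_mul_eq_one_right ?_
  rw [← map_mul, B.cS_mul_cinv, map_one]

variable (O h) in
/-- `Δ` in `exp (2πiτ/h)`. -/
def dS : LaurentSeries O := qExpand O h (Igusa.deltaR O)

variable (O h) in
/-- `1/Δ` in `exp (2πiτ/h)`. -/
def dInvS : LaurentSeries O := qExpand O h (Igusa.deltaInvR O)

omit [IsDomain O] in
theorem dS_spec : (Δf, dS O h) ∈ QSR h ι := by
  rw [mem_QSR, dS, coeffMap_qExpand, Igusa.coeffMap_deltaR]
  exact hasExp_expand Igusa.hasExp_delta h (one_mul h)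

omit [IsDomain O] in
theorem dInvS_spec : ((fun τ => (Δf τ)⁻¹), dInvS O h) ∈ QSR h ι := by
  rw [mem_QSR, dInvS, coeffMap_qExpand, Igusa.coeffMap_deltaInvR]
  exact hasExp_expand Igusa.hasExp_deltaInv h (one_mul h)

omit [IsDomain O] in
theorem dS_mul_dInvS : dS O h * dInvS O h = 1 := by
  rw [dS, dInvS, ← map_mul, Igusa.deltaR_mul_deltaInvR, map_one]

/-- The Hauptmodul. -/
def uFun : ℍ → ℂ := fun τ => B.A τ * (B.C τ)⁻¹

theorem apply_smul (F : ℍ → ℂ) (γ : SL(2, ℤ)) (τ : ℍ) :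
    F (γ • τ) = (F ∣[(1 : ℤ)] γ) τ * UpperHalfPlane.denom (γ : GL (Fin 2) ℝ) τ := by
  rw [ModularForm.SL_slash_apply, zpow_neg_one, mul_assoc,
    inv_mul_cancel₀ (UpperHalfPlane.denom_ne_zero _ _), mul_one]

theorem uFun_smul (γ : SL(2, ℤ)) (τ : ℍ) :
    B.uFun (γ • τ) = (B.A ∣[(1 : ℤ)] γ) τ * ((B.C ∣[(1 : ℤ)] γ) τ)⁻¹ := by
  rw [uFun, apply_smul B.A, apply_smul B.C]
  field_simp

/-- `±Γ(N)` acts on `C` and `A` by the same sign. -/
theorem slash_sign {γ : SL(2, ℤ)} (hγ : γ ∈ sgnGamma B.N) : ∃ s : ℂ, s ≠ 0 ∧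
    B.C ∣[(1 : ℤ)] γ = s • B.C ∧ B.A ∣[(1 : ℤ)] γ = s • B.A := by
  rcases hγ with hγ | hγ
  · exact ⟨1, one_ne_zero, by rw [B.C_slash γ hγ, one_smul], by rw [B.A_slash γ hγ, one_smul]⟩
  · refine ⟨-1, by norm_num, ?_, ?_⟩
    · have h1 := slash_one_neg B.C γ
      rw [B.C_slash _ hγ] at h1
      rw [neg_one_smul]
      exact neg_eq_iff_eq_neg.1 h1.symm
    · have h1 := slash_one_neg B.A γ
      rw [B.A_slash _ hγ] at h1
      rw [neg_one_smul]
      exact neg_eq_iff_eq_neg.1 h1.symm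

theorem uFun_inv : Inv (sgnGamma B.N) B.uFun := fun γ hγ τ => by
  obtain ⟨s, hs, hC, hA⟩ := B.slash_sign hγ
  rw [B.uFun_smul, hC, hA, uFun]
  simp only [Pi.smul_apply, smul_eq_mul]
  field_simp

/-- The expansions of the Hauptmodul. -/
def uSer (q : SL(2, ℤ) ⧸ sgnGamma B.N) : LaurentSeries O :=
  HahnSeries.ofPowerSeries ℤ O (B.aS q.out⁻¹) * B.cinv q.out⁻¹

theorem uSer_mem : B.uSer ∈ fRing (sgnGamma B.N) h ι := by
  refine ⟨B.uFun, B.uFun_inv, fun q => ?_⟩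
  have e : tr B.uFun q = B.A ∣[(1 : ℤ)] (q.out⁻¹ : SL(2, ℤ)) *
      fun τ => ((B.C ∣[(1 : ℤ)] (q.out⁻¹ : SL(2, ℤ))) τ)⁻¹ :=
    funext fun τ => B.uFun_smul _ τ
  rw [e]
  exact mul_mem (B.aS_spec q.out⁻¹) (B.cinv_spec q.out⁻¹)

omit [IsDomain O] in
theorem poleBound_ofPowerSeries (P : PowerSeries O) :
    PoleBound 0 (HahnSeries.ofPowerSeries ℤ O P) :=
  fun n hn => ofPowerSeries_coeff_of_neg _ (by simpa using hn)

theorem cinv_of_notMem {q : SL(2, ℤ) ⧸ sgnGamma B.N} (hq : q ∉ cuspOrbit (sgnGamma B.N)) :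
    B.cinv q.out⁻¹ = HahnSeries.ofPowerSeries ℤ O (B.cR q.out⁻¹) := by
  rw [cinv, ordC, if_neg fun hd => hq ((B.mem_orbit_iff q).2 hd), Nat.cast_zero, neg_zero]
  simp

theorem ordC_one : B.ordC (Connected.one (sgnGamma B.N)).out⁻¹ = B.d * B.e :=
  if_pos (dvd_of_mem (inv_mem (out_one_mem B.N)))

theorem lead_exp : (((B.d - 1) * B.e : ℕ) : ℤ) + -((B.d * B.e : ℕ) : ℤ) = -(B.e : ℤ) := by
  have := B.d_pos
  rw [Nat.cast_mul, Nat.cast_mul, Nat.cast_sub (by omega), Nat.cast_one]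
  ring

/-- The data of the Hauptmodul. -/
def hauptU : HauptU O h ι where
  ι_injective := B.ι_injective
  zeta := B.zeta
  zeta_spec := B.zeta_spec
  Γb := sgnGamma B.N
  finite := inferInstance
  e := B.e
  period := B.N
  e_mul_period := B.e_mul
  period_mem := Or.inl <| by
    rw [CongruenceSubgroup.Gamma_mem, ModularGroup.coe_T_zpow]
    simp
  uS := B.uSer
  uS_mem := B.uSer_mem
  u_pole := fun n hn => by
    obtain ⟨P, hP⟩ := PowerSeries.X_pow_dvd_iff.2 (B.aS_low _ (dvd_of_mem (inv_mem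
      (out_one_mem B.N))))
    rw [uSer, cinv, hP, map_mul, map_pow, HahnSeries.ofPowerSeries_X, HahnSeries.single_pow,
      one_pow, nsmul_one, mul_mul_mul_comm, HahnSeries.single_mul_single, one_mul, ← map_mul,
      HahnSeries.coeff_single_mul, one_mul, ofPowerSeries_coeff_of_neg]
    rw [B.ordC_one, B.lead_exp]
    omega
  u_lead := by
    obtain ⟨P, hP⟩ := PowerSeries.X_pow_dvd_iff.2 (B.aS_low _ (dvd_of_mem (inv_mem
      (out_one_mem B.N))))
    have hu := B.aS_lead _ (dvd_of_mem (inv_mem (out_one_mem B.N)))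
    rw [hP, PowerSeries.coeff_X_pow_mul', if_pos le_rfl, Nat.sub_self] at hu
    rw [uSer, cinv, hP, map_mul, map_pow, HahnSeries.ofPowerSeries_X, HahnSeries.single_pow,
      one_pow, nsmul_one, mul_mul_mul_comm, HahnSeries.single_mul_single, one_mul, ← map_mul,
      HahnSeries.coeff_single_mul, one_mul, B.ordC_one, B.lead_exp, sub_self,
      show (0 : ℤ) = ((0 : ℕ) : ℤ) from rfl, HahnSeries.ofPowerSeries_apply_coeff,
      PowerSeries.coeff_zero_eq_constantCoeff_apply, map_mul]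
    rw [PowerSeries.coeff_zero_eq_constantCoeff_apply] at hu
    exact hu.mul (B.exists_cR _).choose_spec.2
  u_bdd := fun q hq => by
    rw [uSer, B.cinv_of_notMem hq, ← map_mul]
    exact poleBound_ofPowerSeries _

/-- `Δ / C¹²`. -/
def tFun : ℍ → ℂ := fun τ => Δf τ * ((B.C τ)⁻¹) ^ 12

/-- `C¹² / Δ`. -/
def wFun : ℍ → ℂ := fun τ => (B.C τ) ^ 12 * (Δf τ)⁻¹

theorem tFun_smul (γ : SL(2, ℤ)) (τ : ℍ) :
    B.tFun (γ • τ) = Δf τ * (((B.C ∣[(1 : ℤ)] γ) τ)⁻¹) ^ 12 := by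
  rw [tFun, apply_smul B.C, Igusa.discriminant_smul]
  field_simp

theorem wFun_smul (γ : SL(2, ℤ)) (τ : ℍ) :
    B.wFun (γ • τ) = ((B.C ∣[(1 : ℤ)] γ) τ) ^ 12 * (Δf τ)⁻¹ := by
  rw [wFun, apply_smul B.C, Igusa.discriminant_smul]
  field_simp

theorem wFun_inv : Inv (sgnGamma B.N) B.wFun := fun γ hγ τ => by
  have h2 := congrFun (B.sq_slash hγ) τ
  rw [show (2 : ℤ) = 1 + 1 by norm_num, ModularForm.mul_slash_SL2, Pi.mul_apply,
    Pi.mul_apply] at h2
  rw [B.wFun_smul, wFun, show 12 = 2 * 6 by norm_num, pow_mul, pow_mul, sq, sq, h2]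

theorem tFun_inv : Inv (sgnGamma B.N) B.tFun := fun γ hγ τ => by
  have h2 := congrFun (B.sq_slash hγ) τ
  rw [show (2 : ℤ) = 1 + 1 by norm_num, ModularForm.mul_slash_SL2, Pi.mul_apply,
    Pi.mul_apply] at h2
  rw [B.tFun_smul, tFun, show 12 = 2 * 6 by norm_num, pow_mul, pow_mul, sq, sq, ← mul_inv,
    ← mul_inv, h2]

/-- The expansions of `Δ / C¹²`. -/
def tSer (q : SL(2, ℤ) ⧸ sgnGamma B.N) : LaurentSeries O := dS O h * B.cinv q.out⁻¹ ^ 12

/-- The expansions of `C¹² / Δ`. -/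
def wSer (q : SL(2, ℤ) ⧸ sgnGamma B.N) : LaurentSeries O :=
  HahnSeries.ofPowerSeries ℤ O (B.cS q.out⁻¹) ^ 12 * dInvS O h

theorem tSer_mem : B.tSer ∈ fRing (sgnGamma B.N) h ι := by
  refine ⟨B.tFun, B.tFun_inv, fun q => ?_⟩
  have e : tr B.tFun q =
      Δf * (fun τ => ((B.C ∣[(1 : ℤ)] (q.out⁻¹ : SL(2, ℤ))) τ)⁻¹) ^ 12 :=
    funext fun τ => B.tFun_smul _ τ
  rw [e]
  exact mul_mem dS_spec (pow_mem (B.cinv_spec q.out⁻¹) 12)

theorem wSer_mem : B.wSer ∈ fRing (sgnGamma B.N) h ι := by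
  refine ⟨B.wFun, B.wFun_inv, fun q => ?_⟩
  have e : tr B.wFun q =
      (B.C ∣[(1 : ℤ)] (q.out⁻¹ : SL(2, ℤ))) ^ 12 * fun τ => (Δf τ)⁻¹ :=
    funext fun τ => B.wFun_smul _ τ
  rw [e]
  exact mul_mem (pow_mem (B.cS_spec q.out⁻¹) 12) dInvS_spec

theorem wSer_mul_tSer (q : SL(2, ℤ) ⧸ sgnGamma B.N) : B.wSer q * B.tSer q = 1 := by
  calc B.wSer q * B.tSer q
      = (HahnSeries.ofPowerSeries ℤ O (B.cS q.out⁻¹) * B.cinv q.out⁻¹) ^ 12
          * (dS O h * dInvS O h) := by rw [wSer, tSer]; ring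
    _ = 1 := by rw [B.cS_mul_cinv, dS_mul_dInvS, one_pow, one_mul]

theorem tSer_pos {q : SL(2, ℤ) ⧸ sgnGamma B.N} (hq : q ∉ cuspOrbit (sgnGamma B.N)) :
    ∀ n : ℤ, n < 1 → (B.tSer q).coeff n = 0 := fun n hn => by
  rw [tSer, dS, Igusa.deltaR, map_mul, qExpand_single, qExpand_powerSeries, B.cinv_of_notMem hq,
    ← map_pow, mul_assoc, ← map_mul, mul_one, HahnSeries.coeff_single_mul,
    ofPowerSeries_coeff_of_neg, mul_zero]
  have := NeZero.pos h
  omega

theorem exists_Q : ∃ Q : Polynomial O,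
    B.tSer (Connected.one (sgnGamma B.N)) =
      Q.eval₂ (HahnSeries.C (Γ := ℤ)) (B.uSer (Connected.one (sgnGamma B.N))) := by
  obtain ⟨Q, hQ⟩ := B.hauptU.exists_poly_of_bdd B.tSer_mem
    fun q hq n hn => B.tSer_pos hq n (by simpa using hn.trans (by norm_num))
  exact ⟨Q, hQ⟩

theorem tSer_eq (q : SL(2, ℤ) ⧸ sgnGamma B.N) :
    B.tSer q = B.exists_Q.choose.eval₂ (HahnSeries.C (Γ := ℤ)) (B.uSer q) := by
  have h1 := sub_mem B.tSer_mem (B.hauptU.eval_uS_mem B.exists_Q.choose)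
  have h2 := Connected.fRing_inj B.ι_injective h1 (Connected.one _)
    (sub_eq_zero.2 B.exists_Q.choose_spec)
  exact sub_eq_zero.1 (congrFun h2 q)

/-- **The data `Haupt`** attached to `C` and `A`. -/
def haupt : Haupt O h ι where
  toHauptU := B.hauptU
  wS := B.wSer
  wS_mem := B.wSer_mem
  Q := B.exists_Q.choose
  wS_mul := by
    show B.wSer _ * _ = 1
    exact (congrArg (_ * ·) (B.tSer_eq _)).symm.trans (B.wSer_mul_tSer _)
  Q_pos := fun q hq => by
    exact (congrArg (fun x : LaurentSeries O => x.coeff 0) (B.tSer_eq q)).symm.trans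
      (B.tSer_pos hq 0 one_pos)

end Hauptmodul

end BaseForms

end Fermat.Agent.LevelM
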