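import Mathlib

/-!
# The normalised Weierstrass zeta function as a cotangent series

`ell z τ = 1/2 - 1/(1-x) - ∑_{n ≥ 1} (qⁿx/(1-qⁿx) - qⁿ/x/(1-qⁿ/x))` with `x = exp (2πiz)`,
`q = exp (2πiτ)`. It is odd, `ell (z+1) = ell z`, `ell (z+τ) = ell z - 1` and
`ell (z/τ) (-1/τ) = τ * ell z τ + z` off the lattice.
-/

set_option autoImplicit false

noncomputable section

open Complex Filter Topology Set
open UpperHalfPlane hiding I

namespace Fermat.Agent.LevelM

/-- `exp (2πiz)`. -/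
def ex (z : ℂ) : ℂ := Complex.exp (2 * Real.pi * I * z)

theorem ex_add (z w : ℂ) : ex (z + w) = ex z * ex w := by
  rw [ex, ex, ex, mul_add, Complex.exp_add]

theorem ex_ne_zero (z : ℂ) : ex z ≠ 0 := Complex.exp_ne_zero _

theorem ex_neg (z : ℂ) : ex (-z) = (ex z)⁻¹ := by rw [ex, ex, mul_neg, Complex.exp_neg]

@[simp] theorem ex_intCast (n : ℤ) : ex n = 1 := by
  rw [ex, mul_comm]
  exact Complex.exp_int_mul_two_pi_mul_I n

@[simp] theorem ex_zero : ex 0 = 1 := by simpa using ex_intCast 0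

@[simp] theorem ex_one : ex 1 = 1 := by simpa using ex_intCast 1

theorem ex_add_intCast (z : ℂ) (n : ℤ) : ex (z + n) = ex z := by rw [ex_add, ex_intCast, mul_one]

theorem ex_natCast_mul (n : ℕ) (z : ℂ) : ex (n * z) = ex z ^ n := by
  rw [ex, ex, ← Complex.exp_nat_mul]
  congr 1
  ring

theorem ex_eq_one_iff {z : ℂ} : ex z = 1 ↔ ∃ n : ℤ, z = n := by
  rw [ex, Complex.exp_eq_one_iff]
  have h : (2 : ℂ) * Real.pi * I ≠ 0 := by simp [Real.pi_ne_zero, I_ne_zero]
  constructor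
  · rintro ⟨n, hn⟩
    exact ⟨n, mul_left_cancel₀ h (by rw [hn]; ring)⟩
  · rintro ⟨n, rfl⟩
    exact ⟨n, by ring⟩

theorem norm_ex (z : ℂ) : ‖ex z‖ = Real.exp (-2 * Real.pi * z.im) := by
  rw [ex, Complex.norm_exp]
  congr 1
  simp

theorem differentiable_ex : Differentiable ℂ ex := by unfold ex; fun_prop

/-- `y/(1-y)`. -/
def rat1 (y : ℂ) : ℂ := y / (1 - y)

theorem norm_rat1_le {y : ℂ} (hy : ‖y‖ ≤ 1 / 2) : ‖rat1 y‖ ≤ 2 * ‖y‖ := by
  rw [rat1, norm_div]
  have h : 1 / 2 ≤ ‖(1 : ℂ) - y‖ := by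
    have := norm_sub_norm_le (1 : ℂ) y
    rw [norm_one] at this
    linarith
  rw [div_le_iff₀ (by linarith)]
  nlinarith [norm_nonneg y]

theorem rat1_inv {y : ℂ} (h0 : y ≠ 0) (h1 : y ≠ 1) : rat1 y⁻¹ = -1 - rat1 y := by
  rw [rat1, rat1]
  field_simp
  ring

variable {τ : ℂ} (hτ : 0 < τ.im)

/-- The tail term. -/
def term (τ z : ℂ) (n : ℕ) : ℂ := rat1 (ex ((n + 1) * τ + z))

include hτ in
/-- Locally in `z`, the tail terms are dominated by a summable sequence. -/
theorem exists_bound (τ₀ z₀ : ℂ) (hτ₀ : τ₀ = τ) :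
    ∃ (n₀ : ℕ) (u : ℕ → ℝ), Summable u ∧ ∀ n, ∀ z ∈ Metric.ball z₀ 1,
      ‖ex (((n + n₀ : ℕ) + 1) * τ + z)‖ ≤ 1 / 2 ∧ ‖term τ z (n + n₀)‖ ≤ u n := by
  subst hτ₀
  set ρ := Real.exp (-2 * Real.pi * τ₀.im) with hρ
  have hρ0 : 0 ≤ ρ := (Real.exp_pos _).le
  have hρ1 : ρ < 1 := by
    rw [hρ, Real.exp_lt_one_iff]
    nlinarith [Real.pi_pos]
  set C := Real.exp (2 * Real.pi * (|z₀.im| + 1)) with hC
  have hC0 : 0 < C := Real.exp_pos _
  have hbd : ∀ (m : ℕ), ∀ z ∈ Metric.ball z₀ 1,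
      ‖ex ((m + 1) * τ₀ + z)‖ ≤ C * ρ ^ (m + 1) := by
    intro m z hz
    rw [norm_ex, hC, hρ, ← Real.exp_nat_mul, ← Real.exp_add, Real.exp_le_exp]
    have h1 : |z.im - z₀.im| ≤ 1 := by
      rw [← Complex.sub_im]
      exact (Complex.abs_im_le_norm _).trans (le_of_lt (by simpa [dist_eq_norm] using hz))
    have h2 : -z.im ≤ |z₀.im| + 1 := by
      have := abs_le.1 h1
      have := neg_abs_le z₀.im
      linarith
    have h3 : ((((m : ℂ) + 1) * τ₀ + z)).im = ((m : ℝ) + 1) * τ₀.im + z.im := by simp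
    rw [h3]
    push_cast
    nlinarith [Real.pi_pos, mul_le_mul_of_nonneg_left h2 Real.pi_pos.le]
  obtain ⟨n₀, hn₀⟩ := exists_pow_lt_of_lt_one (show (0 : ℝ) < 1 / (2 * C) by positivity) hρ1
  refine ⟨n₀, fun n => 2 * C * ρ ^ n,
    (summable_geometric_of_lt_one hρ0 hρ1).mul_left _, fun n z hz => ?_⟩
  have h := hbd (n + n₀) z hz
  have hle : C * ρ ^ (n + n₀ + 1) ≤ 1 / 2 := by
    have h1 : ρ ^ (n + n₀ + 1) ≤ ρ ^ n₀ := pow_le_pow_of_le_one hρ0 hρ1.le (by omega)
    calc C * ρ ^ (n + n₀ + 1) ≤ C * (1 / (2 * C)) :=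
          mul_le_mul_of_nonneg_left (h1.trans hn₀.le) hC0.le
      _ = 1 / 2 := by field_simp
  refine ⟨h.trans hle, ?_⟩
  calc ‖term τ₀ z (n + n₀)‖ ≤ 2 * ‖ex (((n + n₀ : ℕ) + 1) * τ₀ + z)‖ :=
        norm_rat1_le (h.trans hle)
    _ ≤ 2 * (C * ρ ^ (n + n₀ + 1)) := by linarith
    _ ≤ 2 * C * ρ ^ n := by
        have h1 : ρ ^ (n + n₀ + 1) ≤ ρ ^ n := pow_le_pow_of_le_one hρ0 hρ1.le (by omega)
        nlinarith

include hτ in
theorem summable_term (z : ℂ) : Summable (term τ z) := by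
  obtain ⟨n₀, u, hu, h⟩ := exists_bound hτ τ z rfl
  rw [← summable_nat_add_iff n₀]
  exact Summable.of_norm_bounded hu fun n => (h n z (Metric.mem_ball_self one_pos)).2

/-- The tail sum. -/
def psum (τ z : ℂ) : ℂ := ∑' n, term τ z n

include hτ in
theorem psum_add_tau (z : ℂ) : psum τ z = rat1 (ex (τ + z)) + psum τ (z + τ) := by
  rw [psum, (summable_term hτ z).tsum_eq_zero_add, psum]
  congr 1
  · simp [term]
  · refine tsum_congr fun n => ?_
    simp only [term]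
    congr 2
    push_cast
    ring

theorem psum_add_intCast (z : ℂ) (m : ℤ) : psum τ (z + m) = psum τ z :=
  tsum_congr fun n => by rw [term, term, ← add_assoc, ex_add_intCast]

include hτ in
/-- The tail sum is holomorphic away from its poles. -/
theorem differentiableAt_psum {z₀ : ℂ} (h : ∀ n : ℕ, ex ((n + 1) * τ + z₀) ≠ 1) :
    DifferentiableAt ℂ (psum τ) z₀ := by
  obtain ⟨n₀, u, hu, hb⟩ := exists_bound hτ τ z₀ rfl
  have hd : ∀ (n : ℕ) (z : ℂ), ex ((n + 1) * τ + z) ≠ 1 →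
      DifferentiableAt ℂ (fun z => term τ z n) z := by
    intro n z hz
    simp only [term, rat1]
    have h1 : DifferentiableAt ℂ (fun z => ex ((n + 1) * τ + z)) z := by
      unfold ex; fun_prop
    exact h1.div ((differentiableAt_const _).sub h1) (sub_ne_zero.2 (Ne.symm hz))
  have htail : DifferentiableAt ℂ (fun z => ∑' n, term τ z (n + n₀)) z₀ := by
    refine (differentiableOn_tsum_of_summable_norm hu (fun n z hz => ?_) Metric.isOpen_ball
      fun n z hz => (hb n z hz).2).differentiableAt (Metric.ball_mem_nhds z₀ one_pos)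
    refine (hd _ z fun h1 => ?_).differentiableWithinAt
    have := (hb n z hz).1
    rw [h1, norm_one] at this
    norm_num at this
  have hhead : DifferentiableAt ℂ (fun z => ∑ n ∈ Finset.range n₀, term τ z n) z₀ :=
    DifferentiableAt.fun_sum fun n _ => hd n z₀ (h n)
  refine (hhead.add htail).congr_of_eventuallyEq (Eventually.of_forall fun z => ?_)
  exact ((summable_term hτ z).sum_add_tsum_nat_add n₀).symm

/-- The normalised Weierstrass zeta function. -/
def ell (z τ : ℂ) : ℂ := 1 / 2 - 1 / (1 - ex z) - (psum τ z - psum τ (-z))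

theorem ell_add_intCast (z : ℂ) (n : ℤ) : ell (z + n) τ = ell z τ := by
  have h2 := psum_add_intCast (τ := τ) (-z) (-n)
  push_cast at h2
  rw [ell, ell, ex_add_intCast, psum_add_intCast, neg_add, h2]

theorem ell_tau_add_one (z : ℂ) : ell z (τ + 1) = ell z τ := by
  have h : ∀ w, psum (τ + 1) w = psum τ w := fun w => tsum_congr fun n => by
    rw [term, term, show ((n : ℂ) + 1) * (τ + 1) + w = ((n + 1) * τ + w) + ((n + 1 : ℕ) : ℤ) by
      push_cast; ring, ex_add_intCast]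
  rw [ell, ell, h, h]

theorem ell_neg {z : ℂ} (hz : ex z ≠ 1) : ell (-z) τ = -ell z τ := by
  have h0 := ex_ne_zero z
  rw [ell, ell, neg_neg, ex_neg]
  have : 1 / (1 - (ex z)⁻¹) = 1 - 1 / (1 - ex z) := by
    field_simp
    ring
  rw [this]
  ring

include hτ in
/-- Quasi-periodicity of `ell` in the `τ` direction. -/
theorem ell_add_tau {z : ℂ} (hz : ex z ≠ 1) (hz' : ex (z + τ) ≠ 1) :
    ell (z + τ) τ = ell z τ - 1 := by
  have h1 := psum_add_tau hτ z
  have h2 := psum_add_tau hτ (-z - τ)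
  rw [show τ + (-z - τ) = -z by ring, show -z - τ + τ = -z by ring, ex_neg,
    rat1_inv (ex_ne_zero z) hz] at h2
  rw [ell, ell, show -(z + τ) = -z - τ by ring, h2, h1, ex_add, add_comm τ z, ex_add]
  rw [show rat1 (ex z) = 1 / (1 - ex z) - 1 by
    rw [rat1, div_sub_one (sub_ne_zero.2 (Ne.symm hz))]; ring]
  have h3 : ex z * ex τ ≠ 1 := by rwa [← ex_add]
  rw [show rat1 (ex z * ex τ) = 1 / (1 - ex z * ex τ) - 1 by
      rw [rat1, div_sub_one (sub_ne_zero.2 (Ne.symm h3))]; ring]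
  ring

/-- The points `a τ + b`. -/
def lat (τ : ℂ) : Set ℂ := {z | ∃ a b : ℤ, z = a * τ + b}

theorem ex_ne_one_of_notMem {z : ℂ} (hz : z ∉ lat τ) : ex z ≠ 1 := fun h => by
  obtain ⟨n, rfl⟩ := ex_eq_one_iff.1 h
  exact hz ⟨0, n, by simp⟩

theorem ex_term_ne_one {z : ℂ} (hz : z ∉ lat τ) (n : ℕ) : ex ((n + 1) * τ + z) ≠ 1 := fun h => by
  obtain ⟨m, hm⟩ := ex_eq_one_iff.1 h
  exact hz ⟨-(n + 1), m, by push_cast; linear_combination hm⟩

theorem neg_notMem {z : ℂ} (hz : z ∉ lat τ) : -z ∉ lat τ := by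
  rintro ⟨a, b, h⟩
  exact hz ⟨-a, -b, by push_cast; linear_combination -h⟩

theorem add_notMem {z : ℂ} (hz : z ∉ lat τ) (a b : ℤ) : z + (a * τ + b) ∉ lat τ := by
  rintro ⟨c, d, h⟩
  exact hz ⟨c - a, d - b, by push_cast; linear_combination h⟩

include hτ in
theorem differentiableAt_ell {z : ℂ} (hz : z ∉ lat τ) :
    DifferentiableAt ℂ (fun w => ell w τ) z := by
  unfold ell
  refine ((differentiableAt_const _).sub ?_).sub ?_
  · refine (differentiableAt_const _).div ((differentiableAt_const _).sub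
      differentiable_ex.differentiableAt) (sub_ne_zero.2 (Ne.symm (ex_ne_one_of_notMem hz)))
  · refine (differentiableAt_psum hτ (ex_term_ne_one hz)).sub ?_
    exact (differentiableAt_psum hτ (ex_term_ne_one (neg_notMem hz))).comp z (by fun_prop)

include hτ in
/-- `ell (z + aτ) τ = ell z τ - a` for every integer `a`, off the lattice. -/
theorem ell_add_intCast_mul_tau {z : ℂ} (hz : z ∉ lat τ) (a : ℤ) :
    ell (z + a * τ) τ = ell z τ - a := by
  induction a using Int.induction_on with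
  | zero => simp
  | succ a ih =>
    have h : ex (z + (a : ℤ) * τ) ≠ 1 :=
      ex_ne_one_of_notMem (by simpa using add_notMem hz a 0)
    have h' : ex (z + (a : ℤ) * τ + τ) ≠ 1 := ex_ne_one_of_notMem <| by
      have := add_notMem hz (a + 1) 0
      push_cast at this ⊢
      rwa [add_zero, add_mul, one_mul, ← add_assoc] at this
    rw [show z + ((a : ℤ) + 1 : ℤ) * τ = z + (a : ℤ) * τ + τ by push_cast; ring,
      ell_add_tau hτ h h', ih]
    push_cast
    ring
  | pred a ih =>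
    have h : ex (z + (-(a : ℤ) - 1 : ℤ) * τ) ≠ 1 :=
      ex_ne_one_of_notMem (by simpa using add_notMem hz (-(a : ℤ) - 1) 0)
    have h' : ex (z + (-(a : ℤ) - 1 : ℤ) * τ + τ) ≠ 1 := ex_ne_one_of_notMem <| by
      have := add_notMem hz (-(a : ℤ)) 0
      push_cast at this ⊢
      convert this using 2; ring
    have h1 := ell_add_tau hτ h h'
    rw [show z + (-(a : ℤ) - 1 : ℤ) * τ + τ = z + (-(a : ℤ) : ℤ) * τ by push_cast; ring, ih] at h1
    rw [eq_add_of_sub_eq h1.symm]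
    push_cast
    ring

end Fermat.Agent.LevelM
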