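import Fermat.Agent.LevelM.Transform

/-!
# `q`-expansion of `ell` at rational points of the period parallelogram

`hasSum_ell` expands `ell (iτ/M + d) τ + i/M` for `0 ≤ i < M` in powers of `exp (2πiτ/M)`, with the
divisor sums `tailCoeff` as coefficients.
-/

set_option autoImplicit false

noncomputable section

open Complex Filter Topology Set
open UpperHalfPlane hiding I

namespace Fermat.Agent.LevelM

/-- The divisor sum `∑_{k ∣ N, k ≡ k₀ (M)} u^(N/k)`. -/
def tailCoeff (M : ℕ) {R : Type*} [CommRing R] (k₀ : ℕ) (u : R) (N : ℕ) : R :=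
  ∑ p ∈ N.divisorsAntidiagonal, if (p.1 : ZMod M) = k₀ then u ^ p.2 else 0

variable {M : ℕ} [NeZero M]

theorem cast_M_ne_zero : (M : ℂ) ≠ 0 := Nat.cast_ne_zero.2 (NeZero.ne M)

theorem norm_Q_lt_one {τ : ℂ} (hτ : 0 < τ.im) : ‖ex (τ / M)‖ < 1 := by
  rw [norm_ex, Real.exp_lt_one_iff]
  have : 0 < (τ / M).im := by
    rw [Complex.div_natCast_im]
    exact div_pos hτ (Nat.cast_pos.2 (NeZero.pos M))
  nlinarith [Real.pi_pos]

/-- Collecting the terms of a double series by the product of the exponents: the pairs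
`(nM + k₀, m + 1)` run over the factorisations of `N` whose first factor is `≡ k₀ (mod M)`. -/
theorem hasSum_divisorSum {k₀ : ℕ} (hk₀ : 0 < k₀) (hk₀M : k₀ ≤ M) (c : ℕ → ℂ) (Q : ℂ) {S : ℂ}
    (h : HasSum (fun p : ℕ × ℕ => c (p.2 + 1) * Q ^ ((p.1 * M + k₀) * (p.2 + 1))) S) :
    HasSum (fun N : ℕ => (∑ p ∈ N.divisorsAntidiagonal,
      if (p.1 : ZMod M) = k₀ then c p.2 else 0) * Q ^ N) S := by
  set F : ℕ+ × ℕ+ → ℂ := fun p =>
    (if ((p.1 : ℕ) : ZMod M) = k₀ then c (p.2 : ℕ) else 0) * Q ^ ((p.1 : ℕ) * (p.2 : ℕ)) with hF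
  let e : ℕ × ℕ → ℕ+ × ℕ+ := fun p => (⟨p.1 * M + k₀, by omega⟩, ⟨p.2 + 1, by omega⟩)
  have he : Function.Injective e := fun a b h => by
    have h1 : a.1 * M + k₀ = b.1 * M + k₀ := congrArg (fun p : ℕ+ × ℕ+ => (p.1 : ℕ)) h
    have h2 : a.2 + 1 = b.2 + 1 := congrArg (fun p : ℕ+ × ℕ+ => (p.2 : ℕ)) h
    exact Prod.ext (Nat.eq_of_mul_eq_mul_right (NeZero.pos M) (by omega)) (by omega)
  have hout : ∀ p ∉ Set.range e, F p = 0 := by
    rintro ⟨k, m⟩ hp
    simp only [hF]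
    rw [if_neg, zero_mul]
    intro hk
    refine hp ?_
    rw [ZMod.natCast_eq_natCast_iff] at hk
    have hle : k₀ ≤ (k : ℕ) := by
      by_contra hlt
      push Not at hlt
      have := Nat.ModEq.eq_of_abs_lt hk (by
        rw [abs_lt]; constructor <;> have := k.pos <;> omega)
      omega
    obtain ⟨c, hc⟩ := (Nat.modEq_iff_dvd' hle).1 hk.symm
    refine ⟨(c, (m : ℕ) - 1), Prod.ext (PNat.coe_injective ?_) (PNat.coe_injective ?_)⟩
    · show c * M + k₀ = (k : ℕ)
      rw [mul_comm]; omega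
    · show (m : ℕ) - 1 + 1 = (m : ℕ)
      have := m.pos; omega
  have h3 : HasSum F S := by
    rw [← he.hasSum_iff hout]
    refine h.congr_fun fun p => ?_
    simp only [Function.comp_apply, hF, e, PNat.mk_coe, Nat.cast_add, Nat.cast_mul,
      ZMod.natCast_self, mul_zero, zero_add, if_true]
  have h5 := (sigmaAntidiagonalEquivProd.hasSum_iff.2 h3).sigma
    (fun N : ℕ+ => hasSum_fintype _)
  have h6 : HasSum (fun N : ℕ+ => (∑ p ∈ (N : ℕ).divisorsAntidiagonal,
      if (p.1 : ZMod M) = k₀ then c p.2 else 0) * Q ^ (N : ℕ)) S := by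
    refine h5.congr_fun fun N => ?_
    rw [Finset.sum_mul]
    symm
    rw [← Finset.sum_coe_sort ((N : ℕ).divisorsAntidiagonal)]
    refine Finset.sum_congr rfl fun x _ => ?_
    simp only [Function.comp_apply, hF, sigmaAntidiagonalEquivProd, divisorsAntidiagonalFactors,
      Equiv.coe_fn_mk, PNat.mk_coe, (Nat.mem_divisorsAntidiagonal.1 x.2).1]
  refine (PNat.coe_injective.hasSum_iff fun n hn => ?_).1 h6
  rcases Nat.eq_zero_or_pos n with rfl | hn0
  · simp
  · exact absurd ⟨⟨n, hn0⟩, rfl⟩ hn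

/-- A tail sum of `r y = ∑ c (m + 1) y ^ (m + 1)` at a rational point as a power series in
`exp (2πiτ/M)`, with weighted divisor sums as coefficients. -/
theorem hasSum_tail_series {τ : ℂ} (hτ : 0 < τ.im) {k₀ : ℕ} (hk₀ : 0 < k₀) (hk₀M : k₀ ≤ M)
    {d : ℂ} (hd : ‖ex d‖ = 1) (c : ℕ → ℂ) (r : ℂ → ℂ)
    (hr : ∀ y : ℂ, ‖y‖ < 1 → HasSum (fun m : ℕ => c (m + 1) * y ^ (m + 1)) (r y)) :
    HasSum (fun N : ℕ => (∑ p ∈ N.divisorsAntidiagonal,
        if (p.1 : ZMod M) = k₀ then c p.2 * ex d ^ p.2 else 0) * ex (τ / M) ^ N)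
      (∑' n : ℕ, r (ex ((n + 1) * τ + ((((k₀ : ℂ) - M) / M) * τ + d)))) := by
  set Q := ex (τ / M) with hQdef
  have hQ : ‖Q‖ < 1 := norm_Q_lt_one hτ
  set y : ℕ → ℂ := fun n => ex d * Q ^ (n * M + k₀) with hy
  have hM0 : (M : ℂ) ≠ 0 := cast_M_ne_zero
  have hterm : ∀ n : ℕ, ex ((n + 1) * τ + ((((k₀ : ℂ) - M) / M) * τ + d)) = y n := fun n => by
    show _ = ex d * ex (τ / M) ^ (n * M + k₀)
    rw [← ex_natCast_mul, ← ex_add]
    congr 1
    push_cast
    field_simp
    ring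
  have hyn : ∀ n, ‖y n‖ = ‖Q‖ ^ (n * M + k₀) := fun n => by
    rw [hy, norm_mul, hd, one_mul, norm_pow]
  have hS : Summable fun p : ℕ × ℕ => c (p.2 + 1) * y p.1 ^ (p.2 + 1) := by
    refine Summable.of_norm_bounded ((summable_geometric_of_lt_one (norm_nonneg _) hQ).mul_of_nonneg
      (summable_norm_iff.2 (hr Q hQ).summable) (fun _ => by positivity) fun _ => norm_nonneg _)
      fun p => ?_
    rw [norm_mul, norm_mul, norm_pow, norm_pow, hyn, ← pow_mul, mul_left_comm, ← pow_add]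
    gcongr ‖c (p.2 + 1)‖ * ?_
    refine pow_le_pow_of_le_one (norm_nonneg _) hQ.le ?_
    nlinarith [Nat.le_mul_of_pos_right p.1 (NeZero.pos M)]
  have hfib := hS.hasSum.prod_fiberwise fun n => hr (y n) <| by
    rw [hyn]; exact pow_lt_one₀ (norm_nonneg _) hQ (by omega)
  rw [tsum_congr fun n => congrArg r (hterm n), hfib.tsum_eq]
  refine hasSum_divisorSum hk₀ hk₀M (fun k => c k * ex d ^ k) Q (hS.hasSum.congr_fun fun p => ?_)
  simp only [hy, mul_pow, ← pow_mul, mul_assoc]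

/-- The tail sum as a power series in `exp (2πiτ/M)`. -/
theorem hasSum_tail {τ : ℂ} (hτ : 0 < τ.im) {k₀ : ℕ} (hk₀ : 0 < k₀) (hk₀M : k₀ ≤ M) {d : ℂ}
    (hd : ‖ex d‖ = 1) :
    HasSum (fun N : ℕ => tailCoeff M k₀ (ex d) N * ex (τ / M) ^ N)
      (psum τ ((((k₀ : ℂ) - M) / M) * τ + d)) := by
  simpa [psum, term, tailCoeff] using hasSum_tail_series hτ hk₀ hk₀M hd (fun _ => 1) rat1
    fun y hy => by
      simpa [pow_succ', rat1, div_eq_mul_inv] using
        (hasSum_geometric_of_norm_lt_one hy).mul_left y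

/-- The constant term of `zv (i/M, j/M)`, `z = ex (j/M)`. -/
def constTerm {R : Type*} [Field R] (M i : ℕ) (z : R) : R :=
  if i = 0 then 1 / 2 - 1 / (1 - z) else (i : R) / M - 1 / 2

/-- The `N`-th coefficient (`N ≥ 1`) of `zv (i/M, j/M)`. -/
def zCoeffPos {R : Type*} [CommRing R] (M i : ℕ) (z zinv : R) (N : ℕ) : R :=
  tailCoeff M (M - i) zinv N - tailCoeff M (if i = 0 then M else i) z N

/-- The coefficients of `zv (i/M, j/M)` in `exp (2πiτ/M)`. -/
def zCoeff {R : Type*} [Field R] (M i : ℕ) (z : R) (N : ℕ) : R :=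
  if N = 0 then constTerm M i z else zCoeffPos M i z z⁻¹ N

/-- **`q`-expansion** of `ell` at a point of the parallelogram. -/
theorem hasSum_ell {τ : ℂ} (hτ : 0 < τ.im) {i : ℕ} (hi : i < M) {d : ℂ} (hd : ‖ex d‖ = 1)
    (hne : i ≠ 0 ∨ ex d ≠ 1) :
    HasSum (fun N : ℕ => zCoeff M i (ex d) N * ex (τ / M) ^ N)
      (ell ((i : ℂ) / M * τ + d) τ + (i : ℂ) / M) := by
  have hM0 : (M : ℂ) ≠ 0 := cast_M_ne_zero
  have hdinv : ‖ex (-d)‖ = 1 := by rw [ex_neg, norm_inv, hd, inv_one]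
  set z := (i : ℂ) / M * τ + d with hz
  have hminus := hasSum_tail hτ (k₀ := M - i) (by omega) (Nat.sub_le M i) hdinv
  rw [show ((((M - i : ℕ) : ℂ) - M) / M) * τ + -d = -z by
    rw [hz, Nat.cast_sub hi.le]; field_simp; ring, ex_neg] at hminus
  have key : ∀ (k : ℕ) (P : ℂ), HasSum (fun N => tailCoeff M k (ex d) N * ex (τ / M) ^ N) P →
      k = (if i = 0 then M else i) →
      ell z τ + (i : ℂ) / M = constTerm M i (ex d) - P + psum τ (-z) →
      HasSum (fun N : ℕ => zCoeff M i (ex d) N * ex (τ / M) ^ N) (ell z τ + (i : ℂ) / M) := by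
    intro k P hP hk heq
    rw [heq, sub_add, sub_eq_add_neg, neg_sub]
    have hc : HasSum (fun N : ℕ => if N = 0 then constTerm M i (ex d) else 0)
        (constTerm M i (ex d)) := hasSum_ite_eq 0 _
    refine (hc.add (hminus.sub hP)).congr_fun fun N => ?_
    rcases eq_or_ne N 0 with rfl | hN
    · simp [zCoeff, tailCoeff]
    · rw [zCoeff, if_neg hN, if_neg hN, zCoeffPos, hk, zero_add, sub_mul]
  rcases eq_or_ne i 0 with rfl | hi0
  · have hplus := hasSum_tail hτ (k₀ := M) (NeZero.pos M) le_rfl hd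
    rw [sub_self, zero_div, zero_mul, zero_add] at hplus
    have hzd : z = d := by rw [hz]; simp
    refine key M _ hplus (by simp) ?_
    rw [hzd, constTerm, if_pos rfl, ell]
    push_cast
    ring
  · have hplus := hasSum_tail hτ (k₀ := i) (Nat.pos_of_ne_zero hi0) hi.le hd
    rw [show (((i : ℂ) - M) / M) * τ + d = z - τ by rw [hz]; field_simp; ring] at hplus
    refine key i _ hplus (by simp [hi0]) ?_
    have h1 := psum_add_tau hτ (z - τ)
    rw [show τ + (z - τ) = z by ring, sub_add_cancel] at h1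
    have hzne : ex z ≠ 1 := fun h => by
      have := congrArg norm h
      rw [hz, ex_add, norm_mul, hd, mul_one, norm_one, norm_ex, Real.exp_eq_one_iff] at this
      have hpos : 0 < ((i : ℂ) / M * τ).im := by
        rw [Complex.mul_im]
        simp only [Complex.div_natCast_re, Complex.natCast_re, Complex.div_natCast_im,
          Complex.natCast_im, zero_div, zero_mul, add_zero]
        exact mul_pos (div_pos (Nat.cast_pos.2 (Nat.pos_of_ne_zero hi0))
          (Nat.cast_pos.2 (NeZero.pos M))) hτ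
      nlinarith [Real.pi_pos]
    rw [constTerm, if_neg hi0, ell, h1]
    have h2 : rat1 (ex z) = 1 / (1 - ex z) - 1 := by
      rw [rat1, div_sub_one (sub_ne_zero.2 (Ne.symm hzne))]; ring
    rw [h2]
    ring

end Fermat.Agent.LevelM
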