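import Fermat.Agent.LevelM.Expansion

/-!
# The weight one forms `zv v` attached to torsion vectors

`zv v τ = ell (v₀τ + v₁) τ + v₀`; `zv v ∣[1] γ = zv (v γ)` for every `γ ∈ SL(2, ℤ)`; expansion in
`exp (2πiτ/M)` with explicit coefficients; holomorphic and bounded at infinity.
-/

set_option autoImplicit false

noncomputable section

open Complex Filter Topology Set
open UpperHalfPlane hiding I
open scoped MatrixGroups ModularForm Manifold

namespace Fermat.Agent.LevelM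

/-- Vectors which are not integral. -/
def Adm (v : Fin 2 → ℚ) : Prop := ¬ ∀ k, ∃ a : ℤ, v k = a

/-- The weight one form attached to `v`. -/
def zv (v : Fin 2 → ℚ) : ℍ → ℂ := fun τ => ell ((v 0 : ℂ) * τ + v 1) τ + v 0

/-- Right action of `SL(2, ℤ)` on vectors. -/
def vmul (v : Fin 2 → ℚ) (γ : SL(2, ℤ)) : Fin 2 → ℚ :=
  Matrix.vecMul v ((γ : Matrix (Fin 2) (Fin 2) ℤ).map (Int.cast : ℤ → ℚ))

theorem vmul_apply (v : Fin 2 → ℚ) (γ : SL(2, ℤ)) (k : Fin 2) :
    vmul v γ k = v 0 * (γ 0 k : ℚ) + v 1 * (γ 1 k : ℚ) := by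
  simp [vmul, Matrix.vecMul, dotProduct, Fin.sum_univ_two]

theorem vmul_mul (v : Fin 2 → ℚ) (γ δ : SL(2, ℤ)) : vmul v (γ * δ) = vmul (vmul v γ) δ := by
  funext k
  simp only [vmul_apply, Matrix.SpecialLinearGroup.coe_mul, Matrix.mul_apply, Fin.sum_univ_two]
  push_cast
  ring

theorem vmul_one (v : Fin 2 → ℚ) : vmul v 1 = v := by simp [vmul]

theorem vmul_neg (v : Fin 2 → ℚ) (γ : SL(2, ℤ)) : vmul v (-γ) = -vmul v γ := by
  funext k
  simp only [vmul_apply, Pi.neg_apply, Matrix.SpecialLinearGroup.coe_neg, Matrix.neg_apply]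
  push_cast
  ring

theorem Adm.vmul {v : Fin 2 → ℚ} (hv : Adm v) (γ : SL(2, ℤ)) : Adm (vmul v γ) := by
  intro h
  refine hv fun k => ?_
  have e : v = LevelM.vmul (LevelM.vmul v γ) γ⁻¹ := by rw [← vmul_mul, mul_inv_cancel, vmul_one]
  obtain ⟨a, ha⟩ := h 0
  obtain ⟨b, hb⟩ := h 1
  refine ⟨a * (γ⁻¹ : SL(2, ℤ)) 0 k + b * (γ⁻¹ : SL(2, ℤ)) 1 k, ?_⟩
  rw [e, vmul_apply, ha, hb]
  push_cast
  ring

theorem Adm.notMem_lat {v : Fin 2 → ℚ} (hv : Adm v) (τ : ℍ) :
    (v 0 : ℂ) * τ + v 1 ∉ lat (τ : ℂ) := by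
  rintro ⟨a, b, h⟩
  have him := congrArg Complex.im h
  simp only [add_im, mul_im, ratCast_re, ratCast_im, intCast_re, intCast_im, zero_mul, add_zero,
    UpperHalfPlane.coe_im] at him
  have h0 : ((v 0 : ℚ) : ℝ) = (a : ℝ) := mul_right_cancel₀ τ.im_pos.ne' him
  have h0' : v 0 = a := by exact_mod_cast h0
  rw [h0'] at h
  push_cast at h
  have h1 : (v 1 : ℂ) = (b : ℂ) := add_left_cancel h
  refine hv fun k => ?_
  fin_cases k
  · exact ⟨a, h0'⟩
  · exact ⟨b, by exact_mod_cast h1⟩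

theorem zv_add_int {v : Fin 2 → ℚ} (hv : Adm v) (a : Fin 2 → ℤ) :
    zv (fun k => v k + a k) = zv v := by
  funext τ
  simp only [zv]
  push_cast
  rw [show ((v 0 : ℂ) + a 0) * τ + ((v 1 : ℂ) + a 1) = ((v 0 : ℂ) * τ + v 1) + a 0 * τ + a 1 by
    ring, ell_add_intCast, ell_add_intCast_mul_tau τ.im_pos (hv.notMem_lat τ)]
  ring

theorem zv_slash_S {v : Fin 2 → ℚ} (hv : Adm v) :
    zv v ∣[(1 : ℤ)] ModularGroup.S = zv (vmul v ModularGroup.S) := by
  funext τ
  rw [ModularForm.SL_slash_apply]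
  have hS : ((ModularGroup.S • τ : ℍ) : ℂ) = -1 / (τ : ℂ) := by
    rw [modular_S_smul]
    simp [neg_div, inv_neg]
  have hd : UpperHalfPlane.denom ((ModularGroup.S : SL(2, ℤ)) : GL (Fin 2) ℝ) τ = (τ : ℂ) := by
    simp [ModularGroup.denom_S]
  have h0 : (τ : ℂ) ≠ 0 := τ.ne_zero
  have hw : Adm (vmul v ModularGroup.S) := hv.vmul _
  have e0 : vmul v ModularGroup.S 0 = v 1 := by
    rw [vmul_apply]; simp [ModularGroup.S]
  have e1 : vmul v ModularGroup.S 1 = -v 0 := by
    rw [vmul_apply]; simp [ModularGroup.S]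
  have hn := hw.notMem_lat τ
  rw [e0, e1] at hn
  push_cast at hn
  simp only [zv, e0, e1, hS, hd]
  push_cast
  rw [show (v 0 : ℂ) * (-1 / (τ : ℂ)) + v 1 = ((v 1 : ℂ) * τ + -(v 0 : ℂ)) / τ by field_simp; ring,
    ell_div_tau τ.im_pos hn, zpow_neg_one]
  field_simp
  ring

theorem zv_slash_T {v : Fin 2 → ℚ} :
    zv v ∣[(1 : ℤ)] ModularGroup.T = zv (vmul v ModularGroup.T) := by
  funext τ
  rw [ModularForm.SL_slash_apply]
  have hT : ((ModularGroup.T • τ : ℍ) : ℂ) = (τ : ℂ) + 1 := by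
    rw [modular_T_smul, coe_vadd]
    push_cast
    ring
  have hd : UpperHalfPlane.denom ((ModularGroup.T : SL(2, ℤ)) : GL (Fin 2) ℝ) τ = 1 := by
    simp [ModularGroup.denom_apply, ModularGroup.T]
  have e0 : vmul v ModularGroup.T 0 = v 0 := by
    rw [vmul_apply]; simp [ModularGroup.T]
  have e1 : vmul v ModularGroup.T 1 = v 0 + v 1 := by
    rw [vmul_apply]; simp [ModularGroup.T]
  simp only [zv, e0, e1, hT, hd, ell_tau_add_one, one_zpow, mul_one]
  push_cast
  congr 2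
  ring

/-- **Equivariance**. -/
theorem zv_slash {v : Fin 2 → ℚ} (hv : Adm v) (γ : SL(2, ℤ)) :
    zv v ∣[(1 : ℤ)] γ = zv (vmul v γ) := by
  have hγ : γ ∈ Subgroup.closure {ModularGroup.S, ModularGroup.T} := by
    simp [SpecialLinearGroup.SL2Z_generators]
  induction hγ using Subgroup.closure_induction generalizing v with
  | mem x hx =>
    rcases hx with rfl | rfl
    · exact zv_slash_S hv
    · exact zv_slash_T
  | one => rw [SlashAction.slash_one, vmul_one]
  | mul x y _ _ hx hy => rw [SlashAction.slash_mul, hx hv, hy (hv.vmul x), vmul_mul]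
  | inv x _ hx =>
    have h := hx (hv.vmul x⁻¹)
    rw [← vmul_mul, inv_mul_cancel, vmul_one] at h
    rw [← h, ← SlashAction.slash_mul, mul_inv_cancel, SlashAction.slash_one]

/-- `q = exp (2πiτ/M)`. -/
def qM (M : ℕ) (τ : ℍ) : ℂ := ex ((τ : ℂ) / M)

/-- A function on `ℍ` with a convergent power series in `qM` is holomorphic and has a limit. -/
theorem mdifferentiable_of_hasSum {M : ℕ} [NeZero M] {f : ℍ → ℂ} {a : ℕ → ℂ}
    (ha : ∀ r : ℝ, 0 ≤ r → r < 1 → Summable fun n => ‖a n‖ * r ^ n)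
    (hf : ∀ τ, HasSum (fun n => a n * qM M τ ^ n) (f τ)) :
    MDiff f ∧ Tendsto f atImInfty (𝓝 (a 0)) := by
  set p := FormalMultilinearSeries.ofScalars ℂ a with hp
  have hr : ∀ r : NNReal, r < 1 → (r : ENNReal) ≤ p.radius := fun r hr => by
    refine p.le_radius_of_summable_norm ?_
    simpa [hp, FormalMultilinearSeries.ofScalars_norm] using
      ha r r.coe_nonneg (by exact_mod_cast hr)
  have hpos : 0 < p.radius :=
    lt_of_lt_of_le (by norm_num) (hr (1 / 2) (by norm_num))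
  have hball : ∀ z : ℂ, ‖z‖ < 1 → AnalyticAt ℂ p.sum z := fun z hz => by
    obtain ⟨r, hzr, hr1⟩ := exists_between hz
    lift r to NNReal using (norm_nonneg z).trans hzr.le
    refine (p.hasFPowerSeriesOnBall hpos).analyticAt_of_mem ?_
    rw [Metric.mem_eball, edist_zero_right]
    refine lt_of_lt_of_le ?_ (hr r (by exact_mod_cast hr1))
    rw [← ofReal_norm, ENNReal.ofReal_lt_iff_lt_toReal (norm_nonneg _) ENNReal.coe_ne_top]
    simpa using hzr
  have hsum : ∀ τ, f τ = p.sum (qM M τ) := fun τ => by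
    rw [← (hf τ).tsum_eq]
    show _ = FormalMultilinearSeries.ofScalarsSum a (qM M τ)
    rw [FormalMultilinearSeries.ofScalars_sum_eq]
    simp [smul_eq_mul]
  constructor
  · rw [UpperHalfPlane.mdifferentiable_iff]
    intro z hz
    refine DifferentiableAt.differentiableWithinAt ?_
    have hq : ‖ex (z / M)‖ < 1 := norm_Q_lt_one hz
    have h2 : DifferentiableAt ℂ (fun w : ℂ => ex (w / M)) z := by unfold ex; fun_prop
    have h1 : DifferentiableAt ℂ (fun w => p.sum (ex (w / M))) z :=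
      DifferentiableAt.comp (g := p.sum) (f := fun w : ℂ => ex (w / M)) z
        (hball _ hq).differentiableAt h2
    refine h1.congr_of_eventuallyEq ?_
    filter_upwards [(isOpen_lt continuous_const Complex.continuous_im).mem_nhds hz] with w hw
    simp only [Function.comp_apply, hsum, qM, ofComplex_apply_of_im_pos hw]
  · have h0 : p.sum 0 = a 0 := by
      show FormalMultilinearSeries.ofScalarsSum a (0 : ℂ) = _
      rw [FormalMultilinearSeries.ofScalars_sum_eq, tsum_eq_single 0 fun n hn => by simp [hn]]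
      simp
    have hq : Tendsto (qM M) atImInfty (𝓝 0) := by
      have := UpperHalfPlane.qParam_tendsto_atImInfty (h := (M : ℝ))
        (Nat.cast_pos.2 (NeZero.pos M))
      refine this.congr fun τ => ?_
      simp only [qM, ex, Function.Periodic.qParam, Complex.ofReal_natCast]
      congr 1
      ring
    rw [← h0]
    exact ((hball 0 (by simp)).continuousAt.tendsto.comp hq).congr fun τ => (hsum τ).symm

theorem norm_ex_ofRat (q : ℚ) : ‖ex (q : ℂ)‖ = 1 := by
  rw [norm_ex]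
  simp

theorem norm_tailCoeff_le {M k₀ : ℕ} {u : ℂ} (hu : ‖u‖ = 1) (N : ℕ) :
    ‖tailCoeff M k₀ u N‖ ≤ N := by
  refine (norm_sum_le _ _).trans ?_
  calc ∑ p ∈ N.divisorsAntidiagonal, ‖if (p.1 : ZMod M) = k₀ then u ^ p.2 else 0‖
      ≤ ∑ p ∈ N.divisorsAntidiagonal, (1 : ℝ) :=
        Finset.sum_le_sum fun p _ => by split_ifs <;> simp [hu]
    _ ≤ N := by
        rw [Finset.sum_const, nsmul_one, ← Nat.map_div_right_divisors, Finset.card_map]
        exact_mod_cast Nat.card_divisors_le_self N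

/-- The coefficients of the expansion of `zv` grow at most linearly. -/
theorem summable_zCoeff {M : ℕ} [NeZero M] {i : ℕ} {u : ℂ} (hu : ‖u‖ = 1) {r : ℝ} (h0 : 0 ≤ r)
    (h1 : r < 1) : Summable fun n => ‖zCoeff M i u n‖ * r ^ n := by
  have hb : ∀ n, ‖zCoeff M i u n‖ ≤ ‖constTerm M i u‖ + 2 * n := fun n => by
    rw [zCoeff]
    split_ifs with h
    · subst h; simp
    · refine (norm_sub_le _ _).trans ?_
      have := norm_tailCoeff_le (M := M) (k₀ := M - i) (u := u⁻¹) (by rw [norm_inv, hu, inv_one]) n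
      have := norm_tailCoeff_le (M := M) (k₀ := if i = 0 then M else i) hu n
      have := norm_nonneg (constTerm M i u)
      linarith
  refine Summable.of_nonneg_of_le (fun n => by positivity)
    (fun n => mul_le_mul_of_nonneg_right (hb n) (pow_nonneg h0 n)) ?_
  simp only [add_mul, mul_assoc]
  refine ((summable_geometric_of_lt_one h0 h1).mul_left _).add (Summable.mul_left 2 ?_)
  simpa using summable_pow_mul_geometric_of_norm_lt_one 1
    (show ‖r‖ < 1 by rwa [Real.norm_of_nonneg h0])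

/-- The normal form `(i/M, j/M)`. -/
def vec (M : ℕ) (i : ℕ) (j : ℤ) : Fin 2 → ℚ := ![(i : ℚ) / M, (j : ℚ) / M]

/-- **Expansion** of `zv`. -/
theorem hasSum_zv {M : ℕ} [NeZero M] {i : ℕ} {j : ℤ} (hi : i < M) (h : i ≠ 0 ∨ ¬ (M : ℤ) ∣ j)
    (τ : ℍ) :
    HasSum (fun N => zCoeff M i (ex ((j : ℂ) / M)) N * qM M τ ^ N) (zv (vec M i j) τ) := by
  have hd : ‖ex ((j : ℂ) / M)‖ = 1 := by
    have := norm_ex_ofRat ((j : ℚ) / M)
    push_cast at this
    exact this
  have hne : i ≠ 0 ∨ ex ((j : ℂ) / M) ≠ 1 := h.imp_right fun hj he => hj (by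
    obtain ⟨n, hn⟩ := ex_eq_one_iff.1 he
    rw [div_eq_iff cast_M_ne_zero] at hn
    exact ⟨n, by rw [mul_comm]; exact_mod_cast hn⟩)
  have := hasSum_ell τ.im_pos hi hd hne
  simp only [zv, vec, Matrix.cons_val_zero, Matrix.cons_val_one]
  push_cast
  exact this

theorem exists_normalForm {M : ℕ} [NeZero M] {v : Fin 2 → ℚ} (hv : Adm v) {a b : ℤ}
    (ha : v 0 = (a : ℚ) / M) (hb : v 1 = (b : ℚ) / M) :
    ((a % M).toNat < M ∧ ((a % M).toNat ≠ 0 ∨ ¬ (M : ℤ) ∣ b)) ∧
      zv v = zv (vec M (a % M).toNat b) := by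
  have hM : (0 : ℤ) < M := by exact_mod_cast NeZero.pos M
  have hMq : (M : ℚ) ≠ 0 := by exact_mod_cast (NeZero.ne M)
  have h0 : 0 ≤ a % M := Int.emod_nonneg _ hM.ne'
  have h1 : a % M < M := Int.emod_lt_of_pos _ hM
  refine ⟨⟨by omega, ?_⟩, ?_⟩
  · by_contra hc
    push Not at hc
    obtain ⟨hc1, c, hc2⟩ := hc
    refine hv fun k => ?_
    fin_cases k
    · refine ⟨a / M, ?_⟩
      have hA : (M : ℤ) * (a / M) = a := by
        have := Int.emod_add_mul_ediv a M
        omega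
      show v 0 = _
      rw [ha, div_eq_iff hMq, mul_comm]
      exact_mod_cast hA.symm
    · refine ⟨c, ?_⟩
      show v 1 = _
      rw [hb, div_eq_iff hMq, hc2]
      push_cast
      ring
  · have h := zv_add_int hv ![-(a / (M : ℤ)), 0]
    rw [← h]
    congr 1
    funext k
    fin_cases k
    · show v 0 + ((-(a / (M : ℤ)) : ℤ) : ℚ) = (((a % M).toNat : ℕ) : ℚ) / M
      have hA := Int.emod_add_mul_ediv a M
      have hcast : (((a % M).toNat : ℕ) : ℚ) = ((a % M : ℤ) : ℚ) := by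
        rw [← Int.cast_natCast, Int.toNat_of_nonneg h0]
      rw [hcast, ha, show (a % (M : ℤ)) = a - M * (a / M) by omega]
      push_cast
      field_simp
      ring
    · show v 1 + ((0 : ℤ) : ℚ) = (b : ℚ) / M
      rw [hb]; simp

theorem exists_den (v : Fin 2 → ℚ) :
    ∃ (M : ℕ) (_ : NeZero M) (a b : ℤ), v 0 = (a : ℚ) / M ∧ v 1 = (b : ℚ) / M := by
  refine ⟨(v 0).den * (v 1).den, ⟨mul_ne_zero (v 0).den_nz (v 1).den_nz⟩,
    (v 0).num * (v 1).den, (v 1).num * (v 0).den, ?_, ?_⟩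
  · push_cast
    rw [mul_div_mul_right _ _ (Nat.cast_ne_zero.2 (v 1).den_nz), Rat.num_div_den]
  · push_cast
    rw [mul_comm ((v 0).den : ℚ), mul_div_mul_right _ _ (Nat.cast_ne_zero.2 (v 0).den_nz),
      Rat.num_div_den]

/-- `zv v` is holomorphic and has a limit at infinity. -/
theorem mdifferentiable_and_exists_tendsto_zv {v : Fin 2 → ℚ} (hv : Adm v) :
    MDiff (zv v) ∧ ∃ c, Tendsto (zv v) atImInfty (𝓝 c) := by
  obtain ⟨M, hM, a, b, ha, hb⟩ := exists_den v
  obtain ⟨⟨hi, hne⟩, he⟩ := exists_normalForm hv ha hb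
  rw [he]
  have hu := norm_ex_ofRat ((b : ℚ) / M)
  push_cast at hu
  have h := mdifferentiable_of_hasSum (fun r h0 h1 => summable_zCoeff hu h0 h1) (hasSum_zv hi hne)
  exact ⟨h.1, _, h.2⟩

theorem mdifferentiable_zv {v : Fin 2 → ℚ} (hv : Adm v) : MDiff (zv v) :=
  (mdifferentiable_and_exists_tendsto_zv hv).1

theorem isBoundedAtImInfty_zv {v : Fin 2 → ℚ} (hv : Adm v) : IsBoundedAtImInfty (zv v) :=
  (mdifferentiable_and_exists_tendsto_zv hv).2.choose_spec.isBigO_one ℝ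

end Fermat.Agent.LevelM
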