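import Fermat.Agent.MFCore.Galois
import Fermat.Agent.LevelM.BaseForms

/-!
# Forms on a subgroup of finite index: conjugates, interpolation, expansions in `exp (2πiτ/L)`

`IsFormOn Γ k f` is a modular form as a bare function. The symmetric functions `esymOn` and
interpolation coefficients `interpOn` of its conjugates have level one. `TwistL L σ f g` says
that `g` has the `σ`-conjugate expansion of `f` in `exp (2πiτ/L)`.
-/

set_option autoImplicit false

noncomputable section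

open Complex Filter Topology UpperHalfPlane Function Finset
open scoped Manifold MatrixGroups ModularForm

namespace Fermat.Agent.LevelM

open Fermat.Agent.MFCore (IsLevelOne IsQ Twist esymm interpCoeff mdiff_slash_SL)

/-- Holomorphic, invariant under `Γ` in weight `k`, bounded at every cusp. -/
structure IsFormOn (Γ : Subgroup SL(2, ℤ)) (k : ℤ) (f : ℍ → ℂ) : Prop where
  holo : MDiff f
  slash : ∀ γ ∈ Γ, f ∣[k] γ = f
  bdd : ∀ γ : SL(2, ℤ), IsBoundedAtImInfty (f ∣[k] γ)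

namespace IsFormOn

variable {Γ : Subgroup SL(2, ℤ)} {k l : ℤ} {f g : ℍ → ℂ}

theorem one : IsFormOn Γ 0 (1 : ℍ → ℂ) :=
  ⟨mdifferentiable_const, fun γ _ => ModularForm.is_invariant_one γ,
    fun γ => by rw [ModularForm.is_invariant_one]; exact atImInfty.const_boundedAtFilter 1⟩

theorem zero : IsFormOn Γ k (0 : ℍ → ℂ) :=
  ⟨mdifferentiable_const, fun γ _ => SlashAction.zero_slash k γ,
    fun γ => by rw [SlashAction.zero_slash]; exact atImInfty.const_boundedAtFilter 0⟩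

theorem add (hf : IsFormOn Γ k f) (hg : IsFormOn Γ k g) : IsFormOn Γ k (f + g) :=
  ⟨hf.holo.add hg.holo,
    fun γ hγ => by rw [SlashAction.add_slash, hf.slash γ hγ, hg.slash γ hγ],
    fun γ => by rw [SlashAction.add_slash]; exact (hf.bdd γ).add (hg.bdd γ)⟩

theorem smul (hf : IsFormOn Γ k f) (c : ℂ) : IsFormOn Γ k (c • f) :=
  ⟨hf.holo.const_smul c,
    fun γ hγ => by rw [ModularForm.SL_smul_slash, hf.slash γ hγ],
    fun γ => by rw [ModularForm.SL_smul_slash]; exact (hf.bdd γ).const_mul_left c⟩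

theorem mul (hf : IsFormOn Γ k f) (hg : IsFormOn Γ l g) : IsFormOn Γ (k + l) (f * g) :=
  ⟨hf.holo.mul hg.holo,
    fun γ hγ => by rw [ModularForm.mul_slash_SL2, hf.slash γ hγ, hg.slash γ hγ],
    fun γ => by rw [ModularForm.mul_slash_SL2]; exact (hf.bdd γ).mul (hg.bdd γ)⟩

theorem pow (hf : IsFormOn Γ k f) (n : ℕ) : IsFormOn Γ ((n : ℤ) * k) (f ^ n) := by
  induction n with
  | zero => simpa using one
  | succ n ih =>
    rw [pow_succ, show ((n + 1 : ℕ) : ℤ) * k = (n : ℤ) * k + k by push_cast; ring]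
    exact ih.mul hf

theorem sum {ι : Type*} (s : Finset ι) {F : ι → ℍ → ℂ} (h : ∀ i ∈ s, IsFormOn Γ k (F i)) :
    IsFormOn Γ k (∑ i ∈ s, F i) :=
  Finset.sum_induction F (IsFormOn Γ k) (fun _ _ h h' => h.add h') zero h

end IsFormOn

theorem eq_zero_of_slash_eq_zero {k : ℤ} {f : ℍ → ℂ} {γ : SL(2, ℤ)} (h : f ∣[k] γ = 0) : f = 0 := by
  have := congrArg (fun F : ℍ → ℂ => F ∣[k] γ⁻¹) h
  simpa only [← SlashAction.slash_mul, mul_inv_cancel, SlashAction.slash_one,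
    SlashAction.zero_slash] using this

section Conj

variable {Γ : Subgroup SL(2, ℤ)} {k w : ℤ} {f G : ℍ → ℂ}

/-- The conjugate of `f` attached to a coset. -/
def conjOn (k : ℤ) (f : ℍ → ℂ) (q : SL(2, ℤ) ⧸ Γ) : ℍ → ℂ := f ∣[k] (q.out)⁻¹

theorem conjOn_mk (hf : ∀ γ ∈ Γ, f ∣[k] γ = f) (γ : SL(2, ℤ)) :
    conjOn k f (QuotientGroup.mk γ : SL(2, ℤ) ⧸ Γ) = f ∣[k] γ⁻¹ := by
  have h : γ⁻¹ * (QuotientGroup.mk γ : SL(2, ℤ) ⧸ Γ).out ∈ Γ := by
    rw [← QuotientGroup.eq]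
    exact (QuotientGroup.out_eq' _).symm
  rw [conjOn]
  conv_rhs => rw [show γ⁻¹ = (γ⁻¹ * (QuotientGroup.mk γ : SL(2, ℤ) ⧸ Γ).out) *
    ((QuotientGroup.mk γ : SL(2, ℤ) ⧸ Γ).out)⁻¹ by group, SlashAction.slash_mul, hf _ h]

theorem conjOn_one (hf : ∀ γ ∈ Γ, f ∣[k] γ = f) :
    conjOn k f (QuotientGroup.mk 1 : SL(2, ℤ) ⧸ Γ) = f := by
  rw [conjOn_mk hf, inv_one, SlashAction.slash_one]

/-- `SL(2, ℤ)` permutes the conjugates. -/
theorem conjOn_slash (hf : ∀ γ ∈ Γ, f ∣[k] γ = f) (q : SL(2, ℤ) ⧸ Γ) (γ : SL(2, ℤ)) :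
    conjOn k f q ∣[k] γ = conjOn k f (γ⁻¹ • q) := by
  have h : γ⁻¹ • q = QuotientGroup.mk (γ⁻¹ * q.out) := by
    conv_lhs => rw [← QuotientGroup.out_eq' q]
    rfl
  rw [h, conjOn_mk hf, mul_inv_rev, inv_inv, SlashAction.slash_mul, conjOn]

variable [Fintype (SL(2, ℤ) ⧸ Γ)]

attribute [local instance] Classical.decEq

/-- Elementary symmetric function of the conjugates. -/
def esymOn (Γ : Subgroup SL(2, ℤ)) [Fintype (SL(2, ℤ) ⧸ Γ)] (k : ℤ) (f : ℍ → ℂ) (m : ℕ) : ℍ → ℂ :=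
  esymm (univ : Finset (SL(2, ℤ) ⧸ Γ)) (conjOn k f) m

/-- Interpolation coefficient of the conjugates of `f` at the conjugates of `G`. -/
def interpOn (Γ : Subgroup SL(2, ℤ)) [Fintype (SL(2, ℤ) ⧸ Γ)] (k w : ℤ) (f G : ℍ → ℂ) (m : ℕ) :
    ℍ → ℂ :=
  interpCoeff (conjOn (Γ := Γ) k f) (conjOn w G) m

/-- The derivative of the polynomial of `G` evaluated at `G`. -/
def diffProdOn (Γ : Subgroup SL(2, ℤ)) [Fintype (SL(2, ℤ) ⧸ Γ)] (w : ℤ) (G : ℍ → ℂ) : ℍ → ℂ :=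
  ∏ q ∈ (univ : Finset (SL(2, ℤ) ⧸ Γ)).erase (QuotientGroup.mk 1), (G - conjOn w G q)

theorem esymOn_levelOne (hf : IsFormOn Γ k f) (m : ℕ) :
    IsLevelOne ((m : ℤ) * k) (esymOn Γ k f m) where
  holo := MFCore.mdiff_esymm _ _ fun q => mdiff_slash_SL hf.holo _
  slash γ := by
    rw [esymOn, MFCore.esymm_slash]
    let e : SL(2, ℤ) ⧸ Γ ≃ SL(2, ℤ) ⧸ Γ := MulAction.toPerm γ⁻¹
    conv_rhs => rw [← Finset.map_univ_equiv e, MFCore.esymm_map]
    congr 1
    funext q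
    exact conjOn_slash hf.slash q γ
  bdd := MFCore.bdd_esymm _ _ fun q => hf.bdd _

theorem interpOn_levelOne (hf : IsFormOn Γ k f) (hG : IsFormOn Γ w G) (m : ℕ) :
    IsLevelOne (k + (m : ℤ) * w) (interpOn Γ k w f G m) where
  holo := MFCore.mdiff_sum _ fun q _ =>
    (mdiff_slash_SL hf.holo _).mul (MFCore.mdiff_esymm _ _ fun q' => mdiff_slash_SL hG.holo _)
  slash γ := by
    simp only [interpOn, interpCoeff, SlashAction.sum_slash, ModularForm.mul_slash_SL2,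
      MFCore.esymm_slash]
    let e : SL(2, ℤ) ⧸ Γ ≃ SL(2, ℤ) ⧸ Γ := MulAction.toPerm γ⁻¹
    refine Fintype.sum_equiv e _ _ fun q => ?_
    rw [show (univ : Finset (SL(2, ℤ) ⧸ Γ)).erase (e q) = (univ.erase q).map e.toEmbedding by
      rw [Finset.map_erase, Finset.map_univ_equiv]; rfl, MFCore.esymm_map]
    congr 1
    · exact conjOn_slash hf.slash q γ
    · congr 1
      funext r
      exact conjOn_slash hG.slash r γ
  bdd := MFCore.bdd_sum _ fun q _ => (hf.bdd _).mul (MFCore.bdd_esymm _ _ fun q' => hG.bdd _)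

theorem interpOn_eval (hf : ∀ γ ∈ Γ, f ∣[k] γ = f) (hG : ∀ γ ∈ Γ, G ∣[w] γ = G) :
    ∑ m ∈ Finset.range (Fintype.card (SL(2, ℤ) ⧸ Γ)),
        (-1) ^ m * interpOn Γ k w f G m * G ^ (Fintype.card (SL(2, ℤ) ⧸ Γ) - 1 - m)
      = f * diffProdOn Γ w G := by
  have h := MFCore.interp_eval (conjOn (Γ := Γ) k f) (conjOn w G) (QuotientGroup.mk 1)
  rw [conjOn_one hf, conjOn_one hG] at h
  exact h

theorem esymOn_eval (hf : ∀ γ ∈ Γ, f ∣[k] γ = f) :
    ∑ m ∈ Finset.range (Fintype.card (SL(2, ℤ) ⧸ Γ) + 1),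
        (-1) ^ m * esymOn Γ k f m * f ^ (Fintype.card (SL(2, ℤ) ⧸ Γ) - m) = 0 := by
  have h := MFCore.esymm_eval (conjOn (Γ := Γ) k f) (QuotientGroup.mk 1)
  rw [conjOn_one hf] at h
  exact h

theorem diffProdOn_ne_zero (hG : IsFormOn Γ w G)
    (hinj : Function.Injective (conjOn (Γ := Γ) w G)) : diffProdOn Γ w G ≠ 0 := by
  have hm : ∀ q ∈ (univ : Finset (SL(2, ℤ) ⧸ Γ)).erase (QuotientGroup.mk 1),
      MDiff (G - conjOn w G q) := fun q _ => hG.holo.sub (mdiff_slash_SL hG.holo _)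
  rw [diffProdOn, Ne, UpperHalfPlane.prod_eq_zero_iff hm]
  rintro ⟨q, hq, he⟩
  rw [sub_eq_zero] at he
  exact Finset.ne_of_mem_erase hq (hinj ((conjOn_one hG.slash).trans he)).symm

end Conj

section Scale

variable (L : ℕ)

/-- `f ↦ (τ ↦ f (Lτ))` as a ring homomorphism. -/
def liftHom : (ℍ → ℂ) →+* (ℍ → ℂ) :=
  RingHom.pi fun τ => Pi.evalRingHom (fun _ : ℍ => ℂ) (ModularForm.heckeDiagMatrix L • τ)

theorem liftHom_apply (f : ℍ → ℂ) : liftHom L f = MFCore.lift L f := rfl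

theorem liftHom_injective : Function.Injective (liftHom L) := fun f g h => funext fun τ => by
  have := congrFun h ((ModularForm.heckeDiagMatrix L)⁻¹ • τ)
  simp only [liftHom_apply, MFCore.lift, smul_inv_smul] at this
  exact this

/-- `g` has the expansion of `f` in `exp (2πiτ/L)` with `σ` applied. -/
def TwistL (σ : ℂ →+* ℂ) (f g : ℍ → ℂ) : Prop := Twist σ (liftHom L f) (liftHom L g)

variable {L} {σ : ℂ →+* ℂ} {f g f' g' : ℍ → ℂ}

theorem TwistL.neg_one : TwistL L σ (-1) (-1) := by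
  rw [TwistL, map_neg, map_one]; exact Twist.one.neg

theorem TwistL.mul (h : TwistL L σ f g) (h' : TwistL L σ f' g') :
    TwistL L σ (f * f') (g * g') := by
  rw [TwistL, map_mul, map_mul]; exact Twist.mul h h'

theorem TwistL.pow (h : TwistL L σ f g) (n : ℕ) : TwistL L σ (f ^ n) (g ^ n) := by
  rw [TwistL, map_pow, map_pow]; exact Twist.pow h n

theorem TwistL.smul (h : TwistL L σ f g) (c : ℂ) : TwistL L σ (c • f) (σ c • g) :=
  Twist.smul h c

theorem TwistL.sum {ι : Type*} (s : Finset ι) {F G : ι → ℍ → ℂ}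
    (h : ∀ i ∈ s, TwistL L σ (F i) (G i)) : TwistL L σ (∑ i ∈ s, F i) (∑ i ∈ s, G i) := by
  rw [TwistL, map_sum, map_sum]; exact Twist.sum s h

theorem TwistL.left_eq_zero_iff (h : TwistL L σ f g) : f = 0 ↔ g = 0 := by
  rw [← map_eq_zero_iff _ (liftHom_injective L), Twist.left_eq_zero_iff h,
    map_eq_zero_iff _ (liftHom_injective L)]

variable [NeZero L]

theorem twistL_levelOne {k k' : ℤ} (hf : IsLevelOne k f) (hg : IsLevelOne k' g)
    (h : Twist σ f g) : TwistL L σ f g := by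
  refine ⟨(MFCore.lift_isForm (N := L) hf).isQ, (MFCore.lift_isForm (N := L) hg).isQ, ?_⟩
  ext n
  rw [PowerSeries.coeff_map, liftHom_apply, liftHom_apply, MFCore.qExp_lift hg,
    MFCore.qExp_lift hf, h.qExp_eq]
  split_ifs <;> simp

theorem tendsto_diag_atImInfty :
    Tendsto (fun τ : ℍ => ModularForm.heckeDiagMatrix L • τ) atImInfty atImInfty := by
  rw [atImInfty, tendsto_comap_iff]
  have hN : (0 : ℝ) < L := Nat.cast_pos.2 (NeZero.pos L)
  refine ((tendsto_comap (f := UpperHalfPlane.im) (x := atTop)).const_mul_atTop hN).congr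
    fun τ => ?_
  simpa using (congrArg Complex.im
    (ModularForm.coe_heckeDiagMatrix_smul (NeZero.ne L) τ)).symm

/-- An `L`-periodic holomorphic function bounded at infinity has period one after `τ ↦ Lτ`. -/
theorem isQ_liftHom (hm : MDiff f) (hb : IsBoundedAtImInfty f)
    (hp : ∀ τ : ℍ, f ((L : ℝ) +ᵥ τ) = f τ) : IsQ (liftHom L f) := by
  refine ⟨MFCore.periodic_one_of_vadd fun τ => ?_, ?_, hb.comp_tendsto tendsto_diag_atImInfty⟩
  · rw [liftHom_apply, MFCore.lift_apply, MFCore.lift_apply]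
    refine Eq.trans ?_ (hp _)
    congr 1
    ext
    simp [UpperHalfPlane.coe_vadd]
    ring
  · have h := MDifferentiable.slash hm (0 : ℤ) (ModularForm.heckeDiagMatrix L)
    have hL : (L : ℂ) ^ ((0 : ℤ) - 1) ≠ 0 := zpow_ne_zero _ (Nat.cast_ne_zero.2 (NeZero.ne L))
    have e : liftHom L f = ((L : ℂ) ^ ((0 : ℤ) - 1))⁻¹ •
        (f ∣[(0 : ℤ)] ModularForm.heckeDiagMatrix L) := by
      funext z
      rw [Pi.smul_apply, smul_eq_mul, ModularForm.slash_heckeDiagMatrix_apply _ (NeZero.ne L),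
        inv_mul_cancel_left₀ hL]
      rfl
    rw [e]
    exact h.const_smul _

theorem slash_T_pow_apply (k : ℤ) (f : ℍ → ℂ) (n : ℤ) (τ : ℍ) :
    (f ∣[k] (ModularGroup.T ^ n : SL(2, ℤ))) τ = f ((n : ℝ) +ᵥ τ) := by
  rw [ModularForm.SL_slash_apply, modular_T_zpow_smul]
  have : denom ((ModularGroup.T ^ n : SL(2, ℤ)) : GL (Fin 2) ℝ) (τ : ℂ) = 1 := by
    simp [denom, ModularGroup.coe_T_zpow n, -map_zpow]
  rw [this, one_zpow, mul_one]

omit [NeZero L] in
theorem conj_T_pow_mem (γ : SL(2, ℤ)) :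
    γ * ModularGroup.T ^ (L : ℤ) * γ⁻¹ ∈ sgnGamma L := by
  have hT : (ModularGroup.T ^ (L : ℤ) : SL(2, ℤ)) ∈ CongruenceSubgroup.Gamma L := by
    rw [CongruenceSubgroup.Gamma_mem, ModularGroup.coe_T_zpow]
    simp
  exact Gamma_le_sgnGamma L ((CongruenceSubgroup.Gamma_normal L).conj_mem _ hT γ)

omit [NeZero L] in
theorem IsFormOn.periodic_slash {k : ℤ} (hf : IsFormOn (sgnGamma L) k f) (γ : SL(2, ℤ)) (τ : ℍ) :
    (f ∣[k] γ) ((L : ℝ) +ᵥ τ) = (f ∣[k] γ) τ := by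
  have e : (f ∣[k] γ) ∣[k] (ModularGroup.T ^ (L : ℤ) : SL(2, ℤ)) = f ∣[k] γ := by
    conv_rhs => rw [← hf.slash _ (conj_T_pow_mem (L := L) γ)]
    rw [← SlashAction.slash_mul, ← SlashAction.slash_mul, inv_mul_cancel_right]
  have := congrFun e τ
  rw [slash_T_pow_apply] at this
  simpa using this

theorem IsFormOn.isQ_slash {k : ℤ} (hf : IsFormOn (sgnGamma L) k f) (γ : SL(2, ℤ)) :
    IsQ (liftHom L (f ∣[k] γ)) :=
  isQ_liftHom (mdiff_slash_SL hf.holo γ) (hf.bdd γ) (hf.periodic_slash γ)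

end Scale

end Fermat.Agent.LevelM
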