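import Fermat.Agent.LevelM.Ell

/-!
# The transformation `ell (z/τ) (-1/τ) = τ * ell z τ + z`

The main result is `ell_div_tau`: the difference `gfun` of the two sides extends to a bounded
entire function (`gfun_eq_zero`), hence is constant, and it vanishes because it is odd.
-/

set_option autoImplicit false

noncomputable section

open Complex Filter Topology Set
open UpperHalfPlane hiding I

namespace Fermat.Agent.LevelM

variable {τ : ℂ} (hτ : 0 < τ.im)

include hτ in
theorem tau_ne_zero : τ ≠ 0 := fun h => by simp [h] at hτ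

include hτ in
theorem im_neg_inv_pos : 0 < (-1 / τ).im := by
  rw [neg_div, one_div, neg_im, inv_im, neg_div, neg_neg]
  exact div_pos hτ (normSq_pos.2 (tau_ne_zero hτ))

include hτ in
theorem div_tau_mem_lat_iff {z : ℂ} : z / τ ∈ lat (-1 / τ) ↔ z ∈ lat τ := by
  have h0 := tau_ne_zero hτ
  constructor
  · rintro ⟨a, b, h⟩
    refine ⟨b, -a, ?_⟩
    rw [div_eq_iff h0] at h
    rw [h, add_mul, mul_assoc, div_mul_cancel₀ _ h0]
    push_cast
    ring
  · rintro ⟨a, b, rfl⟩
    refine ⟨-b, a, ?_⟩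
    field_simp
    push_cast
    ring

/-- The difference of the two sides. -/
def gfun (τ z : ℂ) : ℂ := ell (z / τ) (-1 / τ) / τ - ell z τ - z / τ

include hτ in
theorem gfun_add_lat {z : ℂ} (hz : z ∉ lat τ) (a b : ℤ) :
    gfun τ (z + (a * τ + b)) = gfun τ z := by
  have h0 := tau_ne_zero hτ
  have hτ' := im_neg_inv_pos hτ
  have hz' : z / τ ∉ lat (-1 / τ) := fun h => hz ((div_tau_mem_lat_iff hτ).1 h)
  have e1 : (z + (a * τ + b)) / τ = z / τ + ((-b : ℤ) : ℂ) * (-1 / τ) + a := by
    field_simp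
    push_cast
    ring
  have e2 : z + ((a : ℂ) * τ + b) = z + a * τ + b := by ring
  rw [gfun, gfun, e1, ell_add_intCast, ell_add_intCast_mul_tau hτ' hz', e2, ell_add_intCast,
    ell_add_intCast_mul_tau hτ hz]
  field_simp
  push_cast
  ring

include hτ in
theorem differentiableAt_gfun {z : ℂ} (hz : z ∉ lat τ) : DifferentiableAt ℂ (gfun τ) z := by
  have hz' : z / τ ∉ lat (-1 / τ) := fun h => hz ((div_tau_mem_lat_iff hτ).1 h)
  unfold gfun
  refine ((DifferentiableAt.div_const ?_ _).sub (differentiableAt_ell hτ hz)).sub (by fun_prop)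
  exact (differentiableAt_ell (im_neg_inv_pos hτ) hz').comp z
    (differentiableAt_id.div_const τ)

include hτ in
theorem gfun_neg {z : ℂ} (hz : z ∉ lat τ) : gfun τ (-z) = -gfun τ z := by
  have hz' : z / τ ∉ lat (-1 / τ) := fun h => hz ((div_tau_mem_lat_iff hτ).1 h)
  rw [gfun, gfun, neg_div, ell_neg (ex_ne_one_of_notMem hz'), ell_neg (ex_ne_one_of_notMem hz)]
  ring

include hτ in
theorem ex_natCast_succ_mul_ne_one (n : ℕ) : ex ((n + 1) * τ + 0) ≠ 1 := by
  intro h
  have := congrArg norm h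
  rw [norm_one, norm_ex, Real.exp_eq_one_iff] at this
  simp only [add_zero, mul_im, add_re, natCast_re, one_re, add_im, natCast_im, one_im,
    zero_mul, add_zero] at this
  nlinarith [Real.pi_pos, mul_pos (show (0 : ℝ) < (n : ℝ) + 1 by positivity) hτ]

include hτ in
theorem eventually_differentiableAt_psum :
    ∀ᶠ z in 𝓝 (0 : ℂ), DifferentiableAt ℂ (psum τ) z := by
  obtain ⟨n₀, u, -, hb⟩ := exists_bound hτ τ 0 rfl
  have h1 : ∀ᶠ z in 𝓝 (0 : ℂ), ∀ n ∈ Finset.range n₀, ex ((n + 1) * τ + z) ≠ 1 := by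
    rw [eventually_all_finset]
    intro n _
    have hc : ContinuousAt (fun z => ex ((n + 1) * τ + z)) 0 := by unfold ex; fun_prop
    exact hc.eventually_ne (ex_natCast_succ_mul_ne_one hτ n)
  filter_upwards [h1, Metric.ball_mem_nhds (0 : ℂ) one_pos] with z hz hz'
  refine differentiableAt_psum hτ fun n => ?_
  rcases lt_or_ge n n₀ with hn | hn
  · exact hz n (Finset.mem_range.2 hn)
  · intro h1
    obtain ⟨m, rfl⟩ := Nat.exists_eq_add_of_le hn
    rw [add_comm n₀ m] at h1
    have := (hb m z hz').1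
    rw [h1, norm_one] at this
    norm_num at this

/-- The regular part of `ell` at `0`. -/
theorem exists_singular_part {τ : ℂ} (hτ : 0 < τ.im) :
    ∃ R : ℂ → ℂ, AnalyticAt ℂ R 0 ∧
      ∀ᶠ z in 𝓝[≠] (0 : ℂ), ell z τ = 1 / (2 * Real.pi * I * z) + R z := by
  set φ : ℂ → ℂ := dslope (fun z => 1 - ex z) 0 with hφ
  have hd : AnalyticAt ℂ (fun z => 1 - ex z) 0 :=
    (Differentiable.analyticAt ((differentiable_const _).sub differentiable_ex) 0)
  have hφa : AnalyticAt ℂ φ 0 :=
    (HasFPowerSeriesAt.has_fpower_series_dslope_fslope hd.choose_spec).analyticAt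
  have hφ0 : φ 0 = -(2 * Real.pi * I) := by
    rw [hφ, dslope_same, deriv_const_sub]
    have h1 : HasDerivAt ex (Complex.exp (2 * Real.pi * I * 0) * (2 * Real.pi * I * 1)) 0 :=
      ((hasDerivAt_id (0 : ℂ)).const_mul (2 * Real.pi * I)).cexp
    rw [h1.deriv]
    simp
  have hc : (2 : ℂ) * Real.pi * I ≠ 0 := by simp [Real.pi_ne_zero, I_ne_zero]
  set ψ : ℂ → ℂ := fun z => (φ z)⁻¹ with hψ
  have hψa : AnalyticAt ℂ ψ 0 := hφa.inv (by rw [hφ0]; exact neg_ne_zero.2 hc)
  have hψd : AnalyticAt ℂ (dslope ψ 0) 0 :=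
    (HasFPowerSeriesAt.has_fpower_series_dslope_fslope hψa.choose_spec).analyticAt
  set P : ℂ → ℂ := fun z => psum τ z - psum τ (-z) with hP
  have hPa : AnalyticAt ℂ P 0 := by
    rw [analyticAt_iff_eventually_differentiableAt]
    have h2 : Tendsto (fun z : ℂ => -z) (𝓝 0) (𝓝 0) := by
      simpa using (continuous_neg.tendsto (0 : ℂ))
    filter_upwards [eventually_differentiableAt_psum hτ,
      h2.eventually (eventually_differentiableAt_psum hτ)] with z hz hz'
    exact hz.sub (hz'.comp z (by fun_prop))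
  refine ⟨fun z => 1 / 2 - dslope ψ 0 z - P z,
    (analyticAt_const.sub hψd).sub hPa, ?_⟩
  filter_upwards [self_mem_nhdsWithin] with z hz
  have hz0 : z ≠ 0 := hz
  have h1 : 1 - ex z = z * φ z := by
    rw [hφ, dslope_of_ne _ hz0, slope_def_field, ex_zero, sub_self, sub_zero, sub_zero,
      mul_div_cancel₀ _ hz0]
  have h2 : dslope ψ 0 z = (ψ z - ψ 0) / z := by
    rw [dslope_of_ne _ hz0, slope_def_field, sub_zero]
  have h3 : 1 / (1 - ex z) = ψ z / z := by
    rw [h1, hψ, one_div, mul_inv, mul_comm]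
    rfl
  rw [ell, h3, h2, show ψ 0 = -(1 / (2 * Real.pi * I)) by rw [hψ]; simp [hφ0], hP]
  field_simp
  ring

/-- `lat τ` is stable under translation by its elements. -/
theorem lat_add_iff (w : ℂ) (a b : ℤ) : w + (a * τ + b) ∈ lat τ ↔ w ∈ lat τ := by
  refine ⟨fun h => ?_, fun h => ?_⟩
  · by_contra hc
    exact add_notMem hc a b h
  · obtain ⟨c, d, rfl⟩ := h
    exact ⟨c + a, d + b, by push_cast; ring⟩

include hτ in
/-- The lattice is discrete. -/
theorem eventually_notMem_punctured (z : ℂ) : ∀ᶠ w in 𝓝[≠] z, w ∉ lat τ := by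
  have key : ∀ a b : ℤ, (a : ℝ) * τ.im = 0 → |(a : ℝ) * τ.re + b| < 1 → a = 0 ∧ b = 0 := by
    intro a b h h'
    have ha : a = 0 := by simpa [hτ.ne'] using h
    subst ha
    refine ⟨rfl, ?_⟩
    simp only [Int.cast_zero, zero_mul, zero_add, ← Int.cast_abs] at h'
    exact Int.abs_lt_one_iff.1 (by exact_mod_cast h')
  by_cases hc : ∃ w₀, w₀ ∈ lat τ ∧ dist w₀ z < min τ.im 1 / 2
  · obtain ⟨w₀, ⟨a, b, hw₀⟩, hd⟩ := hc
    have hsmall : ∀ᶠ w in 𝓝 z, dist w z < min τ.im 1 / 2 :=
      Metric.ball_mem_nhds z (by positivity)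
    have hne : ∀ᶠ w in 𝓝[≠] z, w ≠ w₀ := by
      rcases eq_or_ne z w₀ with rfl | h
      · exact self_mem_nhdsWithin
      · exact (eventually_ne_nhds h).filter_mono nhdsWithin_le_nhds
    filter_upwards [hsmall.filter_mono nhdsWithin_le_nhds, hne] with w hw hwne
    rintro ⟨c, d, hwe⟩
    have hlt : ‖w - w₀‖ < min τ.im 1 := by
      rw [← dist_eq_norm]
      calc dist w w₀ ≤ dist w z + dist w₀ z := dist_triangle_right _ _ _
        _ < _ := by linarith
    have e : w - w₀ = ((c - a : ℤ) : ℂ) * τ + ((d - b : ℤ) : ℂ) := by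
      rw [hwe, hw₀]; push_cast; ring
    rw [e] at hlt
    have him : |((c - a : ℤ) : ℝ) * τ.im| < τ.im := by
      have := (Complex.abs_im_le_norm _).trans_lt (hlt.trans_le (min_le_left _ _))
      simpa using this
    have h0 : ((c - a : ℤ) : ℝ) * τ.im = 0 := by
      rw [abs_mul, abs_of_pos hτ] at him
      have h1 : |((c - a : ℤ) : ℝ)| < 1 := by nlinarith
      rw [← Int.cast_abs] at h1
      have h2 : |c - a| < 1 := by exact_mod_cast h1
      rw [Int.abs_lt_one_iff.1 h2, Int.cast_zero, zero_mul]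
    have hre : |((c - a : ℤ) : ℝ) * τ.re + (d - b : ℤ)| < 1 := by
      have := (Complex.abs_re_le_norm _).trans_lt (hlt.trans_le (min_le_right _ _))
      simpa using this
    obtain ⟨h1, h2⟩ := key _ _ h0 hre
    exact hwne (by rw [hwe, hw₀, sub_eq_zero.1 h1, sub_eq_zero.1 h2])
  · push Not at hc
    filter_upwards [(Metric.ball_mem_nhds z (show 0 < min τ.im 1 / 2 by positivity) :
      Metric.ball z (min τ.im 1 / 2) ∈ 𝓝 z) |> mem_nhdsWithin_of_mem_nhds] with w hw hwl
    exact absurd (hc w hwl) (not_le.2 hw)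

include hτ in
/-- The complement of the lattice is a neighbourhood of each of its points. -/
theorem eventually_notMem {z : ℂ} (hz : z ∉ lat τ) : ∀ᶠ w in 𝓝 z, w ∉ lat τ := by
  have h := eventually_notMem_punctured hτ z
  rw [eventually_nhdsWithin_iff] at h
  filter_upwards [h] with w hw
  rcases eq_or_ne w z with rfl | hne
  · exact hz
  · exact hw hne

include hτ in
/-- Liouville's theorem for doubly periodic entire functions. -/
theorem apply_eq_apply_of_periodic {H : ℂ → ℂ} (hH : Differentiable ℂ H)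
    (hper : ∀ w (a b : ℤ), H (w + (a * τ + b)) = H w) (z w : ℂ) : H z = H w := by
  refine hH.apply_eq_apply_of_bounded ?_ z w
  have hK : IsCompact ((fun p : ℝ × ℝ => H (p.1 * τ + p.2)) '' (Icc 0 1 ×ˢ Icc 0 1)) :=
    (isCompact_Icc.prod isCompact_Icc).image (hH.continuous.comp (by fun_prop))
  refine hK.isBounded.subset ?_
  rintro _ ⟨x, rfl⟩
  obtain ⟨s, t, rfl⟩ : ∃ s t : ℝ, x = s * τ + t := by
    refine ⟨x.im / τ.im, x.re - x.im / τ.im * τ.re, Complex.ext (by simp) ?_⟩
    simp only [add_im, mul_im, ofReal_re, ofReal_im, zero_mul, add_zero]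
    field_simp
  refine ⟨(Int.fract s, Int.fract t), ⟨⟨Int.fract_nonneg s, (Int.fract_lt_one s).le⟩,
    Int.fract_nonneg t, (Int.fract_lt_one t).le⟩, ?_⟩
  show H _ = _
  rw [← hper ((Int.fract s : ℝ) * τ + (Int.fract t : ℝ)) ⌊s⌋ ⌊t⌋]
  congr 1
  simp only [Int.fract, ofReal_sub, ofReal_intCast]
  ring

include hτ in
theorem gfun_eq_zero {z : ℂ} (hz : z ∉ lat τ) : gfun τ z = 0 := by
  have h0 := tau_ne_zero hτ
  obtain ⟨R, hR, hRe⟩ := exists_singular_part hτ
  obtain ⟨R', hR', hR'e⟩ := exists_singular_part (im_neg_inv_pos hτ)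
  set g : ℂ → ℂ := fun w => R' (w / τ) / τ - R w - w / τ with hg
  have hga : AnalyticAt ℂ g 0 := by
    have h1 : AnalyticAt ℂ (fun w : ℂ => w / τ) 0 := analyticAt_id.div_const
    exact ((AnalyticAt.comp_of_eq hR' h1 (zero_div τ)).div_const.sub hR).sub h1
  have hge : ∀ᶠ w in 𝓝[≠] (0 : ℂ), gfun τ w = g w := by
    have ht : Tendsto (fun w : ℂ => w / τ) (𝓝[≠] 0) (𝓝[≠] 0) := by
      refine tendsto_nhdsWithin_iff.2 ⟨?_, ?_⟩
      · have : ContinuousAt (fun w : ℂ => w / τ) 0 := by fun_prop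
        simpa using this.tendsto.mono_left nhdsWithin_le_nhds
      · filter_upwards [self_mem_nhdsWithin] with w hw
        exact div_ne_zero hw h0
    filter_upwards [hRe, ht.eventually hR'e, self_mem_nhdsWithin] with w h1 h2 hw
    rw [gfun, h1, h2, hg]
    field_simp
    ring
  classical
  set H : ℂ → ℂ := fun w => if w ∈ lat τ then g 0 else gfun τ w with hH
  have hper : ∀ w (a b : ℤ), H (w + (a * τ + b)) = H w := by
    intro w a b
    by_cases hw : w ∈ lat τ
    · rw [hH]; simp only [if_pos hw, if_pos ((lat_add_iff w a b).2 hw)]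
    · rw [hH]; simp only [if_neg hw, if_neg (fun h => hw ((lat_add_iff w a b).1 h))]
      exact gfun_add_lat hτ hw a b
  have hdiff : Differentiable ℂ H := by
    intro w
    by_cases hw : w ∈ lat τ
    · obtain ⟨a, b, rfl⟩ := hw
      have h1 : ∀ᶠ v in 𝓝 (0 : ℂ), H v = g v := by
        have h2 := hge.and (eventually_notMem_punctured hτ 0)
        rw [eventually_nhdsWithin_iff] at h2
        filter_upwards [h2] with v hv
        by_cases hv0 : v = 0
        · subst hv0
          simp only [hH, if_pos (show (0 : ℂ) ∈ lat τ from ⟨0, 0, by simp⟩)]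
        · obtain ⟨e1, e2⟩ := hv hv0
          simp only [hH, if_neg e2, e1]
      have hH0 : DifferentiableAt ℂ H 0 := hga.differentiableAt.congr_of_eventuallyEq h1
      have he : H = fun v => H (v - ((a : ℂ) * τ + b)) := funext fun v => by
        have := hper (v - ((a : ℂ) * τ + b)) a b
        rwa [sub_add_cancel] at this
      rw [he]
      have hH0' : DifferentiableAt ℂ H ((a : ℂ) * τ + b - ((a : ℂ) * τ + b)) := by rwa [sub_self]
      exact DifferentiableAt.comp (g := H) (f := fun v : ℂ => v - ((a : ℂ) * τ + b))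
        ((a : ℂ) * τ + b) hH0' (by fun_prop)
    · have hclosed := eventually_notMem hτ hw
      refine (differentiableAt_gfun hτ hw).congr_of_eventuallyEq ?_
      filter_upwards [hclosed] with v hv
      simp only [hH, if_neg hv]
  have h1 : gfun τ z = H z := by simp only [hH, if_neg hz]
  have h2 : gfun τ (-z) = H (-z) := by simp only [hH, if_neg (neg_notMem hz)]
  have h3 := gfun_neg hτ hz
  rw [h2, apply_eq_apply_of_periodic hτ hdiff hper (-z) z, ← h1] at h3
  linear_combination h3 / 2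

include hτ in
/-- **Modular transformation** of `ell`. -/
theorem ell_div_tau {z : ℂ} (hz : z ∉ lat τ) :
    ell (z / τ) (-1 / τ) = τ * ell z τ + z := by
  have h := gfun_eq_zero hτ hz
  rw [gfun, sub_sub, sub_eq_zero, div_eq_iff (tau_ne_zero hτ)] at h
  rw [h, add_mul, div_mul_cancel₀ _ (tau_ne_zero hτ)]
  ring

end Fermat.Agent.LevelM
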